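import Fermat.Agent.Reduction.Level.Integral

/-!
# Integrality of all conjugates of an integral regular element

`exists_piR` chooses a map `ℤ[ζ_N] → A` whose reduction keeps `ζ_N` primitive; with it,
`exists_red_all` and `red_conj` show that a regular element with integral `q`-expansion has
integral conjugates at every cusp, reducing to the conjugates of its reduction.
-/

set_option autoImplicit false

noncomputable section

open scoped MatrixGroups
open Polynomial ModularCurve Fermat.Agent.Igusa

namespace Fermat.Agent.Reduction.Level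

variable {K k : Type*} [Field K] [Field k] {A : ValuationSubring K} {π : A →+* k}
variable {N : ℕ} [NeZero N]

theorem qExpand_coeff_red {y : LaurentSeries K} {x : LaurentSeries k}
    (h : Red A π (qExpand K N y) (qExpand k N x)) : Red A π y x := fun n => by
  have := h ((N : ℤ) * n)
  rwa [qExpand_coeff_mul, qExpand_coeff_mul] at this

theorem red_qExpand {y : LaurentSeries K} {x : LaurentSeries k} (h : Red A π y x) :
    Red A π (qExpand K N y) (qExpand k N x) := by
  obtain ⟨z, rfl, rfl⟩ := red_iff_exists.mp h
  exact red_iff_exists.mpr ⟨qExpand A N z, coeffMap_qExpand _ _ _, coeffMap_qExpand _ _ _⟩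

variable [IsAlgClosed K] [IsAlgClosed k]

variable (A π N) in
omit [IsAlgClosed k] in
/-- A map from `ℤ[ζ_N]` to `A` keeping `ζ_N` primitive in both fields. -/
theorem exists_piR (hN : (N : k) ≠ 0) :
    ∃ πR : Rz N →+* A, IsPrimitiveRoot (A.subtype.comp πR (zetaR N)) N ∧
      IsPrimitiveRoot (π.comp πR (zetaR N)) N := by
  have hNK : (N : K) ≠ 0 := fun h => hN (by
    rw [← map_natCast π N, show (N : A) = 0 from A.subtype_injective (by simpa using h), map_zero])
  have : NeZero (N : K) := ⟨hNK⟩
  have : NeZero (N : k) := ⟨hN⟩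
  obtain ⟨y, hy⟩ := HasEnoughRootsOfUnity.exists_primitiveRoot K N
  obtain ⟨p, hp⟩ := exists_hom_of_primitiveRoot N hy
  have hyA : y ∈ A := by
    rw [← ValuationSubring.valuation_le_one_iff]
    refine le_of_eq (pow_eq_one_iff_left (NeZero.ne N) |>.mp ?_)
    rw [← map_pow, hy.pow_eq_one, map_one]
  have hpA : ∀ r, p r ∈ A := by
    rintro ⟨r, hr⟩
    induction hr using Algebra.adjoin_induction with
    | mem z hz =>
      obtain rfl : z = zetaC N := hz
      show p (zetaR N) ∈ A
      rw [hp]
      exact hyA
    | algebraMap n =>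
      show p (algebraMap ℤ (Rz N) n) ∈ A
      rw [eq_intCast, map_intCast]
      exact intCast_mem A n
    | add z z' hz hz' ih ih' =>
      show p ((⟨z, hz⟩ : Rz N) + ⟨z', hz'⟩) ∈ A
      rw [map_add]
      exact add_mem ih ih'
    | mul z z' hz hz' ih ih' =>
      show p ((⟨z, hz⟩ : Rz N) * ⟨z', hz'⟩) ∈ A
      rw [map_mul]
      exact mul_mem ih ih'
  refine ⟨p.codRestrict A hpA, hp.symm ▸ hy, ?_⟩
  rw [← Polynomial.isRoot_cyclotomic_iff, RingHom.comp_apply,
    ← Polynomial.map_cyclotomic N π, Polynomial.IsRoot.def, Polynomial.eval_map,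
    Polynomial.eval₂_at_apply]
  rw [show Polynomial.eval ((p.codRestrict A hpA) (zetaR N)) (cyclotomic N A) = 0 from ?_, map_zero]
  refine A.subtype_injective ?_
  rw [map_zero, ← Polynomial.eval₂_at_apply, ← Polynomial.eval_map, Polynomial.map_cyclotomic,
    show A.subtype ((p.codRestrict A hpA) (zetaR N)) = y from hp]
  exact hy.isRoot_cyclotomic (NeZero.pos N)

variable (hπs : Function.Surjective π) (πR : Rz N →+* A)
  (hK : IsPrimitiveRoot (A.subtype.comp πR (zetaR N)) N)
  (hk : IsPrimitiveRoot (π.comp πR (zetaR N)) N)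

include hπs hK hk

/-- The reduction of an integral regular element is a regular element, and all conjugates
reduce accordingly. -/
theorem exists_red_all {y : modularFunctionFieldFullC K N} (hy : RegFin y)
    {x : LaurentSeries k} (hx : Red A π (y : LaurentSeries K) x) :
    ∃ w : modularFunctionFieldFullC k N, RegFin w ∧ (w : LaurentSeries k) = x ∧
      ∀ i, Red A π (sig _ hK i y) (sig _ hk i w) := by
  rcases eq_or_ne y 0 with rfl | hy0
  · refine ⟨0, ?_, ?_, fun i => by simpa using red_zero⟩
    · simpa using regFin_algebraMap (N := N) (0 : k)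
    · rw [show x = 0 from hx.unique (by simpa using red_zero)]
      rfl
  obtain ⟨c, hc, w₁, hw₁, hw₁R, hred⟩ := exists_normalized hπs πR hK hk hy hy0
  have h0 : Red A π (c • (y : LaurentSeries K)) (w₁ : LaurentSeries k) := by
    refine qExpand_coeff_red (N := N) ?_
    have h := hred cst0
    rw [sig_cst0_apply, sig_cst0_apply] at h
    rw [smul_eq_algebraMap_mul]
    exact h
  have hcA : c⁻¹ ∈ A := by
    obtain ⟨n, hn⟩ : ∃ n, (w₁ : LaurentSeries k).coeff n ≠ 0 := by
      by_contra hall
      push Not at hall
      exact hw₁ (Subtype.ext (HahnSeries.ext (funext hall)))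
    have h2 := h0.coeff_valuation_eq_one hπs hn
    rw [coeff_smulC, map_mul, mul_comm] at h2
    rw [← ValuationSubring.valuation_le_one_iff, map_inv₀, ← eq_inv_of_mul_eq_one_left h2]
    exact (ValuationSubring.valuation_le_one_iff _ _).mpr (hx.coeff_mem n)
  set a : A := ⟨c⁻¹, hcA⟩
  set w := algebraMap k (modularFunctionFieldFullC k N) (π a) * w₁
  have hall : ∀ i, Red A π (sig _ hK i y) (sig _ hk i w) := by
    intro i
    have h := (red_algebraMap (π := π) a).mul (hred i)
    rw [map_mul, sig_algebraMap, ← mul_assoc, ← map_mul,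
      show (a : K) * c = 1 from inv_mul_cancel₀ hc, map_one, one_mul] at h
    rwa [map_mul, sig_algebraMap]
  refine ⟨w, (regFin_algebraMap _).mul hw₁R, Red.unique (qExpand_coeff_red (N := N) ?_) hx, hall⟩
  have h := hall cst0
  rwa [sig_cst0_apply, sig_cst0_apply] at h

/-- An integral regular element has integral conjugates. -/
theorem red_conj {y : modularFunctionFieldFullC K N} (hy : RegFin y)
    {w : modularFunctionFieldFullC k N} (hw : Red A π (y : LaurentSeries K) (w : LaurentSeries k))
    (i : Cst N) : Red A π (sig _ hK i y) (sig _ hk i w) := by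
  obtain ⟨w', -, h', hall⟩ := exists_red_all hπs πR hK hk hy hw
  exact Subtype.ext h' ▸ hall i

end Fermat.Agent.Reduction.Level
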