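import Fermat.Agent.Reduction.Level.DescendNorm
import Fermat.Agent.Reduction.Level.Principle

/-!
# Lifting descends along `N ∣ L`

If every regular element at level `L` lifts to an integral regular element, then so does every
regular element at level `N`: the liftable elements form an algebra containing the norms and
traces from level `L`; the trace puts a nonzero multiple of every element there and norms of
suitable elements separate finitely many places to any order.
-/

set_option autoImplicit false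

noncomputable section

open scoped MatrixGroups
open Polynomial ModularCurve IntermediateField AlgebraicCurve Fermat.Agent.Igusa

attribute [-instance] IsScalarTower.of_algHom

namespace Fermat.Agent.Reduction.Level

section SepAlgebra

variable {k F : Type*} [Field k] [Field F] [Algebra k F]

/-- A subalgebra of regular elements which separates finitely many places to first order
separates them to any order. -/
theorem exists_mem_approx [IsAlgClosed k] [FF.IsFunctionField k F] (C : Subalgebra k F)
    (T : Finset (Place k F))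
    (hC : ∀ c ∈ C, ∀ v ∈ T, c ∈ FF.ordGE v 0)
    (hsep : ∀ P ∈ T, ∃ c ∈ C, c ≠ 0 ∧ P.ord c = 1 ∧ ∀ Q ∈ T, Q ≠ P → Q.ord c = 0)
    (E : ℕ) {x : F} (hx : ∀ v ∈ T, x ∈ FF.ordGE v 0) :
    ∃ c ∈ C, ∀ v ∈ T, x - c ∈ FF.ordGE v (E : ℤ) := by
  classical
  choose! g hgC hg0 hg1 hgz using hsep
  have hloc : ∀ P ∈ T, ∀ m : ℕ, ∃ c ∈ C, x - c ∈ FF.ordGE P (m : ℤ) ∧
      ∀ Q ∈ T, Q ≠ P → c ∈ FF.ordGE Q (E : ℤ) := by
    intro P hP m
    set u := ∏ Q ∈ T.erase P, g Q ^ E with hu
    have hu0 : u ≠ 0 := Finset.prod_ne_zero_iff.mpr fun Q hQ =>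
      pow_ne_zero _ (hg0 Q (Finset.mem_of_mem_erase hQ))
    have huord : ∀ v ∈ T, v.ord u = if v = P then 0 else (E : ℤ) := by
      intro v hv
      rw [hu, FF.ord_prod v _ _ fun Q hQ => pow_ne_zero _ (hg0 Q (Finset.mem_of_mem_erase hQ))]
      split_ifs with h
      · subst h
        refine Finset.sum_eq_zero fun Q hQ => ?_
        rw [FF.ord_pow, hgz Q (Finset.mem_of_mem_erase hQ) v hv
          (Finset.ne_of_mem_erase hQ).symm, mul_zero]
      · rw [Finset.sum_eq_single_of_mem v (Finset.mem_erase.mpr ⟨h, hv⟩), FF.ord_pow, hg1 v hv,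
          mul_one]
        intro Q hQ hne
        rw [FF.ord_pow, hgz Q (Finset.mem_of_mem_erase hQ) v hv hne.symm, mul_zero]
    have huC : u ∈ C := prod_mem fun Q hQ => pow_mem (hgC Q (Finset.mem_of_mem_erase hQ)) E
    induction m with
    | zero =>
      refine ⟨0, zero_mem _, ?_, fun _ _ _ => zero_mem _⟩
      rw [sub_zero, Nat.cast_zero]
      exact hx P hP
    | succ m ih =>
      obtain ⟨c, hcC, hc, hcQ⟩ := ih
      set b := g P ^ m * u
      have hb0 : b ≠ 0 := mul_ne_zero (pow_ne_zero _ (hg0 P hP)) hu0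
      have hbord : P.ord b = (m : ℤ) := by
        rw [P.ord_mul (pow_ne_zero _ (hg0 P hP)) hu0, FF.ord_pow, hg1 P hP, huord P hP,
          if_pos rfl, mul_one, add_zero]
      have hy : (x - c) / b ∈ FF.ordGE P 0 := by
        rw [← FF.mul_mem_ordGE_iff P hb0, hbord, add_zero, mul_div_cancel₀ _ hb0]
        exact hc
      obtain ⟨a, ha⟩ := FF.exists_sub_algebraMap_mem P hy
      have hbC : algebraMap k F a * b ∈ C :=
        mul_mem (C.algebraMap_mem a) (mul_mem (pow_mem (hgC P hP) m) huC)
      refine ⟨c + algebraMap k F a * b, add_mem hcC hbC, ?_, fun Q hQ hne => ?_⟩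
      · have h1 := (FF.mul_mem_ordGE_iff P hb0).mpr ha
        rw [hbord, mul_sub, mul_div_cancel₀ _ hb0] at h1
        rw [Nat.cast_succ, ← sub_sub, mul_comm (algebraMap k F a)]
        exact h1
      · refine add_mem (hcQ Q hQ hne) ?_
        have h1 : algebraMap k F a * g P ^ m ∈ FF.ordGE Q 0 :=
          hC _ (mul_mem (C.algebraMap_mem a) (pow_mem (hgC P hP) m)) Q hQ
        have h2 : u ∈ FF.ordGE Q (E : ℤ) := by
          refine FF.mem_ordGE_of_le_ord Q ?_
          rw [huord Q hQ, if_neg hne]
        have h3 := FF.mul_mem_ordGE Q h1 h2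
        rwa [zero_add, mul_assoc] at h3
  choose! c hcC hc hcQ using fun P hP => hloc P hP E
  refine ⟨∑ P ∈ T, c P, sum_mem hcC, fun v hv => ?_⟩
  rw [← Finset.add_sum_erase _ _ hv, ← sub_sub]
  exact sub_mem (hc v hv)
    (Submodule.sum_mem _ fun P hP => hcQ P (Finset.mem_of_mem_erase hP) v hv
      (Finset.ne_of_mem_erase hP).symm)

end SepAlgebra

variable {K k : Type*} [Field K] [Field k]

section LiftAlgebra

variable (A : ValuationSubring K) (π : A →+* k) (N : ℕ) [NeZero N]

/-- Regular elements with an integral regular lift. -/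
def liftAlg (hπs : Function.Surjective π) : Subalgebra k (modularFunctionFieldFullC k N) where
  carrier := {w | RegFin w ∧ ∃ y : modularFunctionFieldFullC K N,
    RegFin y ∧ Red A π (y : LaurentSeries K) (w : LaurentSeries k)}
  mul_mem' := by
    rintro w w' ⟨hw, y, hy, h⟩ ⟨hw', y', hy', h'⟩
    exact ⟨hw.mul hw', y * y', hy.mul hy', h.mul h'⟩
  add_mem' := by
    rintro w w' ⟨hw, y, hy, h⟩ ⟨hw', y', hy', h'⟩
    exact ⟨hw.add hw', y + y', hy.add hy', h.add h'⟩
  algebraMap_mem' c := by
    obtain ⟨a, rfl⟩ := hπs c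
    exact ⟨regFin_algebraMap _, algebraMap K _ (a : K), regFin_algebraMap _, red_algebraMap a⟩

end LiftAlgebra

variable [IsAlgClosed K] [IsAlgClosed k] {A : ValuationSubring K} {π : A →+* k}
  (hπs : Function.Surjective π) {N L : ℕ} [NeZero N] [NeZero L] (hNL : N ∣ L)

include hπs in
/-- Norms and traces from level `L` lift. -/
theorem norm_trace_mem_liftAlg (hL : (L : k) ≠ 0) (h : NormalLift A π L)
    {z : modularFunctionFieldFullC k L} (hz : RegFin z) :
    letI := (incl (k := k) hNL).toAlgebra
    Algebra.norm (modularFunctionFieldFullC k N) z ∈ liftAlg A π N hπs ∧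
      Algebra.trace (modularFunctionFieldFullC k N) (modularFunctionFieldFullC k L) z ∈
        liftAlg A π N hπs := by
  let := (incl (k := k) hNL).toAlgebra
  let := (incl (k := K) hNL).toAlgebra
  obtain ⟨πR, hK, hk⟩ := exists_piR A π L hL
  obtain ⟨y, hy, hyz⟩ := h z hz
  have hS : fixSet hNL (A.subtype.comp πR) = fixSet hNL (π.comp πR) := by
    ext i
    rw [mem_fixSet, mem_fixSet, Gk_eq_Gk_iff _ hK, Gk_eq_Gk_iff _ hk]
  obtain ⟨hN1, hT1⟩ := qExpand_norm_trace hNL _ hK y
  obtain ⟨hN2, hT2⟩ := qExpand_norm_trace hNL _ hk z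
  obtain ⟨rN1, rT1⟩ := regFin_norm_trace hNL _ hK hy
  obtain ⟨rN2, rT2⟩ := regFin_norm_trace hNL _ hk hz
  refine ⟨⟨rN2, _, rN1, qExpand_coeff_red (N := L) ?_⟩,
    ⟨rT2, _, rT1, qExpand_coeff_red (N := L) ?_⟩⟩
  · rw [hN1, hN2, hS]
    exact Red.prod _ fun i _ => red_conj hπs πR hK hk hy hyz i
  · rw [hT1, hT2, hS]
    exact Red.sum _ fun i _ => red_conj hπs πR hK hk hy hyz i

omit [IsAlgClosed K] in
/-- An element of level `L` with a simple zero at one place over `P`, none at the other places
over a finite set `T` of finite places and no pole at a finite place. -/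
theorem exists_sep_regFin (hL : (L : k) ≠ 0) (hN : (N : k) ≠ 0)
    (T : Finset (Place k (modularFunctionFieldFullC k N)))
    (hT : ∀ v ∈ T, jC k N ∈ v.toValuationSubring)
    {P : Place k (modularFunctionFieldFullC k N)} (hP : P ∈ T) :
    letI := (incl (k := k) hNL).toAlgebra
    ∃ z : modularFunctionFieldFullC k L, RegFin z ∧
      (Algebra.norm (modularFunctionFieldFullC k N) z) ≠ 0 ∧
      P.ord (Algebra.norm (modularFunctionFieldFullC k N) z) = 1 ∧
      ∀ Q ∈ T, Q ≠ P → Q.ord (Algebra.norm (modularFunctionFieldFullC k N) z) = 0 := by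
  classical
  let := (incl (k := k) hNL).toAlgebra
  have : IsScalarTower k (modularFunctionFieldFullC k N) (modularFunctionFieldFullC k L) :=
    IsScalarTower.of_algebraMap_eq fun c => (incl_algebraMap hNL c).symm
  obtain ⟨hfin, hsep⟩ := finite_separable_incl (k := k) hNL hL
  have := isFunctionField_level (k := k) hN
  have := isFunctionField_level (k := k) hL
  have hjt : Transcendental k (jC k L) := FF.transcendental_jC k L
  have hjsub : ∀ a : k, jC k L - algebraMap k _ a ≠ 0 := fun a h0 =>
    hjt (sub_eq_zero.mp h0 ▸ isAlgebraic_algebraMap a)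
  have hjN : ∀ a : k, algebraMap (modularFunctionFieldFullC k N) (modularFunctionFieldFullC k L)
      (jC k N - algebraMap k _ a) = jC k L - algebraMap k _ a := fun a => by
    rw [map_sub, ← IsScalarTower.algebraMap_apply]
    exact congrArg (· - _) (incl_jC hNL)
  choose! val hval using fun v hv =>
    FF.exists_sub_algebraMap_mem v ((FF.mem_toValuationSubring_iff v).mp (hT v hv))
  -- places with the same value of `j` as some place in `T`
  choose D hD _ using fun a : k =>
    HasPrincipalDivisors.exists_divisor (K := k) (F := modularFunctionFieldFullC k L) _ (hjsub a)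
  set S := T.biUnion fun v => (D (val v)).support.filter fun w =>
    0 < w.ord (jC k L - algebraMap k _ (val v)) with hS
  have hmemS : ∀ w (v : Place k (modularFunctionFieldFullC k N)), v ∈ T →
      0 < w.ord (jC k L - algebraMap k _ (val v)) → w ∈ S := fun w v hv hw =>
    Finset.mem_biUnion.mpr ⟨v, hv, Finset.mem_filter.mpr
      ⟨Finsupp.mem_support_iff.mpr (by rw [hD]; omega), hw⟩⟩
  have hjord : ∀ v ∈ T, jC k N - algebraMap k _ (val v) = 0 ∨
      1 ≤ v.ord (jC k N - algebraMap k _ (val v)) := fun v hv =>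
    (FF.mem_ordGE v).mp (hval v hv)
  have hposN : ∀ v ∈ T, 0 < v.ord (jC k N - algebraMap k _ (val v)) := fun v hv =>
    lt_of_lt_of_le one_pos ((hjord v hv).resolve_left fun h0 =>
      FF.transcendental_jC k N (sub_eq_zero.mp h0 ▸ isAlgebraic_algebraMap _))
  have hposL : ∀ w : Place k (modularFunctionFieldFullC k L),
      w.restrict (modularFunctionFieldFullC k N) ∈ T →
      0 < w.ord (jC k L - algebraMap k _ (val (w.restrict (modularFunctionFieldFullC k N)))) := by
    intro w hw
    rw [← hjN, w.ord_restrict]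
    exact mul_pos (by exact_mod_cast w.ramificationIndex_pos (F := modularFunctionFieldFullC k N))
      (hposN _ hw)
  obtain ⟨w₀, hw₀⟩ := FF.fiber_nonempty (F' := modularFunctionFieldFullC k L) P
  rw [Place.mem_fiber] at hw₀
  obtain ⟨t, ht0, ht⟩ := FF.exists_uniformizer w₀
  obtain ⟨z₀, hz₀⟩ := FF.exists_approx S
    (fun w => if w = w₀ then t else
      if w.restrict (modularFunctionFieldFullC k N) ∈ T then 1 else 0)
    (fun w => if w = w₀ then 2 else if w.restrict (modularFunctionFieldFullC k N) ∈ T then 1 else 0)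
  have hw₀S : w₀ ∈ S := hmemS w₀ _ (hw₀ ▸ hP) (hposL w₀ (hw₀ ▸ hP))
  have hz₀w : z₀ ≠ 0 ∧ w₀.ord z₀ = 1 := by
    have h1 := hz₀ w₀ hw₀S
    simp only [if_pos] at h1
    rw [← ht]
    exact FF.ord_eq_of_sub_mem w₀ ht0 (by rw [ht]; exact h1)
  have hz₀T : ∀ w, w ≠ w₀ → w.restrict (modularFunctionFieldFullC k N) ∈ T → w.ord z₀ = 0 := by
    intro w hne hw
    have h1 := hz₀ w (hmemS w _ hw (hposL w hw))
    simp only [if_neg hne, if_pos hw] at h1
    have h2 := (FF.ord_eq_of_sub_mem w (f := z₀) one_ne_zero (by rwa [w.ord_one, zero_add])).2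
    rwa [w.ord_one] at h2
  have hz₀S : ∀ w ∈ S, 0 ≤ w.ord z₀ := by
    intro w hw
    rcases eq_or_ne w w₀ with rfl | hne
    · omega
    by_cases hwT : w.restrict (modularFunctionFieldFullC k N) ∈ T
    · rw [hz₀T w hne hwT]
    · have h1 := hz₀ w hw
      simp only [if_neg hne, if_neg hwT, sub_zero] at h1
      exact ((FF.mem_ordGE_of_ne_zero w hz₀w.1).mp h1)
  -- clear the remaining poles over finite `j`
  obtain ⟨Dz, hDz, -⟩ :=
    HasPrincipalDivisors.exists_divisor (K := k) (F := modularFunctionFieldFullC k L) z₀ hz₀w.1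
  set B := Dz.support.filter fun w => w.ord z₀ < 0 ∧ jC k L ∈ w.toValuationSubring with hB
  have hBmem : ∀ w, w ∈ B ↔ w.ord z₀ < 0 ∧ jC k L ∈ w.toValuationSubring := fun w => by
    rw [hB, Finset.mem_filter, Finsupp.mem_support_iff, hDz]
    exact ⟨fun h => h.2, fun h => ⟨h.1.ne, h⟩⟩
  choose! valL hvalL using fun w (hw : w ∈ B) => FF.exists_sub_algebraMap_mem w
    ((FF.mem_toValuationSubring_iff w).mp ((hBmem w).mp hw).2)
  set m : modularFunctionFieldFullC k L :=
    ∏ b ∈ B, (jC k L - algebraMap k _ (valL b)) ^ (b.ord z₀).natAbs with hm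
  have hm0 : m ≠ 0 := Finset.prod_ne_zero_iff.mpr fun b _ => pow_ne_zero _ (hjsub _)
  have hmord : ∀ w : Place k (modularFunctionFieldFullC k L), w.ord m =
      ∑ b ∈ B, ((b.ord z₀).natAbs : ℤ) * w.ord (jC k L - algebraMap k _ (valL b)) := fun w => by
    rw [hm, FF.ord_prod w _ _ fun b _ => pow_ne_zero _ (hjsub _)]
    exact Finset.sum_congr rfl fun b _ => FF.ord_pow w _ _
  have hmT : ∀ w : Place k (modularFunctionFieldFullC k L),
      w.restrict (modularFunctionFieldFullC k N) ∈ T → w.ord m = 0 := by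
    intro w hw
    rw [hmord]
    refine Finset.sum_eq_zero fun b hb => ?_
    rcases eq_or_ne (valL b) (val (w.restrict (modularFunctionFieldFullC k N))) with he | he
    · have hbS : b ∈ S := hmemS b _ hw (by
        rw [← he]
        exact lt_of_lt_of_le one_pos (((FF.mem_ordGE b).mp (hvalL b hb)).resolve_left (hjsub _)))
      have := hz₀S b hbS
      have := ((hBmem b).mp hb).1
      omega
    · have hpos := hposL w hw
      set a := val (w.restrict (modularFunctionFieldFullC k N))
      have hsplit : jC k L - algebraMap k _ (valL b) =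
          algebraMap k _ (a - valL b) + (jC k L - algebraMap k _ a) := by
        rw [map_sub]; ring
      rw [hsplit, FF.ord_add_eq_left w
        ((_root_.map_ne_zero _).mpr (sub_ne_zero.mpr (Ne.symm he)))
        (Or.inr (by rw [FF.ord_algebraMap]; exact hpos)), FF.ord_algebraMap, mul_zero]
  set z := z₀ * m with hz
  have hz0 : z ≠ 0 := mul_ne_zero hz₀w.1 hm0
  have hzreg : RegFin z := by
    refine regFin_of_forall_mem hL fun w hw => ?_
    rw [FF.mem_toValuationSubring_iff_ord w hz0, hz, w.ord_mul hz₀w.1 hm0, hmord]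
    have hnn : ∀ b ∈ B,
        0 ≤ ((b.ord z₀).natAbs : ℤ) * w.ord (jC k L - algebraMap k _ (valL b)) := fun b _ =>
      mul_nonneg (Int.natCast_nonneg _)
        (FF.ord_nonneg_of_mem w (sub_mem hw (w.algebraMap_mem' _)))
    by_cases hwB : w ∈ B
    · have h1 := Finset.single_le_sum hnn hwB
      have h2 : 1 ≤ w.ord (jC k L - algebraMap k _ (valL w)) :=
        ((FF.mem_ordGE w).mp (hvalL w hwB)).resolve_left (hjsub _)
      have h3 := le_mul_of_one_le_right (Int.natCast_nonneg (w.ord z₀).natAbs) h2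
      omega
    · have h1 : 0 ≤ w.ord z₀ := by
        by_contra hc
        exact hwB ((hBmem w).mpr ⟨not_le.mp hc, hw⟩)
      have := Finset.sum_nonneg hnn
      omega
  have hzord : ∀ w : Place k (modularFunctionFieldFullC k L),
      w.restrict (modularFunctionFieldFullC k N) ∈ T →
      w.ord z = if w = w₀ then 1 else 0 := by
    intro w hw
    rw [hz, w.ord_mul hz₀w.1 hm0, hmT w hw, add_zero]
    split_ifs with h
    · rw [h, hz₀w.2]
    · exact hz₀T w h hw
  refine ⟨z, hzreg, Algebra.norm_ne_zero_iff.mpr hz0, ?_, fun Q hQ hne => ?_⟩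
  · rw [FF.ord_norm, Finset.sum_eq_single_of_mem w₀ (Place.mem_fiber.mpr hw₀)]
    · rw [FF.inertiaDeg_eq_one, hzord w₀ (hw₀ ▸ hP), if_pos rfl, Nat.cast_one, mul_one]
    · intro w hw hne
      rw [hzord w ((Place.mem_fiber.mp hw).symm ▸ hP), if_neg hne, zero_mul]
  · rw [FF.ord_norm]
    refine Finset.sum_eq_zero fun w hw => ?_
    have hwQ := Place.mem_fiber.mp hw
    rw [hzord w (hwQ.symm ▸ hQ), if_neg (fun h => hne (by rw [← hwQ, h, hw₀])), zero_mul]

include hπs hNL in
/-- **Lifting descends** from level `L` to level `N ∣ L`. -/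
theorem NormalLift.descend (hL : (L : k) ≠ 0) (h : NormalLift A π L) : NormalLift A π N := by
  classical
  obtain ⟨πR, -, hk⟩ := exists_piR A π L hL
  have hN : (N : k) ≠ 0 := natCast_ne_zero_of_dvd _ hk hNL
  let := (incl (k := k) hNL).toAlgebra
  obtain ⟨hfin, hsep⟩ := finite_separable_incl (k := k) hNL hL
  have := isFunctionField_level (k := k) hN
  intro x hx
  -- the trace puts a nonzero multiple of every regular element in the algebra of liftable ones
  obtain ⟨u₀, hu₀⟩ : ∃ u, Algebra.trace (modularFunctionFieldFullC k N)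
      (modularFunctionFieldFullC k L) u ≠ 0 := by
    by_contra hall
    push Not at hall
    exact Algebra.trace_ne_zero (modularFunctionFieldFullC k N) (modularFunctionFieldFullC k L)
      (LinearMap.ext hall)
  obtain ⟨p, hp, hu⟩ := exists_mul_regFin _ hk u₀
  set u := evC k L p * u₀
  set d := Algebra.trace (modularFunctionFieldFullC k N) (modularFunctionFieldFullC k L) u
  have hd0 : d ≠ 0 := by
    have h1 : d = evC k N p * Algebra.trace (modularFunctionFieldFullC k N)
        (modularFunctionFieldFullC k L) u₀ := by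
      rw [← smul_eq_mul, ← LinearMap.map_smul, Algebra.smul_def, RingHom.algebraMap_toAlgebra,
        incl_evC]
    rw [h1]
    exact mul_ne_zero ((map_ne_zero_iff _ (evC_injective k N)).mpr hp) hu₀
  have hdw : ∀ w, RegFin w → d * w ∈ liftAlg A π N hπs := by
    intro w hw
    have h1 := (norm_trace_mem_liftAlg hπs hNL hL h
      (((regFin_incl_iff hNL).mpr hw).mul hu)).2
    have h2 : Algebra.trace (modularFunctionFieldFullC k N) (modularFunctionFieldFullC k L)
        (incl hNL w * u) = w * d := by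
      rw [← smul_eq_mul w, ← LinearMap.map_smul, Algebra.smul_def, RingHom.algebraMap_toAlgebra]
    rwa [h2, mul_comm] at h1
  have hdC : d ∈ liftAlg A π N hπs := (norm_trace_mem_liftAlg hπs hNL hL h hu).2
  -- the finite zeros of `d`
  obtain ⟨Dd, hDd, -⟩ :=
    HasPrincipalDivisors.exists_divisor (K := k) (F := modularFunctionFieldFullC k N) d hd0
  set T := Dd.support.filter fun v => jC k N ∈ v.toValuationSubring with hTdef
  have hT : ∀ v ∈ T, jC k N ∈ v.toValuationSubring := fun v hv => (Finset.mem_filter.mp hv).2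
  have hTd : ∀ v : Place k (modularFunctionFieldFullC k N), jC k N ∈ v.toValuationSubring →
      v ∉ T → v.ord d = 0 := fun v hv hvT => by
    by_contra hne
    exact hvT (Finset.mem_filter.mpr ⟨Finsupp.mem_support_iff.mpr (by rwa [hDd]), hv⟩)
  have hreg : ∀ c, RegFin c → ∀ v ∈ T, c ∈ FF.ordGE v 0 := fun c hc v hv =>
    (FF.mem_toValuationSubring_iff v).mp (hc.mem_place v (hT v hv))
  obtain ⟨c, hc, hxc⟩ := exists_mem_approx (liftAlg A π N hπs) T
    (fun c hc => hreg c hc.1)
    (fun P hP => by
      obtain ⟨z, hz, hz0, hz1, hz2⟩ := exists_sep_regFin hNL hL hN T hT hP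
      exact ⟨_, (norm_trace_mem_liftAlg hπs hNL hL h hz).1, hz0, hz1, hz2⟩)
    (∑ v ∈ T, (v.ord d).natAbs) (hreg x hx)
  have hw : RegFin ((x - c) * d⁻¹) := by
    refine regFin_of_forall_mem hN fun v hv => ?_
    rcases eq_or_ne (x - c) 0 with h0 | h0
    · rw [h0, zero_mul]; exact zero_mem _
    rw [FF.mem_toValuationSubring_iff_ord v (mul_ne_zero h0 (inv_ne_zero hd0)),
      v.ord_mul h0 (inv_ne_zero hd0), v.ord_inv]
    by_cases hvT : v ∈ T
    · have h1 := (FF.mem_ordGE_of_ne_zero v h0).mp (hxc v hvT)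
      have h2 := Finset.single_le_sum
        (f := fun v : Place k (modularFunctionFieldFullC k N) => (v.ord d).natAbs)
        (fun _ _ => Nat.zero_le _) hvT
      omega
    · rw [hTd v hv hvT, neg_zero, add_zero]
      exact FF.ord_nonneg_of_mem v (sub_mem (hx.mem_place v hv) (hc.1.mem_place v hv))
  have hxC : x ∈ liftAlg A π N hπs := by
    have h1 := add_mem hc (hdw _ hw)
    rwa [mul_comm d, inv_mul_cancel_right₀ hd0, add_sub_cancel] at h1
  exact hxC.2

end Fermat.Agent.Reduction.Level
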