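import Fermat.Agent.Reduction.Level.Setup

/-!
# The gap bound from lifting

The reduced functions regular outside `q = 0` lie in `L(n·∞)` of the reduced field, so the equality
of the genera (a consequence of `NormalLift`) gives `GapBound`.
-/

set_option autoImplicit false

noncomputable section

open scoped MatrixGroups
open Polynomial ModularCurve IntermediateField AlgebraicCurve Fermat.Agent.Igusa

namespace Fermat.Agent.Reduction.Level

variable {N : ℕ} [NeZero N]

omit [NeZero N] in
theorem kls_cst0 : kls (cst0 : Cst N) = N := cls_of_mem (dvd_refl N) repg_cst0_mem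

omit [NeZero N] in
theorem eq_cst0_of_kls_eq {i : Cst N} (h : kls i = N) : i = cst0 := by
  have hdvd : (N : ℤ) ∣ repg i 1 0 := by
    have := Int.gcd_dvd_right (N : ℤ) (repg i 1 0)
    rwa [show Int.gcd (N : ℤ) (repg i 1 0) = N from h] at this
  have hmem : repg i ∈ CongruenceSubgroup.Gamma0 N := by
    rw [CongruenceSubgroup.Gamma0_mem]
    exact (ZMod.intCast_zmod_eq_zero_iff_dvd _ _).mpr hdvd
  rw [repg, inv_mem_iff] at hmem
  rw [← QuotientGroup.out_eq' i, cst0]
  refine QuotientGroup.eq.mpr ?_
  rw [mul_one, inv_mem_iff]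
  exact hmem

/-- The cusp at infinity is only cut out by the identity embedding. -/
theorem cuspPlace_ne {F : Type*} [Field F] [IsAlgClosed F] (π : Rz N →+* F)
    (hπ : IsPrimitiveRoot (π (zetaR N)) N) {i : Cst N} (hi : i ≠ cst0) :
    cuspPlace π hπ i ≠ cuspPlace π hπ cst0 := by
  intro hplace
  have hj0 : jC F N ≠ 0 := fun h => jC_notMem_cuspPlace π hπ cst0 (h ▸ zero_mem _)
  set z := jNC F N * (jC F N ^ N)⁻¹
  have hord : ∀ a : Cst N, sig π hπ a z ≠ 0 ∧
      (sig π hπ a z).order = (N : ℤ) ^ 2 - (kls a : ℤ) ^ 2 := by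
    intro a
    have hG : Gk π (dvd_refl N) a ≠ 0 := fun h0 => by
      have := order_Gk π (dvd_refl N) a
      rw [h0, HahnSeries.order_zero] at this
      have := (neZero_expo (dvd_refl N) (repg a)).out
      omega
    have hsj : sig π hπ a (jC F N) ≠ 0 := (_root_.map_ne_zero _).mpr hj0
    have hinv := HahnSeries.order_mul (pow_ne_zero N hsj) (inv_ne_zero (pow_ne_zero N hsj))
    rw [mul_inv_cancel₀ (pow_ne_zero N hsj), HahnSeries.order_one, HahnSeries.order_pow,
      order_sig_jC, nsmul_eq_mul] at hinv
    rw [map_mul, map_inv₀, map_pow, sig_jNC]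
    refine ⟨mul_ne_zero hG (inv_ne_zero (pow_ne_zero _ hsj)), ?_⟩
    rw [HahnSeries.order_mul hG (inv_ne_zero (pow_ne_zero _ hsj)), order_Gk, expo_eq (dvd_refl N) a,
      Nat.gcd_eq_left (cls_dvd N (repg a)), Nat.div_self (NeZero.pos N), Nat.cast_one, mul_one]
    linarith
  have h0 : z⁻¹ ∈ (cuspPlace π hπ cst0).toValuationSubring := by
    rw [mem_cuspPlace, map_inv₀, poleLE_iff_order (inv_ne_zero (hord cst0).1)]
    have h1 := HahnSeries.order_mul (hord cst0).1 (inv_ne_zero (hord cst0).1)
    rw [mul_inv_cancel₀ (hord cst0).1, HahnSeries.order_one, (hord cst0).2, kls_cst0] at h1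
    omega
  rw [← hplace, mem_cuspPlace, map_inv₀, poleLE_iff_order (inv_ne_zero (hord i).1)] at h0
  have h1 := HahnSeries.order_mul (hord i).1 (inv_ne_zero (hord i).1)
  rw [mul_inv_cancel₀ (hord i).1, HahnSeries.order_one, (hord i).2] at h1
  have hlt : (kls i : ℤ) < N := by
    have h2 : kls i ≤ N := Nat.le_of_dvd (NeZero.pos N) (cls_dvd N _)
    have h3 : kls i ≠ N := fun h => hi (eq_cst0_of_kls_eq h)
    omega
  nlinarith

variable {K k : Type*} [Field K] [Field k] {A : ValuationSubring K} {π : A →+* k}
variable [IsAlgClosed K] [IsAlgClosed k]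

/-- `NormalLift` gives the gap bound. -/
theorem gapBound_of_normalLift (hπs : Function.Surjective π) (hN : (N : k) ≠ 0)
    (harch : ∀ a : A, π a = 0 → ∀ b : K, b ≠ 0 →
      ∃ n : ℕ, A.valuation (a : K) ^ n ≤ A.valuation b)
    (h : NormalLift A π N) : ∃ n₀, (levelCurve π hπs hN harch).GapBound n₀ := by
  classical
  set S := levelCurve π hπs hN harch with hS
  have := isFunctionField_level (k := K) (N := N) (natCast_ne_zero_of_red hN π)
  have := isFunctionField_level (k := k) (N := N) hN
  obtain ⟨πR, hK, hk⟩ := exists_piR A π N hN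
  set P := cuspPlace (π.comp πR) hk cst0 with hP
  have hmemP : ∀ x : modularFunctionFieldFullC k N,
      x ∈ P.toValuationSubring ↔ PoleLE 0 (x : LaurentSeries k) := by
    intro x
    rw [hP, mem_cuspPlace, sig_cst0_apply]
    rcases eq_or_ne (x : LaurentSeries k) 0 with h0 | h0
    · simp [h0, PoleLE]
    · rw [poleLE_iff_order h0,
        poleLE_iff_order ((map_ne_zero_iff _ (qExpand k N).injective).mpr h0), order_qExpand]
      have := NeZero.pos N
      constructor <;> intro <;> nlinarith
  have hPK : cuspPlace (A.subtype.comp πR) hK cst0 = S.pt := by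
    refine AlgebraicCurve.Place.ext (SetLike.ext fun x => ?_)
    rw [mem_cuspPlace]
    show _ ↔ x ∈ (ptPlace π hN).toValuationSubring
    rw [mem_ptPlace, sig_cst0_apply]
    rcases eq_or_ne (x : LaurentSeries K) 0 with h0 | h0
    · simp [h0, PoleLE]
    · rw [poleLE_iff_order h0,
        poleLE_iff_order ((map_ne_zero_iff _ (qExpand K N).injective).mpr h0), order_qExpand]
      have := NeZero.pos N
      constructor <;> intro <;> nlinarith
  -- reductions of functions regular off `q = 0` lie in every other place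
  have hCbar : ∀ x ∈ S.Cbar, ∀ v : Place k (modularFunctionFieldFullC k N), v ≠ P →
      ∃ w : modularFunctionFieldFullC k N, (w : LaurentSeries k) = x ∧
        w ∈ v.toValuationSubring := by
    intro x hx v hv
    obtain ⟨n, y, hy, hyx⟩ := S.mem_Cbar.mp hx
    obtain ⟨u, rfl, hu⟩ := S.exists_regular_of_mem_space (S.offNonpos_atPt n) hy
    have humem : ∀ v' : Place K (modularFunctionFieldFullC K N), v' ≠ S.pt →
        (u : modularFunctionFieldFullC K N) ∈ v'.toValuationSubring := fun v' hv' => by
      rcases eq_or_ne u 0 with rfl | hu0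
      · exact zero_mem _
      · exact (FF.mem_toValuationSubring_iff_ord v' hu0).mpr (hu v' hv')
    have hreg : RegFin (u : modularFunctionFieldFullC K N) :=
      regFin_of_forall_mem (natCast_ne_zero_of_red hN π) fun v' hv' => humem v' fun h =>
        jC_notMem_ptPlace (π := π) hN (by
          subst h
          exact hv')
    obtain ⟨w, hw, hwx, hall⟩ := exists_red_all hπs πR hK hk hreg hyx
    refine ⟨w, hwx, ?_⟩
    by_cases hjv : jC k N ∈ v.toValuationSubring
    · exact hw.mem_place v hjv
    obtain ⟨i, rfl⟩ := exists_cuspPlace_eq (π.comp πR) hk v hjv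
    have hi : i ≠ cst0 := fun h => hv (by rw [h, hP])
    have h1 := humem (cuspPlace (A.subtype.comp πR) hK i) fun h =>
      cuspPlace_ne (A.subtype.comp πR) hK hi (h.trans hPK.symm)
    exact (mem_cuspPlace _ hk).mpr ((hall i).poleLE ((mem_cuspPlace _ hK).mp h1))
  have hle : ∀ n : ℤ, S.regularSub n ≤
      (riemannRochSpace (Finsupp.single P n)).map (inclLin (modularFunctionFieldFullC k N)) := by
    intro n x hx
    obtain ⟨⟨hxF, hint⟩, hxn⟩ := S.mem_regularSub.mp hx
    refine Submodule.mem_map.mpr ⟨⟨x, hxF⟩, ?_, rfl⟩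
    rw [mem_riemannRochSpace_iff]
    intro v
    rcases eq_or_ne (⟨x, hxF⟩ : modularFunctionFieldFullC k N) 0 with h0 | h0
    · exact Or.inl h0
    right
    rcases eq_or_ne v P with rfl | hv
    · rw [Finsupp.single_eq_same, ord_eq_order_of_mem_iff (K := k) P hmemP]
      exact (poleLE_iff_order fun h => h0 (Subtype.ext h)).mp hxn
    · rw [Finsupp.single_eq_of_ne hv, neg_zero]
      have hint' : IsIntegral v.toValuationSubring (⟨x, hxF⟩ : modularFunctionFieldFullC k N) := by
        obtain ⟨p, hp, hpx⟩ := hint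
        let ψ : S.Cbar →+* modularFunctionFieldFullC k N :=
          S.Cbar.val.toRingHom.codRestrict (modularFunctionFieldFullC k N)
            (fun z => S.Cbar_le_Fbar z.2)
        set q : (modularFunctionFieldFullC k N)[X] := p.map ψ with hqdef
        have hl : q ∈ Polynomial.lifts
            (algebraMap v.toValuationSubring (modularFunctionFieldFullC k N)) := by
          refine (Polynomial.lifts_iff_coeff_lifts _).mpr fun m => ?_
          rw [hqdef, Polynomial.coeff_map]
          obtain ⟨w, hw, hwv⟩ := hCbar _ (p.coeff m).2 v hv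
          exact ⟨⟨w, hwv⟩, Subtype.ext hw⟩
        obtain ⟨r, hr, -, hrm⟩ := Polynomial.lifts_and_natDegree_eq_and_monic hl (hp.map _)
        refine ⟨r, hrm, Subtype.ext ?_⟩
        rw [← Polynomial.eval_map, hr, hqdef, Polynomial.eval_map]
        refine (Polynomial.hom_eval₂ p _ (modularFunctionFieldFullC k N).val.toRingHom _).trans ?_
        exact hpx
      obtain ⟨z, hz⟩ := IsIntegrallyClosed.isIntegral_iff.1 hint'
      exact FF.ord_nonneg_of_mem v (hz ▸ z.2)
  obtain ⟨n₁, h₁⟩ := FF.exists_ell_eq_of_degree_ge k (modularFunctionFieldFullC k N)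
  have hgenus := riemannGenus_le hπs πR hK hk h
  refine ⟨n₁.toNat, ⟨fun n => ?_, fun n hn => ?_⟩⟩
  · exact Submodule.finiteDimensional_of_le (hle n)
  · have h2 := h₁ (Finsupp.single P n) (by simp [FF.deg_eq_one]; omega)
    have hfr : Module.finrank k (S.regularSub n) ≤ FF.ell (Finsupp.single P n) :=
      (Submodule.finrank_mono (hle n)).trans_eq
        (Submodule.equivMapOfInjective _ (inclLin_injective _) _).finrank_eq.symm
    rw [Divisor.degree_single, FF.deg_eq_one] at h2
    rw [levelCurve_g]
    push_cast at h2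
    omega

end Fermat.Agent.Reduction.Level
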