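import Fermat.Agent.Reduction.Level.Pure
import Fermat.Agent.Reduction.Level.Descend
import Fermat.Agent.Reduction.Level.Gap
import Fermat.Agent.Reduction.Hauptmodul

/-!
# Normal reduced functions lift; the gap bound in good characteristic

Normal lifting holds at level `lcm (N, M)`, `M = 4` or `9` prime to the characteristic, and
descends to level `N`.
-/

set_option autoImplicit false

noncomputable section

open Polynomial ModularCurve IntermediateField AlgebraicCurve Fermat.Agent.Igusa

namespace Fermat.Agent.Reduction.Level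

section Cast

variable (R : Type*) [CommRing R]

theorem coeffMap_aeval_int (t : LaurentSeries ℤ) (p : ℤ[X]) :
    coeffMap (Int.castRingHom R) (aeval t p) =
      (p.map (Int.castRingHom R)).eval₂ (HahnSeries.C : R →+* LaurentSeries R)
        (coeffMap (Int.castRingHom R) t) := by
  rw [Polynomial.eval₂_map, aeval_def, Polynomial.hom_eval₂]
  congr 1
  exact RingHom.ext_int _ _

theorem aeval_series_eq_eval₂ {F : Type*} [Field F] (s : LaurentSeries F) (p : F[X]) :
    aeval s p = p.eval₂ (HahnSeries.C : F →+* LaurentSeries F) s := by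
  rw [aeval_def]
  congr 1
  exact RingHom.ext fun c => by rw [HahnSeries.C_apply, algebraMap_laurentSeries_eq_single]

/-- An integral relation `j = P(t)/Q(t)` over any field. -/
theorem hData_of_int {F : Type*} [Field F] {L : ℕ} [NeZero L] {t : LaurentSeries ℤ}
    {P Q a b : ℤ[X]} {c : ℤ} (hrel : jqModC ℤ * aeval t Q = aeval t P) (hab : a * P + b * Q = C c)
    (s : modularFunctionFieldFullC F L)
    (hs : (s : LaurentSeries F) = coeffMap (Int.castRingHom F) t) :
    jC F L * aeval s (Q.map (Int.castRingHom F)) = aeval s (P.map (Int.castRingHom F)) ∧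
      a.map (Int.castRingHom F) * P.map (Int.castRingHom F) +
        b.map (Int.castRingHom F) * Q.map (Int.castRingHom F) = C ((c : ℤ) : F) := by
  refine ⟨Subtype.ext ?_, ?_⟩
  · rw [IntermediateField.coe_mul, HPair.coe_aeval, HPair.coe_aeval, hs, aeval_series_eq_eval₂,
      aeval_series_eq_eval₂, ← coeffMap_aeval_int, ← coeffMap_aeval_int, ← hrel, map_mul,
      coeffMap_jqModC]
    rfl
  · rw [← Polynomial.map_mul, ← Polynomial.map_mul, ← Polynomial.map_add, hab, Polynomial.map_C]
    rfl

end Cast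

variable {K k : Type*} [Field K] [Field k] [IsAlgClosed K] [IsAlgClosed k] [Algebra ℚ K]
variable {A : ValuationSubring K} {π : A →+* k} {L : ℕ} [NeZero L]

/-- The pair of data given by an integral Hauptmodul of level `M ∣ L`. -/
theorem exists_hPair (hπs : Function.Surjective π) (hL : (L : k) ≠ 0) {M : ℕ} [NeZero M]
    (hM : M = 4 ∨ M = 9) (hML : M ∣ L) :
    ∃ H : HPair A π L, (∃ P₀ : K[X], H.HK.P = P₀ ^ 3) ∧
      ∃ B₀ : K[X], H.HK.P - C 1728 * H.HK.Q = B₀ ^ 2 := by
  obtain ⟨t, P, Q, A₀, B₀, a, b, c, ht1, ht0, htF, hPm, hQm, -, hdeg, hPA, hPB, hab, hc0, hc,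
    hrel⟩ := Hauptmodul.exists_hauptmodul M hM
  have : CharZero K := algebraRat.charZero K
  have hcK : ((c : ℤ) : K) ≠ 0 := Int.cast_ne_zero.mpr hc0
  have hck : ((c : ℤ) : k) ≠ 0 := by
    intro h
    obtain ⟨q, hq⟩ := CharP.exists k
    have hdvd := (CharP.intCast_eq_zero_iff k q c).mp h
    rcases CharP.char_is_prime_or_zero k q with hp | rfl
    · exact hL ((CharP.cast_eq_zero_iff k q L).mpr ((hc q hp hdvd).trans hML))
    · exact hc0 (zero_dvd_iff.mp (by simpa using hdvd))
  set tK := coeffMap (Int.castRingHom K) t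
  have htK : tK ∈ modularFunctionFieldFullC K L := by
    refine full_degeneracyC_le K hML ?_
    rw [← laurentBaseChange_eq_fullC K M]
    have h := coeffEmb_mem_laurentBaseChange K htF
    rwa [coeffEmb, coeffMap_coeffMap,
      show (algebraMap ℚ K).comp (Int.castRingHom ℚ) = Int.castRingHom K from RingHom.ext_int _ _]
      at h
  let HK : HData K L := ⟨⟨tK, htK⟩, P.map (Int.castRingHom K), Q.map (Int.castRingHom K),
    a.map (Int.castRingHom K), b.map (Int.castRingHom K), ((c : ℤ) : K), hcK,
    (hData_of_int hrel hab ⟨tK, htK⟩ rfl).1, (hData_of_int hrel hab ⟨tK, htK⟩ rfl).2,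
    hPm.map _, hQm.map _, by rwa [hPm.natDegree_map, hQm.natDegree_map]⟩
  have hredt : Red A π tK (coeffMap (Int.castRingHom k) t) :=
    red_iff_exists.mpr ⟨coeffMap (Int.castRingHom A) t,
      by rw [coeffMap_coeffMap, show A.subtype.comp (Int.castRingHom A) = Int.castRingHom K from
        RingHom.ext_int _ _],
      by rw [coeffMap_coeffMap, show π.comp (Int.castRingHom A) = Int.castRingHom k from
        RingHom.ext_int _ _]⟩
  obtain ⟨πR, hK, hk⟩ := exists_piR A π L hL
  obtain ⟨w, -, hw, -⟩ := exists_red_all hπs πR hK hk HK.regFin_t (x := _) hredt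
  let Hk : HData k L := ⟨w, P.map (Int.castRingHom k), Q.map (Int.castRingHom k),
    a.map (Int.castRingHom k), b.map (Int.castRingHom k), ((c : ℤ) : k), hck,
    (hData_of_int hrel hab w hw).1, (hData_of_int hrel hab w hw).2,
    hPm.map _, hQm.map _, by rwa [hPm.natDegree_map, hQm.natDegree_map]⟩
  have horder : tK.order = -1 := by
    refine order_eq_of_coeff ?_ fun n hn => ?_
    · rw [coeffMap_coeff, ht1, map_one]; exact one_ne_zero
    · rw [coeffMap_coeff, ht0 n hn, map_zero]
  refine ⟨⟨HK, Hk, Q.map (Int.castRingHom A), ?_, ?_, ?_, hw.symm ▸ hredt, horder, ?_⟩,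
    ⟨A₀.map (Int.castRingHom K), ?_⟩, ⟨B₀.map (Int.castRingHom K), ?_⟩⟩
  · rw [Polynomial.map_map, show A.subtype.comp (Int.castRingHom A) = Int.castRingHom K from
      RingHom.ext_int _ _]
  · rw [Polynomial.map_map, show π.comp (Int.castRingHom A) = Int.castRingHom k from
      RingHom.ext_int _ _]
  · show (P.map _).natDegree = (P.map _).natDegree
    rw [hPm.natDegree_map, hPm.natDegree_map]
  · show tK.coeff (-1) = 1
    rw [coeffMap_coeff, ht1, map_one]
  · show P.map (Int.castRingHom K) = _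
    rw [hPA, Polynomial.map_pow]
  · show P.map (Int.castRingHom K) - C 1728 * Q.map (Int.castRingHom K) = _
    rw [← Polynomial.map_pow, ← hPB, Polynomial.map_sub, Polynomial.map_mul, Polynomial.map_C]
    simp

variable {N : ℕ} [NeZero N]

/-- **Normal reduced functions lift** when the level is invertible in the residue field. -/
theorem normalLift_of_ne_zero (ι : K →+* ℂ) (hπs : Function.Surjective π) (hN : (N : k) ≠ 0) :
    NormalLift A π N := by
  obtain ⟨M, hM, hMk⟩ : ∃ M : ℕ, (M = 4 ∨ M = 9) ∧ (M : k) ≠ 0 := by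
    by_cases h2 : (2 : k) = 0
    · refine ⟨9, Or.inr rfl, fun h => one_ne_zero (α := k) ?_⟩
      have : ((9 : ℕ) : k) = 4 * 2 + 1 := by norm_num
      rw [this, h2, mul_zero, zero_add] at h
      exact h
    · refine ⟨4, Or.inl rfl, fun h => h2 ?_⟩
      have : ((4 : ℕ) : k) = 2 * 2 := by norm_num
      rw [this] at h
      exact mul_self_eq_zero.mp h
  have : NeZero M := ⟨by rcases hM with rfl | rfl <;> decide⟩
  have hL : ((Nat.lcm N M : ℕ) : k) ≠ 0 := by
    intro h
    obtain ⟨e, he⟩ := Nat.gcd_dvd_left N M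
    have h1 : ((Nat.gcd N M * Nat.lcm N M : ℕ) : k) = ((N * M : ℕ) : k) := by
      rw [Nat.gcd_mul_lcm]
    rw [Nat.cast_mul, h, mul_zero, Nat.cast_mul] at h1
    exact mul_ne_zero hN hMk h1.symm
  have : NeZero (Nat.lcm N M) := ⟨Nat.lcm_ne_zero (NeZero.ne N) (NeZero.ne M)⟩
  obtain ⟨H, hPA, hPB⟩ := exists_hPair (A := A) hπs hL hM (Nat.dvd_lcm_right N M)
  obtain ⟨πR, hK, hk⟩ := exists_piR A π (Nat.lcm N M) hL
  exact NormalLift.descend hπs (Nat.dvd_lcm_left N M) hL
    (H.normalLift hπs πR hK hk hPA hPB ι)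

/-- The gap bound at a place over `ℓ ∤ N`. -/
theorem exists_gapBound_qbar {ℓ : ℕ} [Fact ℓ.Prime] (A : ValuationSubring (AlgebraicClosure ℚ))
    (hA : A.LiesOverPrime ℓ) (N : ℕ) [NeZero N] (hℓN : ¬ ℓ ∣ N) :
    ∃ n₀, (qbarCurve A hA N hℓN).GapBound n₀ := by
  have := Gal.isAlgClosed_residueField A
  exact gapBound_of_normalLift IsLocalRing.residue_surjective _ _
    (normalLift_of_ne_zero FF.qbarToComplex IsLocalRing.residue_surjective
      (natCast_residueField_ne_zero A hA hℓN))

end Fermat.Agent.Reduction.Level
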