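import Fermat.Agent.Reduction.Level.Cusps
import Fermat.Agent.Reduction.Curve
import Fermat.Agent.Gal.Residue
import Fermat.Agent.FF.RepartitionH1

/-!
# The reduced curve data of `X₀(N)`

`levelCurve` is the `CurveRed` of the full function field of level `N`; for `ℚ̄` and a place over a
prime `ℓ` all of its hypotheses hold as soon as `ℓ ∤ N`.
-/

set_option autoImplicit false

noncomputable section

open Polynomial ModularCurve IntermediateField AlgebraicCurve Fermat.Agent.Igusa

namespace Fermat.Agent.Reduction.Level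

section BaseChange

variable (L : Type*) [Field L] [Algebra ℚ L] (N : ℕ)

theorem coeffEmb_qExpand_jqModC (d : ℕ) [NeZero d] :
    coeffEmb L (qExpand ℚ d (jqModC ℚ)) = qExpand L d (jqModC L) := by
  rw [coeffEmb, coeffMap_qExpand, coeffMap_jqModC]

/-- The base change of `ℚ(X₀(N))` is generated by the `j(dτ)`. -/
theorem laurentBaseChange_eq_fullC :
    laurentBaseChange L (modularFunctionFieldFull N) = modularFunctionFieldFullC L N := by
  refine le_antisymm ?_ ?_
  · rw [laurentBaseChange, IntermediateField.adjoin_le_iff]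
    rintro _ ⟨z, hz, rfl⟩
    rw [← modularFunctionFieldFullC_rat, modularFunctionFieldFullC, SetLike.mem_coe,
      ← IntermediateField.mem_toSubfield, IntermediateField.adjoin_toSubfield] at hz
    refine (Subfield.closure_le (t := (modularFunctionFieldFullC L N).toSubfield.comap
      (coeffEmb L))).2 ?_ hz
    rintro _ (⟨c, rfl⟩ | ⟨d, hd, hdN, rfl⟩)
    · show coeffEmb L (algebraMap ℚ (LaurentSeries ℚ) c) ∈ modularFunctionFieldFullC L N
      rw [algebraMap_laurentSeries_eq_single, coeffEmb, coeffMap_single,
        ← algebraMap_laurentSeries_eq_single]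
      exact (modularFunctionFieldFullC L N).algebraMap_mem _
    · show coeffEmb L (qExpand ℚ d (jqModC ℚ)) ∈ modularFunctionFieldFullC L N
      rw [coeffEmb_qExpand_jqModC]
      exact jqModCd_mem_full L N hdN
  · rw [modularFunctionFieldFullC, IntermediateField.adjoin_le_iff]
    rintro _ ⟨d, hd, hdN, rfl⟩
    rw [SetLike.mem_coe, ← coeffEmb_qExpand_jqModC]
    exact coeffEmb_mem_laurentBaseChange L
      (by rw [← modularFunctionFieldFullC_rat]; exact jqModCd_mem_full ℚ N hdN)

theorem modularFunctionFieldBar_eq_fullC :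
    modularFunctionFieldBar N = modularFunctionFieldFullC (AlgebraicClosure ℚ) N :=
  laurentBaseChange_eq_fullC _ N

end BaseChange

variable {K k : Type*} [Field K] [Field k] {A : ValuationSubring K} {π : A →+* k}
variable {N : ℕ} [NeZero N] [IsAlgClosed K] [IsAlgClosed k]

omit [NeZero N] [IsAlgClosed K] [IsAlgClosed k] in
theorem natCast_ne_zero_of_red (hN : (N : k) ≠ 0) (π : A →+* k) : (N : K) ≠ 0 := fun h => hN (by
  rw [← map_natCast π, show (N : A) = 0 from Subtype.ext (by simpa using h), map_zero])

omit [NeZero N] [IsAlgClosed K] in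
theorem coe_jC : ((jC K N : modularFunctionFieldFullC K N) : LaurentSeries K) = jqModC K := rfl

/-- The place `q = 0`. -/
def ptPlace (π : A →+* k) (hN : (N : k) ≠ 0) : Place K (modularFunctionFieldFullC K N) :=
  cuspPlace (A.subtype.comp (exists_piR A π N hN).choose)
    (exists_piR A π N hN).choose_spec.1 cst0

omit [IsAlgClosed k] in
theorem mem_ptPlace (hN : (N : k) ≠ 0) {x : modularFunctionFieldFullC K N} :
    x ∈ (ptPlace π hN).toValuationSubring ↔ PoleLE 0 (x : LaurentSeries K) := by
  rw [ptPlace, mem_cuspPlace, sig_cst0_apply]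
  rcases eq_or_ne (x : LaurentSeries K) 0 with h0 | h0
  · simp [h0, PoleLE]
  · rw [poleLE_iff_order h0, poleLE_iff_order ((map_ne_zero_iff _ (qExpand K N).injective).mpr h0),
      order_qExpand]
    have := NeZero.pos N
    constructor <;> intro <;> nlinarith

omit [IsAlgClosed k] in
theorem jC_notMem_ptPlace (hN : (N : k) ≠ 0) : jC K N ∉ (ptPlace π hN).toValuationSubring := by
  intro h
  rw [mem_ptPlace, coe_jC, poleLE_iff_order (jqModC_ne_zero_of_nontrivial K), order_jqModC] at h
  omega

omit [NeZero N] [IsAlgClosed K] in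
theorem ord_eq_order_of_mem_iff (v : Place K (modularFunctionFieldFullC K N))
    (hv : ∀ x : modularFunctionFieldFullC K N,
      x ∈ v.toValuationSubring ↔ PoleLE 0 (x : LaurentSeries K))
    (y : modularFunctionFieldFullC K N) : v.ord y = (y : LaurentSeries K).order := by
  have hjv : jC K N ∉ v.toValuationSubring := by
    intro h
    rw [hv, coe_jC, poleLE_iff_order (jqModC_ne_zero_of_nontrivial K), order_jqModC] at h
    omega
  have hj0 : jC K N ≠ 0 := fun h => hjv (h ▸ zero_mem _)
  have hzero : ∀ z : modularFunctionFieldFullC K N, z ≠ 0 → (z : LaurentSeries K).order = 0 →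
      v.ord z = 0 := by
    intro z hz h
    have hz' : (z : LaurentSeries K) ≠ 0 := fun h' => hz (Subtype.ext h')
    have h1 : z ∈ v.toValuationSubring := by
      rw [hv, poleLE_iff_order hz']
      omega
    have h2 : z⁻¹ ∈ v.toValuationSubring := by
      have h3 := HahnSeries.order_mul hz' (inv_ne_zero hz')
      rw [mul_inv_cancel₀ hz', HahnSeries.order_one, h] at h3
      rw [hv, show ((z⁻¹ : modularFunctionFieldFullC K N) : LaurentSeries K) =
        (z : LaurentSeries K)⁻¹ from rfl, poleLE_iff_order (inv_ne_zero hz')]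
      omega
    have h3 := FF.ord_nonneg_of_mem v h1
    have h4 := FF.ord_nonneg_of_mem v h2
    rw [v.ord_inv] at h4
    omega
  have hform : ∀ z : modularFunctionFieldFullC K N, z ≠ 0 →
      v.ord z + (z : LaurentSeries K).order * v.ord (jC K N) = 0 := by
    intro z hz
    set n := (z : LaurentSeries K).order
    have hne : z * jC K N ^ n ≠ 0 := mul_ne_zero hz (zpow_ne_zero _ hj0)
    have hord : ((z * jC K N ^ n : modularFunctionFieldFullC K N) : LaurentSeries K).order = 0 := by
      have hjz : ∀ m : ℤ, (jqModC K ^ m).order = -m := by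
        intro m
        have hnat : ∀ a : ℕ, (jqModC K ^ a).order = -(a : ℤ) := fun a => by
          rw [HahnSeries.order_pow, order_jqModC, nsmul_eq_mul, mul_neg_one]
        rcases Int.eq_nat_or_neg m with ⟨a, rfl | rfl⟩
        · rw [zpow_natCast, hnat]
        · have h1 := HahnSeries.order_mul (pow_ne_zero a (jqModC_ne_zero_of_nontrivial K))
            (inv_ne_zero (pow_ne_zero a (jqModC_ne_zero_of_nontrivial K)))
          rw [mul_inv_cancel₀ (pow_ne_zero a (jqModC_ne_zero_of_nontrivial K)),
            HahnSeries.order_one, hnat] at h1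
          rw [zpow_neg, zpow_natCast]
          omega
      have hz' : (z : LaurentSeries K) ≠ 0 := fun h' => hz (Subtype.ext h')
      rw [IntermediateField.coe_mul, show ((jC K N ^ n : modularFunctionFieldFullC K N) :
        LaurentSeries K) = jqModC K ^ n from map_zpow₀ (modularFunctionFieldFullC K N).val _ _,
        HahnSeries.order_mul hz' (zpow_ne_zero _ (jqModC_ne_zero_of_nontrivial K)), hjz]
      omega
    have h := hzero _ hne hord
    rwa [v.ord_mul hz (zpow_ne_zero _ hj0), v.ord_zpow] at h
  rcases eq_or_ne y 0 with rfl | hy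
  · simp
  obtain ⟨t, ht, ht1⟩ := FF.exists_uniformizer v
  have h1 := hform t ht
  rw [ht1] at h1
  have h2 : v.ord (jC K N) = -1 := by
    have hneg : v.ord (jC K N) < 0 := by
      by_contra h
      exact hjv ((FF.mem_toValuationSubring_iff_ord v hj0).mpr (not_lt.mp h))
    rcases Int.eq_one_or_neg_one_of_mul_eq_neg_one' (u := v.ord (jC K N))
      (v := (t : LaurentSeries K).order) (by linarith) with h | h
    · omega
    · exact h.1
  have h3 := hform y hy
  rw [h2] at h3
  omega

omit [IsAlgClosed k] in
theorem ord_ptPlace (hN : (N : k) ≠ 0) (y : modularFunctionFieldFullC K N) :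
    (ptPlace π hN).ord y = (y : LaurentSeries K).order :=
  ord_eq_order_of_mem_iff _ (fun _ => mem_ptPlace hN) y

/-- The data of the reduction of `X₀(N)` in good characteristic. -/
def levelCurve (π : A →+* k) (hπs : Function.Surjective π) (hN : (N : k) ≠ 0)
    (harch : ∀ a : A, π a = 0 → ∀ b : K, b ≠ 0 →
      ∃ n : ℕ, A.valuation (a : K) ^ n ≤ A.valuation b) : CurveRed A π :=
  haveI := isFunctionField_level (k := K) (N := N) (natCast_ne_zero_of_red hN π)
  { F := modularFunctionFieldFullC K N
    Fbar := modularFunctionFieldFullC k N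
    pt := ptPlace π hN
    g := (FF.riemannGenus K (modularFunctionFieldFullC K N)).toNat
    surj := hπs
    arch := harch
    normalizable := fun u hu hu0 => by
      obtain ⟨πR, hK, hk⟩ := exists_piR A π N hN
      have hreg : RegFin u := regFin_of_forall_mem (natCast_ne_zero_of_red hN π) fun v hv => by
        have hne : v ≠ ptPlace π hN := fun h => jC_notMem_ptPlace (π := π) hN (h ▸ hv)
        exact (FF.mem_toValuationSubring_iff_ord v hu0).mpr (hu v hne)
      obtain ⟨c, hc, w, hw, -, hred⟩ := exists_normalized hπs πR hK hk hreg hu0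
      refine ⟨c, hc, (w : LaurentSeries k), fun h => hw (Subtype.ext h),
        qExpand_coeff_red (N := N) ?_⟩
      have h := hred cst0
      rw [sig_cst0_apply, sig_cst0_apply] at h
      rw [smul_eq_algebraMap_mul]
      exact h
    red_mem := fun u hu x hx => by
      obtain ⟨πR, hK, hk⟩ := exists_piR A π N hN
      have hreg : RegFin u := regFin_of_forall_mem (natCast_ne_zero_of_red hN π) fun v hv => by
        have hne : v ≠ ptPlace π hN := fun h => jC_notMem_ptPlace (π := π) hN (h ▸ hv)
        rcases eq_or_ne u 0 with rfl | hu0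
        · exact zero_mem _
        · exact (FF.mem_toValuationSubring_iff_ord v hu0).mpr (hu v hne)
      obtain ⟨w, -, hwx, -⟩ := exists_red_all hπs πR hK hk hreg hx
      rw [← hwx]
      exact w.2
    ord_pt := ord_ptPlace hN
    deg_one := fun v => FF.deg_eq_one v
    hasPrincipal := inferInstance
    riemann := fun D => by
      have h := FF.riemann_inequality D
      have h0 := FF.riemann_inequality (0 : Divisor K (modularFunctionFieldFullC K N))
      rw [FF.ell_zero_eq_one, map_zero] at h0
      rw [Int.toNat_of_nonneg (by omega)]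
      exact h }

@[simp]
theorem levelCurve_F (π : A →+* k) (hπs : Function.Surjective π) (hN : (N : k) ≠ 0) (harch) :
    (levelCurve π hπs hN harch).F = modularFunctionFieldFullC K N := rfl

theorem levelCurve_g (π : A →+* k) (hπs : Function.Surjective π) (hN : (N : k) ≠ 0) (harch)
    [FF.IsFunctionField K (modularFunctionFieldFullC K N)] :
    ((levelCurve π hπs hN harch).g : ℤ) = FF.riemannGenus K (modularFunctionFieldFullC K N) := by
  have h0 := FF.riemann_inequality (0 : Divisor K (modularFunctionFieldFullC K N))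
  rw [FF.ell_zero_eq_one, map_zero] at h0
  exact Int.toNat_of_nonneg (by omega)

section Qbar

local notation "Qb" => AlgebraicClosure ℚ

variable (A : ValuationSubring Qb)

theorem arch_qbar {ℓ : ℕ} [Fact ℓ.Prime] (hA : A.LiesOverPrime ℓ) (a : A)
    (ha : IsLocalRing.residue A a = 0) (b : Qb) (hb : b ≠ 0) :
    ∃ n : ℕ, A.valuation (a : Qb) ^ n ≤ A.valuation b := by
  have hx : (a : Qb) ∈ A.nonunits :=
    A.coe_mem_nonunits_iff.mpr ((IsLocalRing.residue_eq_zero_iff a).mp ha)
  obtain ⟨n, hn⟩ := Gal.exists_pow_div_mem_nonunits (Fact.out (p := ℓ.Prime)) hA hx hb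
  refine ⟨n, ?_⟩
  rw [ValuationSubring.mem_nonunits_iff, map_div₀, map_pow] at hn
  exact ((div_lt_one₀ (zero_lt_iff.mpr ((Valuation.ne_zero_iff _).mpr hb))).mp hn).le

theorem natCast_residueField_ne_zero {ℓ : ℕ} [Fact ℓ.Prime] (hA : A.LiesOverPrime ℓ) {n : ℕ}
    (hn : ¬ ℓ ∣ n) : (n : IsLocalRing.ResidueField A) ≠ 0 := by
  have := Gal.charP_residueField A (Fact.out (p := ℓ.Prime)) hA
  exact fun h => hn ((CharP.cast_eq_zero_iff _ ℓ n).mp h)

/-- The reduction data of `X₀(N)` over `ℚ̄` at a place over `ℓ ∤ N`. -/
def qbarCurve {ℓ : ℕ} [Fact ℓ.Prime] (hA : A.LiesOverPrime ℓ) (N : ℕ) [NeZero N]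
    (hℓN : ¬ ℓ ∣ N) : CurveRed A (IsLocalRing.residue A) :=
  haveI := Gal.isAlgClosed_residueField A
  levelCurve (IsLocalRing.residue A) IsLocalRing.residue_surjective
    (natCast_residueField_ne_zero A hA hℓN) (arch_qbar A hA)

end Qbar

end Fermat.Agent.Reduction.Level
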