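import Fermat.Agent.Reduction.Level.Finite
import Fermat.Agent.Reduction.Series
import Fermat.Agent.FF.ModularField

/-!
# Places of the level `N` field over `j = ∞` and the spaces `L(m·(j)_∞)`

Every place with a pole of `j` is cut out by one of the conjugate embeddings into series.
-/

set_option autoImplicit false

noncomputable section

open scoped MatrixGroups
open Polynomial ModularCurve IntermediateField AlgebraicCurve Fermat.Agent.Igusa

namespace Fermat.Agent.Reduction.Level

section SeriesRing

variable (k : Type*) [Field k]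

/-- Power series, as a valuation subring of Laurent series. -/
def nonnegOrder : ValuationSubring (LaurentSeries k) where
  toSubring :=
    { carrier := {s | PoleLE 0 s}
      zero_mem' := fun _ _ => rfl
      one_mem' := fun i hi => by
        rw [HahnSeries.coeff_one, if_neg (by omega)]
      add_mem' := fun {a b} ha hb => (poleLESubmodule k 0).add_mem ha hb
      neg_mem' := fun {a} ha => (poleLESubmodule k 0).neg_mem ha
      mul_mem' := fun {a b} ha hb => by simpa using ha.mul hb }
  mem_or_inv_mem' := fun x => by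
    rcases eq_or_ne x 0 with rfl | hx
    · exact Or.inl fun _ _ => rfl
    rcases le_or_gt 0 x.order with h | h
    · exact Or.inl ((poleLE_iff_order hx).mpr (by omega))
    · refine Or.inr ((poleLE_iff_order (inv_ne_zero hx)).mpr ?_)
      have := HahnSeries.order_mul hx (inv_ne_zero hx)
      rw [mul_inv_cancel₀ hx, HahnSeries.order_one] at this
      omega

theorem mem_nonnegOrder {s : LaurentSeries k} : s ∈ nonnegOrder k ↔ PoleLE 0 s := Iff.rfl

variable {k}

theorem order_evJ (N : ℕ) [NeZero N] {p : k[X]} (hp : p ≠ 0) :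
    (evJ k N p).order = -((N : ℤ) * p.natDegree) := by
  refine order_eq_of_coeff (by rw [coeff_evJ_natDegree]; exact leadingCoeff_ne_zero.mpr hp)
    fun n hn => ?_
  rw [evJ, Polynomial.coe_eval₂RingHom, Polynomial.eval₂_eq_sum_range, HahnSeries.coeff_sum]
  refine Finset.sum_eq_zero fun b hb => ?_
  rw [Finset.mem_range] at hb
  have hb' : (b : ℤ) ≤ p.natDegree := by omega
  have hN : (0 : ℤ) ≤ N := Int.natCast_nonneg N
  rw [HahnSeries.C_apply, HahnSeries.coeff_single_mul, sub_zero,
    coeff_jW_pow_of_lt N b (by nlinarith), mul_zero]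

end SeriesRing

variable {k : Type*} [Field k] {N : ℕ} [NeZero N]

omit [NeZero N] in
theorem RegFin.mem_place {x : modularFunctionFieldFullC k N} (hx : RegFin x)
    (v : Place k (modularFunctionFieldFullC k N)) (hj : jC k N ∈ v.toValuationSubring) :
    x ∈ v.toValuationSubring := by
  have hev : ∀ p, evC k N p ∈ v.toValuationSubring := fun p => by
    rw [evC_apply]
    exact FF.aeval_mem_of_mem v.algebraMap_mem' hj p
  obtain ⟨p, hp, hpx⟩ := hx
  have h : IsIntegral v.toValuationSubring x := by
    refine ⟨p.map ((evC k N).codRestrict _ hev), hp.map _, ?_⟩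
    rw [Polynomial.eval₂_map]
    exact hpx
  obtain ⟨z, hz⟩ := IsIntegrallyClosed.isIntegral_iff.1 h
  rw [← hz]
  exact z.2

theorem isFunctionField_level [IsAlgClosed k] (hN : (N : k) ≠ 0) :
    FF.IsFunctionField k (modularFunctionFieldFullC k N) :=
  FF.isFunctionField_fullC k N hN

/-- An element without poles where `j` is finite is integral over `k[j]`. -/
theorem regFin_of_forall_mem [IsAlgClosed k] (hN : (N : k) ≠ 0)
    {x : modularFunctionFieldFullC k N}
    (h : ∀ v : Place k (modularFunctionFieldFullC k N),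
      jC k N ∈ v.toValuationSubring → x ∈ v.toValuationSubring) : RegFin x := by
  have := isFunctionField_level (k := k) hN
  set s : Set (modularFunctionFieldFullC k N) := Set.range (evC k N) with hs
  have hall : x ∈ (⨅ V : {V : ValuationSubring (modularFunctionFieldFullC k N) //
      s ⊆ V.toSubring}, V.1.toSubring) := by
    refine Subring.mem_iInf.mpr fun V => ?_
    by_cases htop : V.1 = ⊤
    · rw [htop]
      exact ValuationSubring.mem_top x
    have hK : ∀ a : k, algebraMap k _ a ∈ V.1 := fun a =>
      V.2 ⟨C a, by rw [evC_apply, aeval_C]⟩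
    exact h ⟨V.1, hK, htop, FF.isPrincipalIdealRing_valuationSubring_of_ne_top V.1 hK⟩
      (V.2 ⟨X, by rw [evC_apply, aeval_X]⟩)
  rw [iInf_valuationSubring_superset] at hall
  obtain ⟨p, hp, hpx⟩ := hall
  have hcl : Subring.closure s ≤ (evC k N).range :=
    Subring.closure_le.mpr fun y hy => hy
  have hlift : p.map (Subring.closure s).subtype ∈ Polynomial.lifts (evC k N) :=
    (Polynomial.lifts_iff_coeff_lifts _).mpr fun n => by
      rw [Polynomial.coeff_map]
      exact hcl (p.coeff n).2
  obtain ⟨q, hq, -, hqm⟩ := Polynomial.lifts_and_natDegree_eq_and_monic hlift (hp.map _)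
  refine ⟨q, hqm, ?_⟩
  rw [← Polynomial.eval_map, hq, Polynomial.eval_map]
  exact hpx

omit [NeZero N] in
theorem ord_evC (v : Place k (modularFunctionFieldFullC k N)) (hv : v.ord (jC k N) < 0)
    {p : k[X]} (hp : p ≠ 0) : v.ord (evC k N p) = p.natDegree * v.ord (jC k N) := by
  induction hd : p.natDegree using Nat.strong_induction_on generalizing p with
  | _ d ih =>
    have hj0 : jC k N ≠ 0 := fun h => by rw [h, v.ord_zero] at hv; exact lt_irrefl _ hv
    have hsplit : evC k N p = evC k N p.eraseLead +
        algebraMap k _ p.leadingCoeff * jC k N ^ p.natDegree := by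
      conv_lhs => rw [← Polynomial.eraseLead_add_C_mul_X_pow p]
      rw [map_add, map_mul, map_pow]
      simp [evC_apply]
    have hc : algebraMap k (modularFunctionFieldFullC k N) p.leadingCoeff ≠ 0 :=
      (_root_.map_ne_zero _).mpr (leadingCoeff_ne_zero.mpr hp)
    have htop : v.ord (algebraMap k _ p.leadingCoeff * jC k N ^ p.natDegree) =
        d * v.ord (jC k N) := by
      rw [v.ord_mul hc (pow_ne_zero _ hj0), FF.ord_algebraMap, FF.ord_pow, zero_add, hd]
    rw [hsplit, FF.ord_add_eq_right v (mul_ne_zero hc (pow_ne_zero _ hj0)) ?_, htop]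
    rcases eq_or_ne p.eraseLead 0 with h0 | h0
    · exact Or.inl (by rw [h0, map_zero])
    · refine Or.inr ?_
      have hlt : p.eraseLead.natDegree < d :=
        hd ▸ (Polynomial.eraseLead_natDegree_lt_or_eraseLead_eq_zero p).resolve_right h0
      rw [htop, ih _ hlt h0 rfl]
      exact mul_lt_mul_of_neg_right (by exact_mod_cast hlt) hv

variable [IsAlgClosed k] (π : Rz N →+* k) (hπ : IsPrimitiveRoot (π (zetaR N)) N)

include hπ

theorem order_sig_jC (i : Cst N) : (sig π hπ i (jC k N)).order = -(N : ℤ) := by
  rw [sig_jC, jW, order_qExpand, order_jqModC, mul_neg_one]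

/-- The place at infinity cut out by the `i`-th embedding. -/
def cuspPlace (i : Cst N) : Place k (modularFunctionFieldFullC k N) :=
  haveI := isFunctionField_level (k := k) (natCast_level_ne_zero π hπ)
  have hK : ∀ a : k, algebraMap k _ a ∈ (nonnegOrder k).comap (sig π hπ i) := fun a => by
    rw [ValuationSubring.mem_comap, sig_algebraMap, mem_nonnegOrder,
      algebraMap_laurentSeries_eq_single]
    intro n hn
    exact HahnSeries.coeff_single_of_ne (by omega)
  { toValuationSubring := (nonnegOrder k).comap (sig π hπ i)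
    algebraMap_mem' := hK
    ne_top' := fun h => by
      have h1 : jC k N ∈ (nonnegOrder k).comap (sig π hπ i) := h ▸ ValuationSubring.mem_top _
      have h2 := order_sig_jC π hπ i
      have hne : sig π hπ i (jC k N) ≠ 0 := fun h0 => by
        rw [h0, HahnSeries.order_zero] at h2
        have := NeZero.pos N
        omega
      have h3 := (poleLE_iff_order hne).mp h1
      have := NeZero.pos N
      omega
    isPrincipalIdealRing' := FF.isPrincipalIdealRing_valuationSubring_of_ne_top _ hK }

theorem mem_cuspPlace {i : Cst N} {x : modularFunctionFieldFullC k N} :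
    x ∈ (cuspPlace π hπ i).toValuationSubring ↔ PoleLE 0 (sig π hπ i x) := Iff.rfl

theorem jC_notMem_cuspPlace (i : Cst N) : jC k N ∉ (cuspPlace π hπ i).toValuationSubring := by
  intro h
  have h2 := order_sig_jC π hπ i
  have := NeZero.pos N
  have hne : sig π hπ i (jC k N) ≠ 0 := fun h0 => by
    rw [h0, HahnSeries.order_zero] at h2
    omega
  have h3 := (poleLE_iff_order hne).mp (mem_cuspPlace π hπ |>.mp h)
  omega

theorem exists_mul_regFin (z : modularFunctionFieldFullC k N) :
    ∃ p : k[X], p ≠ 0 ∧ RegFin (evC k N p * z) := by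
  classical
  obtain ⟨g, hg⟩ := exists_aeval_eq π hπ z
  choose r hr using fun n => toBase_surjective k N (g.coeff n)
  obtain ⟨b, hb⟩ := IsLocalization.exist_integer_multiples (nonZeroDivisors k[X])
    (Finset.range (g.natDegree + 1)) r
  refine ⟨b, nonZeroDivisors.ne_zero b.2, ?_⟩
  have hev : ∀ p : k[X],
      algebraMap (baseC k N) _ (toBase k N (algebraMap k[X] (Kj k) p)) = evC k N p := by
    intro p
    refine inclN_injective k N ?_
    rw [← sig_cst0 π hπ, sig_algebraMap_base, baseHom_toBase_apply, phiJ_algebraMap, sig_evC]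
  have hG : RegFin (jNC k N) := by
    obtain ⟨P, hPm, -, hP⟩ := exists_charPoly_red π (jFam (N := N) dvd_rfl) (equivariant_jFam _)
    refine ⟨P, hPm, inclN_injective k N ?_⟩
    rw [map_zero, Polynomial.hom_eval₂,
      show (inclN k N).comp (evC k N) = (phiJ N k).comp (algebraMap k[X] (Kj k)) from
        RingHom.ext fun p => by
          rw [RingHom.comp_apply, RingHom.comp_apply, phiJ_algebraMap, ← sig_cst0 π hπ, sig_evC],
      inclN_jNC N π, ← Polynomial.eval₂_map, ← Polynomial.eval_map, hP, Polynomial.eval_prod]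
    exact Finset.prod_eq_zero (Finset.mem_univ cst0) (by simp [Gk])
  rw [← hg, Polynomial.aeval_eq_sum_range, Finset.mul_sum]
  refine Finset.sum_induction _ RegFin (fun a c => RegFin.add) ?_ fun n hn => ?_
  · simpa using regFin_algebraMap (N := N) (0 : k)
  obtain ⟨c, hc⟩ := hb n hn
  rw [Algebra.smul_def, ← mul_assoc]
  refine RegFin.mul ?_ (hG.pow n)
  rw [← hev, ← map_mul, ← hr n, ← map_mul]
  have : algebraMap k[X] (Kj k) b * r n = algebraMap k[X] (Kj k) c := by
    rw [hc, Algebra.smul_def]
  rw [this, hev]
  exact regFin_evC c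

theorem ord_toBase_nonneg {v : Place k (modularFunctionFieldFullC k N)}
    (hv : v.ord (jC k N) < 0) {r : baseC k N} (hr : PoleLE 0 (baseHom k N r)) :
    (r : modularFunctionFieldFullC k N) ∈ v.toValuationSubring := by
  obtain ⟨z, rfl⟩ := toBase_surjective k N r
  obtain ⟨⟨p, q⟩, hpq⟩ := IsLocalization.surj (nonZeroDivisors k[X]) z
  have hq0 : (q : k[X]) ≠ 0 := nonZeroDivisors.ne_zero q.2
  rcases eq_or_ne z 0 with rfl | hz
  · rw [map_zero]
    exact zero_mem _
  have hp0 : p ≠ 0 := by
    rintro rfl
    rw [map_zero, mul_eq_zero] at hpq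
    exact hpq.elim hz fun h => hq0 ((IsFractionRing.to_map_eq_zero_iff).mp h)
  rw [baseHom_toBase_apply] at hr
  have hz0 : phiJ N k z ≠ 0 := (_root_.map_ne_zero _).mpr hz
  have h1 : phiJ N k z * evJ k N q = evJ k N p := by
    rw [← phiJ_algebraMap, ← phiJ_algebraMap, ← map_mul, hpq]
  have hq1 : evJ k N (q : k[X]) ≠ 0 := fun h => hq0 (evJ_injective N (h.trans (map_zero _).symm))
  have hdeg : (p.natDegree : ℤ) ≤ (q : k[X]).natDegree := by
    have h2 := congrArg HahnSeries.order h1
    rw [HahnSeries.order_mul hz0 hq1, order_evJ N hp0, order_evJ N hq0] at h2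
    have h3 := (poleLE_iff_order hz0).mp hr
    have hN : (0 : ℤ) < N := by exact_mod_cast NeZero.pos N
    nlinarith
  set y := ((toBase k N z : baseC k N) : modularFunctionFieldFullC k N)
  have h4 : y * evC k N q = evC k N p := by
    refine inclN_injective k N ?_
    rw [map_mul, ← sig_cst0 π hπ, sig_evC, sig_evC, sig_cst0]
    show baseHom k N (toBase k N z) * _ = _
    rw [baseHom_toBase_apply, h1]
  have hy0 : y ≠ 0 := fun h => hp0 (evC_injective k N (by rw [← h4, h, zero_mul, map_zero]))
  have hq2 : evC k N (q : k[X]) ≠ 0 := (map_ne_zero_iff _ (evC_injective k N)).mpr hq0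
  have h5 := congrArg v.ord h4
  rw [v.ord_mul hy0 hq2, ord_evC v hv hp0, ord_evC v hv hq0] at h5
  rw [FF.mem_toValuationSubring_iff_ord v hy0]
  nlinarith

/-- An element with no pole at any conjugate lies in every valuation ring over `j = ∞`. -/
theorem mem_of_forall_poleLE {v : Place k (modularFunctionFieldFullC k N)}
    (hv : v.ord (jC k N) < 0) {x : modularFunctionFieldFullC k N}
    (hx : ∀ i, PoleLE 0 (sig π hπ i x)) : x ∈ v.toValuationSubring := by
  have := finiteDimensional_fullC N (natCast_level_ne_zero π hπ) (k := k)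
  have hint : IsIntegral (baseC k N) x := IsIntegral.of_finite _ x
  have hco : ∀ n, ((minpoly (baseC k N) x).coeff n : modularFunctionFieldFullC k N) ∈
      v.toValuationSubring := fun n =>
    ord_toBase_nonneg π hπ hv
      (baseHom_coeff_minpoly_mem π hπ (nonnegOrder k).toSubring hx n)
  have h : IsIntegral v.toValuationSubring x := by
    have hl : (minpoly (baseC k N) x).map (algebraMap (baseC k N) (modularFunctionFieldFullC k N)) ∈
        Polynomial.lifts (algebraMap v.toValuationSubring (modularFunctionFieldFullC k N)) :=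
      (Polynomial.lifts_iff_coeff_lifts _).mpr fun n => by
        rw [Polynomial.coeff_map]
        exact ⟨⟨_, hco n⟩, rfl⟩
    obtain ⟨q, hq, -, hqm⟩ :=
      Polynomial.lifts_and_natDegree_eq_and_monic hl ((minpoly.monic hint).map _)
    refine ⟨q, hqm, ?_⟩
    rw [← Polynomial.eval_map, hq, Polynomial.eval_map]
    exact minpoly.aeval _ _
  obtain ⟨z, hz⟩ := IsIntegrallyClosed.isIntegral_iff.1 h
  rw [← hz]
  exact z.2

/-- Every pole of `j` is one of the cusp places. -/
theorem exists_cuspPlace_eq (v : Place k (modularFunctionFieldFullC k N))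
    (hv : jC k N ∉ v.toValuationSubring) : ∃ i, cuspPlace π hπ i = v := by
  classical
  have := isFunctionField_level (k := k) (natCast_level_ne_zero π hπ)
  by_contra hne
  push Not at hne
  have hj0 : jC k N ≠ 0 := fun h => hv (h ▸ zero_mem _)
  have hvj : v.ord (jC k N) < 0 := by
    by_contra h
    exact hv ((FF.mem_toValuationSubring_iff_ord v hj0).mpr (not_lt.mp h))
  obtain ⟨a, ha0, ha⟩ : ∃ a : modularFunctionFieldFullC k N, a ≠ 0 ∧ v.ord a < 0 :=
    ⟨_, hj0, hvj⟩
  set S : Finset (Place k (modularFunctionFieldFullC k N)) :=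
    insert v (Finset.univ.image (cuspPlace π hπ))
  obtain ⟨z, hz⟩ := FF.exists_approx S (fun w => if w = v then a else 0) fun _ => 0
  have hzv : v.ord z < 0 := by
    have h1 := hz v (Finset.mem_insert_self _ _)
    rw [if_pos rfl, ← FF.mem_toValuationSubring_iff] at h1
    by_contra hc
    rcases eq_or_ne z 0 with h0 | h0
    · rw [h0, zero_sub] at h1
      have := FF.ord_nonneg_of_mem v (neg_neg a ▸ neg_mem h1 : a ∈ v.toValuationSubring)
      omega
    · have h2 := sub_mem ((FF.mem_toValuationSubring_iff_ord v h0).mpr (not_lt.mp hc)) h1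
      rw [sub_sub_cancel] at h2
      have := FF.ord_nonneg_of_mem v h2
      omega
  have hzi : ∀ i, PoleLE 0 (sig π hπ i z) := fun i => by
    have h1 := hz (cuspPlace π hπ i)
      (Finset.mem_insert_of_mem (Finset.mem_image_of_mem _ (Finset.mem_univ i)))
    rw [if_neg (hne i), sub_zero, ← FF.mem_toValuationSubring_iff] at h1
    exact h1
  have := FF.ord_nonneg_of_mem v (mem_of_forall_poleLE π hπ hvj hzi)
  omega

omit [IsAlgClosed k] hπ in
variable (k N) in
/-- `m` times the divisor of poles of `j`. -/
def jPoles [FF.IsFunctionField k (modularFunctionFieldFullC k N)] (m : ℕ) :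
    Divisor k (modularFunctionFieldFullC k N) :=
  (m : ℤ) • FF.poleDiv k (jC k N)

theorem degree_jPoles [FF.IsFunctionField k (modularFunctionFieldFullC k N)] (m : ℕ) :
    Divisor.degree (jPoles k N m) = (m : ℤ) * idx N := by
  rw [jPoles, map_zsmul, FF.degree_poleDiv (FF.transcendental_jC k N),
    finrank_fullC N (natCast_level_ne_zero π hπ), smul_eq_mul]

/-- Membership in `L(m·(j)_∞)`. -/
theorem mem_jPoles_iff [FF.IsFunctionField k (modularFunctionFieldFullC k N)] (m : ℕ)
    (x : modularFunctionFieldFullC k N) :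
    x ∈ riemannRochSpace (jPoles k N m) ↔
      RegFin x ∧ ∀ i, PoleLE ((N : ℤ) * m) (sig π hπ i x) := by
  classical
  have hN := natCast_level_ne_zero π hπ
  have hj0 : jC k N ≠ 0 := fun h => jC_notMem_cuspPlace π hπ cst0 (h ▸ zero_mem _)
  have key : ∀ v : Place k (modularFunctionFieldFullC k N),
      (x = 0 ∨ -(jPoles k N m v) ≤ v.ord x) ↔
        if jC k N ∈ v.toValuationSubring then x ∈ v.toValuationSubring
        else x * (jC k N ^ m)⁻¹ ∈ v.toValuationSubring := by
    intro v
    rw [jPoles, Finsupp.smul_apply, FF.poleDiv_apply, smul_eq_mul]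
    rcases eq_or_ne x 0 with rfl | hx
    · simp
    have hjm := pow_ne_zero m hj0
    rw [or_iff_right hx]
    split_ifs with h
    · have := FF.ord_nonneg_of_mem v h
      rw [max_eq_right (by omega), mul_zero, neg_zero, FF.mem_toValuationSubring_iff_ord v hx]
    · have : v.ord (jC k N) < 0 := by
        by_contra hc
        exact h ((FF.mem_toValuationSubring_iff_ord v hj0).mpr (not_lt.mp hc))
      rw [FF.mem_toValuationSubring_iff_ord v (mul_ne_zero hx (inv_ne_zero hjm)),
        v.ord_mul hx (inv_ne_zero hjm), v.ord_inv, FF.ord_pow, max_eq_left (by omega)]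
      constructor <;> intro <;> linarith
  have hser : ∀ i, PoleLE ((N : ℤ) * m) (sig π hπ i x) ↔
      x * (jC k N ^ m)⁻¹ ∈ (cuspPlace π hπ i).toValuationSubring := by
    intro i
    rw [mem_cuspPlace]
    rcases eq_or_ne x 0 with rfl | hx
    · simp [PoleLE]
    have hsx : sig π hπ i x ≠ 0 := (_root_.map_ne_zero _).mpr hx
    have hsj : sig π hπ i (jC k N) ≠ 0 := (_root_.map_ne_zero _).mpr hj0
    rw [map_mul, map_inv₀, map_pow, poleLE_iff_order hsx,
      poleLE_iff_order (mul_ne_zero hsx (inv_ne_zero (pow_ne_zero _ hsj)))]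
    have ho : ((sig π hπ i (jC k N)) ^ m)⁻¹.order = (N : ℤ) * m := by
      have h1 := HahnSeries.order_mul (pow_ne_zero m hsj) (inv_ne_zero (pow_ne_zero m hsj))
      rw [mul_inv_cancel₀ (pow_ne_zero m hsj), HahnSeries.order_one, HahnSeries.order_pow,
        order_sig_jC, nsmul_eq_mul] at h1
      linarith
    rw [HahnSeries.order_mul hsx (inv_ne_zero (pow_ne_zero _ hsj)), ho]
    omega
  rw [mem_riemannRochSpace_iff]
  constructor
  · intro h
    refine ⟨regFin_of_forall_mem hN fun v hv => ?_, fun i => (hser i).mpr ?_⟩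
    · simpa [hv] using (key v).mp (h v)
    · simpa [jC_notMem_cuspPlace π hπ i] using (key _).mp (h (cuspPlace π hπ i))
  · rintro ⟨hreg, hcusp⟩ v
    rw [key]
    split_ifs with h
    · exact hreg.mem_place v h
    · obtain ⟨i, rfl⟩ := exists_cuspPlace_eq π hπ v h
      exact (hser i).mp (hcusp i)

end Fermat.Agent.Reduction.Level
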