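import Fermat.Agent.Reduction.Level.Units
import Fermat.Agent.Reduction.Level.Places
import Fermat.Agent.Reduction.Level.Principle
import Fermat.Agent.FF.Genus

/-!
# Lifting with bounded poles at the cusps; equality of the genera

If every regular reduced element lifts to a regular element, then it lifts with the same bound on
the poles at the cusps: for large `M` there are integral functions whose reductions have
independent tops. Hence the genus cannot drop under reduction.
-/

set_option autoImplicit false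

noncomputable section

open scoped MatrixGroups
open Polynomial ModularCurve AlgebraicCurve Fermat.Agent.Igusa

namespace Fermat.Agent.Reduction.Level

variable {K k : Type*} [Field K] [Field k] {A : ValuationSubring K} {π : A →+* k}
variable {N : ℕ} [NeZero N]

/-- A nonzero family can be scaled to an integral one with nonzero reduction. -/
theorem exists_scale_const (π : A →+* k) {ι : Type*} [Finite ι] {c : ι → K} (hc : c ≠ 0) :
    ∃ (a : K) (b : ι → A), a ≠ 0 ∧ (∀ i, (b i : K) = a * c i) ∧ (∃ i, π (b i) ≠ 0) ∧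
      ((∃ i, c i ∉ A) → ∃ ha : a ∈ A, π ⟨a, ha⟩ = 0 ∨ ¬ Function.Surjective π) := by
  classical
  have := Fintype.ofFinite ι
  have : Nonempty ι := ⟨(Function.ne_iff.mp hc).choose⟩
  obtain ⟨i₀, hmax⟩ := exists_max_valuation (A := A) c
  have h0 : c i₀ ≠ 0 := by
    intro h0
    obtain ⟨i, hi⟩ := Function.ne_iff.mp hc
    have := hmax i
    rw [h0, map_zero, le_zero_iff, Valuation.zero_iff] at this
    exact hi this
  have hv : A.valuation (c i₀) ≠ 0 := (Valuation.ne_zero_iff _).mpr h0
  have hmem : ∀ i, (c i₀)⁻¹ * c i ∈ A := fun i => by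
    rw [← ValuationSubring.valuation_le_one_iff, map_mul, map_inv₀]
    calc (A.valuation (c i₀))⁻¹ * A.valuation (c i)
        ≤ (A.valuation (c i₀))⁻¹ * A.valuation (c i₀) := by
          gcongr
          exact hmax i
      _ = 1 := inv_mul_cancel₀ hv
  refine ⟨(c i₀)⁻¹, fun i => ⟨_, hmem i⟩, inv_ne_zero h0, fun i => rfl, ⟨i₀, ?_⟩, ?_⟩
  · dsimp only
    rw [show (⟨_, hmem i₀⟩ : A) = 1 from Subtype.ext (inv_mul_cancel₀ h0), map_one]
    exact one_ne_zero
  · rintro ⟨i, hi⟩
    have hlt : 1 < A.valuation (c i₀) :=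
      lt_of_lt_of_le (not_le.mp fun h => hi ((ValuationSubring.valuation_le_one_iff _ _).mp h))
        (hmax i)
    have ha : (c i₀)⁻¹ ∈ A := by
      rw [← ValuationSubring.valuation_le_one_iff, map_inv₀]
      exact inv_le_one_of_one_le₀ hlt.le
    refine ⟨ha, ?_⟩
    by_cases hs : Function.Surjective π
    · refine Or.inl ((residue_eq_zero_iff hs _).mpr ?_)
      show A.valuation (c i₀)⁻¹ < 1
      rw [map_inv₀]
      exact inv_lt_one_of_one_lt₀ hlt
    · exact Or.inr hs

theorem leadingCoeff_Gk_one (π : Rz N →+* k) (i : Cst N) :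
    (Gk π (one_dvd N) i).leadingCoeff = 1 := by
  have := neZero_expo (one_dvd N) (repg i)
  have h1 : cls 1 (repg i) = 1 := Nat.dvd_one.mp (cls_dvd 1 _)
  have htw : tw N 1 (repg i) = 1 := by
    have hu : zetaU N ^ N = 1 := Units.ext (zetaR_pow_self N)
    rw [tw, cod, h1, Nat.div_one, mul_comm, zpow_mul, zpow_natCast, hu, one_zpow]
  rw [HahnSeries.leadingCoeff_eq, order_Gk, Gk_eq, ← mul_neg_one (expo N 1 (repg i) : ℤ),
    qExpand_coeff_mul, twist_coeff, coeff_jqModC_neg_one, mul_one, htw, map_one, one_zpow,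
    Units.val_one]

variable [IsAlgClosed K] [IsAlgClosed k] (hπs : Function.Surjective π) (πR : Rz N →+* A)
  (hK : IsPrimitiveRoot (A.subtype.comp πR (zetaR N)) N)
  (hk : IsPrimitiveRoot (π.comp πR (zetaR N)) N)

include hπs hK hk

omit hπs in
/-- Integral functions with poles of level `M` whose reductions have independent tops. -/
theorem exists_topBasis :
    ∃ M₀ : ℕ, ∀ M : ℕ, M₀ ≤ M → ∃ (U : Cst N → modularFunctionFieldFullC K N)
      (V : Cst N → modularFunctionFieldFullC k N),
      (∀ a, RegFin (U a) ∧ ∀ i, PoleLE ((N : ℤ) * M) (sig _ hK i (U a))) ∧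
      (∀ a i, Red A π (sig _ hK i (U a)) (sig _ hk i (V a))) ∧
      ∀ c : Cst N → k, (∀ i, PoleLE ((N : ℤ) * M - N)
        (∑ a, algebraMap k (LaurentSeries k) (c a) * sig _ hk i (V a))) → c = 0 := by
  classical
  choose! n D hD hn using fun (e : ℕ) (he : e ∈ N.divisors) => exists_exponents (N := N) he
  let cl : ∀ e : ℕ, {a : Cst N // kls a = e} ≃ Fin (Fintype.card {a : Cst N // kls a = e}) :=
    fun e => Fintype.equivFin _
  let l : Cst N → ℕ := fun a => (cl (kls a) ⟨a, rfl⟩ : ℕ)
  set Kc : ℕ := idx N * N + 3 with hKc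
  let S : Cst N → ℤ := fun a => ∑ m ∈ N.divisors, n (kls a) m
  let c₀ : Cst N → ℕ := fun a => (l a * kls a ^ 2 + (N - 1)) / N
  let low : Cst N → ℤ := fun a => (Kc : ℤ) * (D (kls a) + S a) + c₀ a
  refine ⟨Finset.univ.sup (fun a => (low a).toNat) + 1, fun M hM => ?_⟩
  have hlow : ∀ a, low a ≤ M := fun a => by
    have := Finset.le_sup (f := fun a => (low a).toNat) (Finset.mem_univ a)
    omega
  let t : Cst N → ℕ := fun a => ((M : ℤ) - low a).toNat
  let fam : Cst N → Cst N → AQ N := fun a => topFam (n (kls a)) Kc (l a) (t a)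
  choose U hU using fun a => exists_sig_eq _ hK (fam a) (equivariant_topFam _ _ _ _)
  choose V hV using fun a => exists_sig_eq _ hk (fam a) (equivariant_topFam _ _ _ _)
  let ρ : Cst N → ℤ := fun a => (N : ℤ) * M - (N : ℤ) * c₀ a + (l a : ℤ) * (kls a : ℤ) ^ 2
  have hN1 : (1 : ℤ) ≤ N := by exact_mod_cast NeZero.pos N
  have hρ : ∀ a, (N : ℤ) * M - N < ρ a ∧ ρ a ≤ (N : ℤ) * M := by
    intro a
    have h1 := Nat.div_add_mod (l a * kls a ^ 2 + (N - 1)) N
    have h2 := Nat.mod_lt (l a * kls a ^ 2 + (N - 1)) (NeZero.pos N)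
    set q := (l a * kls a ^ 2 + (N - 1)) % N
    have hNpos := NeZero.pos N
    have hx : N * c₀ a + q + 1 = l a * kls a ^ 2 + N := by simp only [c₀]; omega
    have h3 := congrArg (Nat.cast : ℕ → ℤ) hx
    push_cast at h3
    have h4 : (q : ℤ) + 1 ≤ N := by exact_mod_cast h2
    have h5 : (0 : ℤ) ≤ q := Int.natCast_nonneg q
    constructor <;> simp only [ρ] <;> linarith
  have hl : ∀ a, (l a : ℤ) ≤ idx N := fun a => by
    have h1 : (cl (kls a) ⟨a, rfl⟩ : ℕ) < Fintype.card {b : Cst N // kls b = kls a} := Fin.isLt _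
    have h2 := Fintype.card_subtype_le fun b : Cst N => kls b = kls a
    simp only [l, idx]
    omega
  have hval : ∀ a i : Cst N, (if kls i = kls a then
      (Kc : ℤ) * (-((N : ℤ) * D (kls a)) - (N : ℤ) * S a) - l a * (kls i : ℤ) ^ 2 - t a * N = -(ρ a)
      else -((N : ℤ) * M - N) ≤
        (Kc : ℤ) * (0 - (N : ℤ) * S a) - l a * (kls i : ℤ) ^ 2 - t a * N) := by
    intro a i
    have ht : (t a : ℤ) = M - low a := by
      have := hlow a
      simp only [t]
      omega
    split_ifs with h
    · rw [h, ht]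
      simp only [ρ, low]
      ring
    · rw [ht]
      have hD1 : (1 : ℤ) ≤ D (kls a) := hD _ (kls_mem a)
      have hk2 : (kls i : ℤ) ^ 2 ≤ (N : ℤ) ^ 2 := by
        have : kls i ≤ N := Nat.le_of_dvd (NeZero.pos N) (cls_dvd N _)
        exact_mod_cast Nat.pow_le_pow_left this 2
      have h1 : (l a : ℤ) * (kls i : ℤ) ^ 2 ≤ (idx N : ℤ) * (N : ℤ) ^ 2 :=
        mul_le_mul (hl a) hk2 (sq_nonneg _) (Int.natCast_nonneg _)
      have h2 : (Kc : ℤ) * N * 1 ≤ (Kc : ℤ) * N * D (kls a) :=
        mul_le_mul_of_nonneg_left hD1 (by positivity)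
      have h3 : (Kc : ℤ) * N = (idx N : ℤ) * (N : ℤ) ^ 2 + 3 * N := by
        rw [hKc]; push_cast; ring
      have h4 : (0 : ℤ) ≤ (N : ℤ) * c₀ a := by positivity
      simp only [low]
      nlinarith
  have hordK : ∀ a i, PoleLE ((N : ℤ) * M) (sig _ hK i (U a)) := by
    intro a i
    obtain ⟨h0, ho⟩ := red_topFam _ hK (n (kls a)) Kc (l a) (t a) i
    rw [hn _ (kls_mem a) _ (kls_mem i)] at ho
    rw [hU, poleLE_iff_order h0, ho]
    have h1 := hval a i
    have := (hρ a).2
    split_ifs at h1 ⊢ <;> linarith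
  refine ⟨U, V, fun a => ⟨?_, hordK a⟩, fun a i => by rw [hU, hV]; exact red_red πR _,
    fun c hc => ?_⟩
  · obtain ⟨P, hPm, -, hP⟩ := exists_charPoly_red (A.subtype.comp πR) (fam a)
      (equivariant_topFam _ _ _ _)
    refine ⟨P, hPm, (sig _ hK cst0).injective ?_⟩
    rw [map_zero, Polynomial.hom_eval₂,
      show (sig _ hK cst0).comp (evC K N) = (phiJ N K).comp (algebraMap K[X] (Kj K)) from
        RingHom.ext fun p => by rw [RingHom.comp_apply, RingHom.comp_apply, phiJ_algebraMap,
          sig_evC],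
      hU, ← Polynomial.eval₂_map, ← Polynomial.eval_map, hP, Polynomial.eval_prod]
    exact Finset.prod_eq_zero (Finset.mem_univ cst0) (by simp)
  -- independence of the tops
  by_contra hne
  obtain ⟨a₁, ha₁⟩ := Function.ne_iff.mp hne
  obtain ⟨a₀, ha₀, hmax⟩ := (Finset.univ.filter fun a => c a ≠ 0 ∧ kls a = kls a₁).exists_max_image
    ρ ⟨a₁, Finset.mem_filter.mpr ⟨Finset.mem_univ _, ha₁, rfl⟩⟩
  obtain ⟨-, hca₀, hka₀⟩ := Finset.mem_filter.mp ha₀
  set e := kls a₀ with he
  have hterm : ∀ i, kls i = e → ∀ a, algebraMap k (LaurentSeries k) (c a) * sig _ hk i (V a) = 0 ∨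
      (if kls a = e ∧ ρ a = ρ a₀ then
        (algebraMap k (LaurentSeries k) (c a) * sig _ hk i (V a)).coeff (-(ρ a₀)) =
          c a * ((Igusa.red (π.comp πR) (unitFam (n e) i)).leadingCoeff ^ Kc *
            (Gk (π.comp πR) (dvd_refl N) i).leadingCoeff ^ l a)
      else (algebraMap k (LaurentSeries k) (c a) * sig _ hk i (V a)).coeff (-(ρ a₀)) = 0) := by
    intro i hi a
    rcases eq_or_ne (c a) 0 with h0 | h0
    · exact Or.inl (by rw [h0, map_zero, zero_mul])
    right
    obtain ⟨hne0, ho⟩ := red_topFam _ hk (n (kls a)) Kc (l a) (t a) i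
    rw [hn _ (kls_mem a) _ (kls_mem i)] at ho
    have h1 := hval a i
    rw [hV, algebraMap_laurentSeries_eq_single, HahnSeries.coeff_single_mul, sub_zero]
    split_ifs with hcase
    · obtain ⟨hae, hρe⟩ := hcase
      rw [if_pos (hi.trans hae.symm)] at h1
      rw [if_pos (hi.trans hae.symm), h1] at ho
      rw [← hρe, ← ho, ← HahnSeries.leadingCoeff_eq, leadingCoeff_topFam, leadingCoeff_Gk_one,
        one_pow, mul_one, hae]
    · refine mul_eq_zero_of_right _ (HahnSeries.coeff_eq_zero_of_lt_order ?_)
      rw [ho]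
      by_cases hae : kls a = e
      · rw [if_pos (hi.trans hae.symm)] at h1 ⊢
        rw [h1, neg_lt_neg_iff]
        exact lt_of_le_of_ne (hmax a (Finset.mem_filter.mpr
          ⟨Finset.mem_univ _, h0, hae.trans hka₀⟩)) fun h => hcase ⟨hae, h⟩
      · have hia : kls i ≠ kls a := fun h => hae (h.symm.trans hi)
        rw [if_neg hia] at h1 ⊢
        have := (hρ a₀).1
        linarith
  -- Vandermonde in the class `e`
  let r := Fintype.card {a : Cst N // kls a = e}
  let v : Fin r → k := fun j => if ρ ((cl e).symm j).1 = ρ a₀ then c ((cl e).symm j).1 else 0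
  let ε : Fin r → k := fun j => (Gk (π.comp πR) (dvd_refl N) ((cl e).symm j).1).leadingCoeff
  have hε : Function.Injective ε := fun j j' hjj => (cl e).symm.injective (Subtype.ext
    (eq_of_leadingCoeff_eq _ hk (((cl e).symm j).2.trans ((cl e).symm j').2.symm) hjj))
  have hlsymm : ∀ j, l ((cl e).symm j).1 = (j : ℕ) := by
    intro j
    obtain ⟨x, rfl⟩ := (cl e).surjective j
    rw [Equiv.symm_apply_apply]
    have : ∀ (e' : ℕ) (y : {a : Cst N // kls a = e'}), l y.1 = (cl e' y : ℕ) := by
      rintro e' ⟨a, rfl⟩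
      rfl
    exact this e x
  have hv : v = 0 := by
    refine Matrix.eq_zero_of_forall_index_sum_mul_pow_eq_zero hε fun j => ?_
    set i := ((cl e).symm j).1 with hi_def
    have hi : kls i = e := ((cl e).symm j).2
    have hzero := hc i (-(ρ a₀)) (by have := (hρ a₀).1; omega)
    rw [HahnSeries.coeff_sum] at hzero
    set lam := (Igusa.red (π.comp πR) (unitFam (n e) i)).leadingCoeff ^ Kc with hlam
    have hlam0 : lam ≠ 0 := by
      refine pow_ne_zero _ (HahnSeries.leadingCoeff_ne_zero.mpr ?_)
      rw [unitFam, map_prod]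
      exact Finset.prod_ne_zero_iff.mpr fun m _ => (red_unitFactor _ hk (n e) m i).1
    refine (mul_eq_zero.mp (?_ : lam * (∑ j', v j' * ε j ^ (j' : ℕ)) = 0)).resolve_left hlam0
    rw [← hzero, Finset.mul_sum]
    rw [← Finset.sum_filter_add_sum_filter_not Finset.univ (fun a : Cst N => kls a = e),
      Finset.sum_eq_zero (s := Finset.univ.filter fun a : Cst N => ¬ kls a = e) fun a ha => by
        rcases hterm i hi a with h | h
        · rw [h, HahnSeries.coeff_zero]
        · rwa [if_neg fun h' => (Finset.mem_filter.mp ha).2 h'.1] at h,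
      add_zero, Finset.sum_subtype (Finset.univ.filter fun a : Cst N => kls a = e)
        (p := fun a => kls a = e) (fun a => by simp) fun a =>
          (algebraMap k (LaurentSeries k) (c a) * sig _ hk i (V a)).coeff (-(ρ a₀))]
    refine (Fintype.sum_equiv (cl e) _ _ fun ⟨a, ha⟩ => ?_).symm
    have hj : ((cl e).symm (cl e ⟨a, ha⟩)).1 = a := by rw [Equiv.symm_apply_apply]
    have hl' : l a = (cl e ⟨a, ha⟩ : ℕ) := by rw [← hlsymm (cl e ⟨a, ha⟩), hj]
    simp only [v, hj]
    rw [← hl']
    rcases hterm i hi a with h | h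
    · rw [h, HahnSeries.coeff_zero]
      rcases mul_eq_zero.mp h with h' | h'
      · rw [(_root_.map_eq_zero _).mp h']
        simp
      · rw [hV] at h'
        exact absurd h' (red_topFam _ hk (n (kls a)) Kc (l a) (t a) i).1
    · by_cases h1 : ρ a = ρ a₀
      · rw [if_pos ⟨ha, h1⟩] at h
        rw [h, if_pos h1]
        simp only [ε, hlam, ← hi_def]
        ring
      · rw [if_neg fun hh => h1 hh.2] at h
        rw [h, if_neg h1, zero_mul, mul_zero]
  refine hca₀ ?_
  have := congrFun hv (cl e ⟨a₀, rfl⟩)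
  simpa [v] using this

/-- A lift with bounded poles can be given the bound of the reduced element. -/
theorem exists_lift_poleLE :
    ∃ M₀ : ℕ, ∀ (w : modularFunctionFieldFullC k N) (M : ℕ), M₀ ≤ M →
      (∀ i, PoleLE ((N : ℤ) * M) (sig _ hk i w)) →
      ∀ (M' : ℕ) (y : modularFunctionFieldFullC K N), RegFin y →
        (∀ i, PoleLE ((N : ℤ) * M') (sig _ hK i y)) →
        (∀ i, Red A π (sig _ hK i y) (sig _ hk i w)) →
        ∃ y' : modularFunctionFieldFullC K N, RegFin y' ∧
          (∀ i, PoleLE ((N : ℤ) * M) (sig _ hK i y')) ∧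
          ∀ i, Red A π (sig _ hK i y') (sig _ hk i w) := by
  classical
  have := isFunctionField_level (k := K) (N := N) (natCast_level_ne_zero _ hK)
  obtain ⟨M₀, htop⟩ := exists_topBasis πR hK hk
  refine ⟨M₀, fun w M hM hw M' => ?_⟩
  induction M' using Nat.strong_induction_on with
  | _ M' ih =>
    intro y hy hyp hred
    rcases le_or_gt M' M with hle | hlt
    · exact ⟨y, hy, fun i => (hyp i).mono (by nlinarith [Int.natCast_nonneg N]), hred⟩
    obtain ⟨U, V, hU, hUV, hind⟩ := htop M' (by omega)
    have hMM : ((M' - 1 : ℕ) : ℤ) = (M' : ℤ) - 1 := by omega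
    have hcast : (N : ℤ) * (M' - 1 : ℕ) = (N : ℤ) * M' - N := by rw [hMM]; ring
    have hw' : ∀ i, PoleLE ((N : ℤ) * M' - N) (sig _ hk i w) := fun i => (hw i).mono (by
      have : (M : ℤ) ≤ M' - 1 := by omega
      nlinarith [Int.natCast_nonneg N])
    -- integral coefficients with bounded combination reduce to zero
    have key : ∀ (b : Cst N → A) (z : modularFunctionFieldFullC K N)
        (x : modularFunctionFieldFullC k N),
        (∀ i, Red A π (sig _ hK i z) (sig _ hk i x)) →
        (∀ i, PoleLE ((N : ℤ) * M' - N) (sig _ hk i x)) →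
        (∀ i, PoleLE ((N : ℤ) * M' - N)
          (sig _ hK i (z - ∑ a, algebraMap K _ (b a : K) * U a))) →
        ∀ a, π (b a) = 0 := by
      intro b z x hzx hx hzb a
      refine congrFun (hind (fun a => π (b a)) fun i => ?_) a
      have hR : Red A π (sig _ hK i (z - ∑ a, algebraMap K _ (b a : K) * U a))
          (sig _ hk i x - ∑ a, algebraMap k (LaurentSeries k) (π (b a)) * sig _ hk i (V a)) := by
        rw [map_sub, map_sum]
        refine (hzx i).sub (Red.sum _ fun a _ => ?_)
        rw [map_mul, sig_algebraMap]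
        exact (red_algebraMap _).mul (hUV a i)
      have h1 := (poleLESubmodule k _).sub_mem (hx i) (hR.poleLE (hzb i))
      rwa [sub_sub_cancel] at h1
    -- the top classes
    set L := riemannRochSpace (jPoles K N M')
    let L' : Submodule K L := (riemannRochSpace (jPoles K N (M' - 1))).comap L.subtype
    have hL' : ∀ x : L, x ∈ L' ↔ RegFin (x : modularFunctionFieldFullC K N) ∧
        ∀ i, PoleLE ((N : ℤ) * M' - N) (sig _ hK i (x : modularFunctionFieldFullC K N)) := by
      intro x
      rw [Submodule.mem_comap, L.subtype_apply, mem_jPoles_iff _ hK, hcast]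
    let u : Cst N → L := fun a => ⟨U a, (mem_jPoles_iff _ hK M' _).mpr (hU a)⟩
    let Φ : (Cst N → K) →ₗ[K] L ⧸ L' := L'.mkQ.comp (Fintype.linearCombination K u)
    have hΦ : ∀ c, (Fintype.linearCombination K u c : modularFunctionFieldFullC K N) =
        ∑ a, algebraMap K _ (c a) * U a := fun c => by
      rw [Fintype.linearCombination_apply, Submodule.coe_sum]
      exact Finset.sum_congr rfl fun a _ => Algebra.smul_def _ _
    have hinj : Function.Injective Φ := by
      rw [← LinearMap.ker_eq_bot, LinearMap.ker_eq_bot']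
      intro c hc
      by_contra hne
      obtain ⟨a, b, ha, hb, ⟨a₀, ha₀⟩, -⟩ := exists_scale_const π hne
      have hc' := (hL' _).mp (L'.smul_mem a ((Submodule.Quotient.mk_eq_zero _).mp hc))
      refine ha₀ (key b 0 0 (fun i => by simpa using red_zero) (fun i => ?_) (fun i => ?_) a₀)
      · rw [map_zero]; exact fun _ _ => rfl
      · have h1 := (poleLESubmodule K _).neg_mem (hc'.2 i)
        have e : (0 : modularFunctionFieldFullC K N) - ∑ a', algebraMap K _ (b a' : K) * U a' =
            -((a • Fintype.linearCombination K u c : L) : modularFunctionFieldFullC K N) := by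
          rw [Submodule.coe_smul, hΦ, zero_sub, Algebra.smul_def, Finset.mul_sum]
          refine congrArg Neg.neg (Finset.sum_congr rfl fun a' _ => ?_)
          rw [hb, map_mul, mul_assoc]
        rw [e, map_neg]
        exact h1
    have hsurj : Function.Surjective Φ := by
      have hE : jPoles K N (M' - 1) ≤ jPoles K N M' := fun v => by
        simp only [jPoles, Finsupp.smul_apply, smul_eq_mul]
        exact mul_le_mul_of_nonneg_right (by omega) (FF.poleDiv_nonneg (K := K) (jC K N) v)
      have h1 := FF.ell_sub_degree_antitone hE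
      have h2 : Module.finrank K L' = FF.ell (jPoles K N (M' - 1)) :=
        (Submodule.comapSubtypeEquivOfLe (FF.riemannRochSpace_mono hE)).finrank_eq
      have h3 := L'.finrank_quotient_add_finrank
      rw [degree_jPoles _ hK, degree_jPoles _ hK, hMM] at h1
      have h4 : Module.finrank K (L ⧸ L') = idx N := by
        refine le_antisymm ?_ ?_
        · have hL : (Module.finrank K L : ℤ) = FF.ell (jPoles K N M') := rfl
          have h5 : (Module.finrank K (L ⧸ L') : ℤ) + Module.finrank K L' =
              Module.finrank K L := by exact_mod_cast h3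
          have h6 : (Module.finrank K (L ⧸ L') : ℤ) ≤ idx N := by
            rw [h2, hL] at h5
            linarith
          exact_mod_cast h6
        · have := LinearMap.finrank_le_finrank_of_injective hinj
          rwa [Module.finrank_fintype_fun_eq_card] at this
      exact (LinearMap.injective_iff_surjective_of_finrank_eq_finrank
        (by rw [h4, Module.finrank_fintype_fun_eq_card])).mp hinj
    obtain ⟨c, hc⟩ := hsurj (L'.mkQ ⟨y, (mem_jPoles_iff _ hK M' _).mpr ⟨hy, hyp⟩⟩)
    have hc' : RegFin (y - ∑ a, algebraMap K _ (c a) * U a) ∧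
        ∀ i, PoleLE ((N : ℤ) * M' - N) (sig _ hK i (y - ∑ a, algebraMap K _ (c a) * U a)) := by
      have h1 := (hL' _).mp ((Submodule.Quotient.eq L').mp hc.symm)
      rwa [AddSubgroupClass.coe_sub, hΦ] at h1
    have hcA : ∀ a, c a ∈ A := by
      by_contra hne
      push Not at hne
      obtain ⟨a, b, -, hb, ⟨a₀, ha₀⟩, hsmall⟩ :=
        exists_scale_const π (c := c) fun h => hne.elim fun i hi => hi (by rw [h]; exact A.zero_mem)
      obtain ⟨haA, hπa⟩ := hsmall hne
      have hπa' : π ⟨a, haA⟩ = 0 := hπa.resolve_right fun h => h hπs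
      refine ha₀ (key b (algebraMap K _ a * y) 0 (fun i => ?_) (fun i => ?_) (fun i => ?_) a₀)
      · have h1 := (red_algebraMap (π := π) (⟨a, haA⟩ : A)).mul (hred i)
        rw [hπa', map_zero, zero_mul] at h1
        rw [map_mul, sig_algebraMap, map_zero]
        exact h1
      · rw [map_zero]; exact fun _ _ => rfl
      · have h1 : algebraMap K _ a * y - ∑ a', algebraMap K _ (b a' : K) * U a' =
            algebraMap K _ a * (y - ∑ a', algebraMap K _ (c a') * U a') := by
          rw [mul_sub, Finset.mul_sum]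
          refine congrArg _ (Finset.sum_congr rfl fun a' _ => ?_)
          rw [hb, map_mul, mul_assoc]
        rw [h1, map_mul, sig_algebraMap, ← smul_eq_algebraMap_mul]
        exact (poleLESubmodule K _).smul_mem a (hc'.2 i)
    set cA : Cst N → A := fun a => ⟨c a, hcA a⟩
    have hzero : ∀ a, π (cA a) = 0 := key cA y w hred hw' hc'.2
    refine ih (M' - 1) (by omega) _ hc'.1 (fun i => by rw [hcast]; exact hc'.2 i) fun i => ?_
    rw [← sub_zero (sig _ hk i w), map_sub, map_sum]
    refine (hred i).sub ?_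
    have h := Red.sum (A := A) (π := π) Finset.univ
      (y := fun a => sig _ hK i (algebraMap K _ (cA a : K) * U a))
      (x := fun a => algebraMap k (LaurentSeries k) (π (cA a)) * sig _ hk i (V a)) fun a _ => by
        rw [map_mul, sig_algebraMap]
        exact (red_algebraMap _).mul (hUV a i)
    simpa [hzero, cA] using h

variable [FF.IsFunctionField K (modularFunctionFieldFullC K N)]
  [FF.IsFunctionField k (modularFunctionFieldFullC k N)]

/-- If normal reduced elements lift, `l(M·(j)_∞)` does not drop in characteristic zero. -/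
theorem ell_jPoles_le (h : NormalLift A π N) :
    ∃ M₀ : ℕ, ∀ M : ℕ, M₀ ≤ M → FF.ell (jPoles k N M) ≤ FF.ell (jPoles K N M) := by
  classical
  obtain ⟨M₀, hlift⟩ := exists_lift_poleLE hπs πR hK hk
  refine ⟨M₀, fun M hM => ?_⟩
  have key : ∀ w : riemannRochSpace (jPoles k N M), ∃ y : riemannRochSpace (jPoles K N M),
      Red A π (y : LaurentSeries K) ((w : modularFunctionFieldFullC k N) : LaurentSeries k) := by
    rintro ⟨w, hw⟩
    obtain ⟨hwR, hwp⟩ := (mem_jPoles_iff _ hk M w).mp hw
    obtain ⟨y, hy, hyw⟩ := h w hwR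
    obtain ⟨m, hm⟩ : ∃ m : ℕ, ∀ i, PoleLE ((N : ℤ) * m) (sig _ hK i y) := by
      refine ⟨Finset.univ.sup fun i => (-(sig _ hK i y).order).toNat, fun i => ?_⟩
      refine (poleLE_neg_order _).mono ?_
      have h1 := Finset.le_sup (f := fun i => (-(sig _ hK i y).order).toNat) (Finset.mem_univ i)
      have h2 : (1 : ℤ) ≤ N := by exact_mod_cast NeZero.pos N
      have h3 : (-(sig _ hK i y).order) ≤ ((Finset.univ.sup fun i =>
          (-(sig _ hK i y).order).toNat : ℕ) : ℤ) := by omega
      nlinarith
    obtain ⟨y', hy', hy'p, hy'w⟩ :=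
      hlift w M hM hwp m y hy hm fun i => red_conj hπs πR hK hk hy hyw i
    refine ⟨⟨y', (mem_jPoles_iff _ hK M y').mpr ⟨hy', hy'p⟩⟩, qExpand_coeff_red (N := N) ?_⟩
    have h' := hy'w cst0
    rwa [sig_cst0_apply, sig_cst0_apply] at h'
  choose Y hY using key
  have : Module.Free k (riemannRochSpace (jPoles k N M)) := Module.Free.of_divisionRing k _
  let b := Module.finBasis k (riemannRochSpace (jPoles k N M))
  have hli : LinearIndependent K fun j => Y (b j) := by
    rw [Fintype.linearIndependent_iff]
    intro c hc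
    by_contra hne
    obtain ⟨a, d, -, hd, ⟨j₀, hj₀⟩, -⟩ := exists_scale_const π (c := c) fun h => hne fun j =>
      congrFun h j
    have h1 : Red A π (∑ j, algebraMap K (LaurentSeries K) (d j : K) *
        ((Y (b j) : modularFunctionFieldFullC K N) : LaurentSeries K))
        (∑ j, algebraMap k (LaurentSeries k) (π (d j)) *
          ((b j : modularFunctionFieldFullC k N) : LaurentSeries k)) :=
      Red.sum _ fun j _ => (red_algebraMap _).mul (hY (b j))
    have h2 : ∑ j, algebraMap K (LaurentSeries K) (d j : K) *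
        ((Y (b j) : modularFunctionFieldFullC K N) : LaurentSeries K) = 0 := by
      have h3 := congrArg (fun x : riemannRochSpace (jPoles K N M) =>
        a • ((x : modularFunctionFieldFullC K N) : LaurentSeries K)) hc
      simp only [Submodule.coe_smul, Submodule.coe_zero, AddSubmonoidClass.coe_finsetSum,
        IntermediateField.coe_smul, ZeroMemClass.coe_zero, smul_zero, Finset.smul_sum] at h3
      rw [← h3]
      refine Finset.sum_congr rfl fun j _ => ?_
      simp only [hd, Algebra.smul_def, smul_eq_algebraMap_mul, map_mul, mul_assoc]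
    rw [h2] at h1
    have h4 := h1.unique red_zero
    refine hj₀ (Fintype.linearIndependent_iff.mp b.linearIndependent (fun j => π (d j)) ?_ j₀)
    refine Subtype.ext (Subtype.ext ?_)
    rw [Submodule.coe_sum, AddSubmonoidClass.coe_finsetSum]
    refine (Finset.sum_congr rfl fun j _ => ?_).trans h4
    simp only [Submodule.coe_smul, Algebra.smul_def]
    rfl
  have := hli.fintype_card_le_finrank
  rwa [Fintype.card_fin] at this

/-- If normal reduced elements lift, the genus does not grow under reduction. -/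
theorem riemannGenus_le (h : NormalLift A π N) :
    FF.riemannGenus K (modularFunctionFieldFullC K N) ≤
      FF.riemannGenus k (modularFunctionFieldFullC k N) := by
  obtain ⟨M₀, hM₀⟩ := ell_jPoles_le hπs πR hK hk h
  obtain ⟨n₁, h₁⟩ := FF.exists_ell_eq_of_degree_ge K (modularFunctionFieldFullC K N)
  obtain ⟨n₂, h₂⟩ := FF.exists_ell_eq_of_degree_ge k (modularFunctionFieldFullC k N)
  set M := max M₀ (max n₁.toNat n₂.toNat)
  have hidx : (1 : ℤ) ≤ idx N := by
    have : 0 < idx N := Fintype.card_pos
    exact_mod_cast this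
  have hd : (M : ℤ) ≤ M * idx N := le_mul_of_one_le_right (Int.natCast_nonneg _) hidx
  have e1 := h₁ (jPoles K N M) (by rw [degree_jPoles _ hK]; omega)
  have e2 := h₂ (jPoles k N M) (by rw [degree_jPoles _ hk]; omega)
  rw [degree_jPoles _ hK] at e1
  rw [degree_jPoles _ hk] at e2
  have := hM₀ M (le_max_left _ _)
  omega

end Fermat.Agent.Reduction.Level
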