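import Fermat.Agent.Reduction.Level.Finite

/-!
# Products of conjugate families with a strictly largest pole at one class of cusps

For a class `e` of cusps the product of powers of the units `Δ(mτ)/Δ(τ)` supplied by the
injectivity of `gcd (e,m)²` has pole order strictly larger at the class `e` than elsewhere.
Multiplying by powers of `j(Nτ)` and `j` gives functions with a prescribed top.
-/

set_option autoImplicit false

noncomputable section

open scoped MatrixGroups
open Polynomial ModularCurve Fermat.Agent.Igusa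

namespace Fermat.Agent.Reduction.Level

variable {N : ℕ}

section Families

theorem equivariant_one : Equivariant (fun _ : Cst N => (1 : AQ N)) := fun γ i => by
  rw [map_one, map_one]

theorem equivariant_mul {x y : Cst N → AQ N} (hx : Equivariant x) (hy : Equivariant y) :
    Equivariant (fun i => x i * y i) := fun γ i => by
  rw [map_mul, map_mul, map_mul, hx γ i, hy γ i]

theorem equivariant_pow {x : Cst N → AQ N} (hx : Equivariant x) (n : ℕ) :
    Equivariant (fun i => x i ^ n) := by
  induction n with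
  | zero => simpa using equivariant_one
  | succ n ih => simpa only [pow_succ] using equivariant_mul ih hx

theorem equivariant_prod {ι : Type*} (s : Finset ι) (x : ι → Cst N → AQ N)
    (hx : ∀ a ∈ s, Equivariant (x a)) : Equivariant (fun i => ∏ a ∈ s, x a i) := by
  classical
  induction s using Finset.induction with
  | empty => simpa using equivariant_one
  | insert a s ha ih =>
    simp only [Finset.prod_insert ha]
    exact equivariant_mul (hx a (Finset.mem_insert_self a s))
      (ih fun b hb => hx b (Finset.mem_insert_of_mem hb))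

end Families

variable [NeZero N]

/-- Integer exponents isolating a divisor in the matrix `gcd (e,m)² N / m`. -/
theorem exists_exponents {e : ℕ} (he : e ∈ N.divisors) :
    ∃ (n : ℕ → ℤ) (D : ℤ), 0 < D ∧ ∀ e' ∈ N.divisors,
      ∑ m ∈ N.divisors, n m * ((Nat.gcd e' m : ℤ) ^ 2 * ((N / m : ℕ) : ℤ)) =
        if e' = e then -((N : ℤ) * D) else 0 := by
  classical
  let G : Matrix N.divisors N.divisors ℤ :=
    Matrix.of fun a b => (Nat.gcd (a : ℕ) (b : ℕ) : ℤ) ^ 2
  have hdet : G.det ≠ 0 := by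
    intro h0
    obtain ⟨v, hv, hGv⟩ := Matrix.exists_mulVec_eq_zero_iff.mpr h0
    refine hv (funext fun a => ?_)
    have hall := eq_zero_of_gcd_sq (N := N)
      (fun d => if h : d ∈ N.divisors then v ⟨d, h⟩ else 0) (fun m hm => ?_) a.1 a.2
    · simpa [a.2] using hall
    have h1 := congrFun hGv ⟨m, hm⟩
    rw [Matrix.mulVec, dotProduct, Pi.zero_apply] at h1
    rw [← Finset.sum_attach, ← h1, Finset.univ_eq_attach]
    refine Finset.sum_congr rfl fun d _ => ?_
    rw [dif_pos d.2, mul_comm, Nat.gcd_comm]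
    rfl
  set n' : N.divisors → ℤ := G.adjugate.mulVec (Pi.single ⟨e, he⟩ (-G.det))
  have hn' : G.mulVec n' = Pi.single ⟨e, he⟩ (-(G.det ^ 2)) := by
    rw [Matrix.mulVec_mulVec, Matrix.mul_adjugate, Matrix.smul_mulVec, Matrix.one_mulVec]
    funext a
    rcases eq_or_ne a ⟨e, he⟩ with rfl | hne
    · simp [sq]
    · simp [hne]
  refine ⟨fun m => if h : m ∈ N.divisors then (m : ℤ) * n' ⟨m, h⟩ else 0, G.det ^ 2,
    by positivity, fun e' he' => ?_⟩
  have h1 := congrFun hn' ⟨e', he'⟩
  rw [Matrix.mulVec, dotProduct] at h1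
  rw [← Finset.sum_attach, Finset.sum_congr rfl (g := fun m : N.divisors =>
    (N : ℤ) * (G ⟨e', he'⟩ m * n' m)) fun m _ => ?_, ← Finset.mul_sum, ← Finset.univ_eq_attach, h1]
  · rcases eq_or_ne e' e with rfl | hne
    · simp
    · rw [if_neg hne, Pi.single_eq_of_ne (fun h => hne (congrArg Subtype.val h)), mul_zero]
  · have hNm : ((m : ℕ) : ℤ) * ((N / m : ℕ) : ℤ) = N := by
      rw [← Nat.cast_mul, Nat.mul_div_cancel' (Nat.dvd_of_mem_divisors m.2)]
    simp only [m.2, dite_true, G, Matrix.of_apply]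
    linear_combination (n' m * ((Nat.gcd e' m : ℤ)) ^ 2) * hNm

/-- The class of a conjugate. -/
abbrev kls (i : Cst N) : ℕ := cls N (repg i)

theorem kls_mem (i : Cst N) : kls i ∈ N.divisors :=
  Nat.mem_divisors.mpr ⟨cls_dvd N _, NeZero.ne N⟩

omit [NeZero N] in
theorem expo_eq {m : ℕ} [NeZero m] (hm : m ∣ N) (i : Cst N) :
    (expo N m (repg i) : ℤ) = (Nat.gcd (kls i) m : ℤ) ^ 2 * ((N / m : ℕ) : ℤ) := by
  have h := mul_expo hm (repg i)
  have hq : m * (N / m) = N := Nat.mul_div_cancel' hm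
  have h2 : expo N m (repg i) = cls m (repg i) ^ 2 * (N / m) := by
    refine mul_left_cancel₀ (NeZero.ne m) ?_
    calc m * expo N m (repg i) = cls m (repg i) ^ 2 * N := h
      _ = cls m (repg i) ^ 2 * (m * (N / m)) := by rw [hq]
      _ = _ := by ring
  rw [h2, cls_eq_gcd hm]
  push_cast
  ring

/-- The factor attached to the divisor `m`. -/
def unitFactor (n : ℕ → ℤ) (m : N.divisors) (i : Cst N) : AQ N :=
  haveI : NeZero (m : ℕ) := ⟨(Nat.pos_of_mem_divisors m.2).ne'⟩
  uFam (Nat.dvd_of_mem_divisors m.2) i ^ (n m).toNat *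
    wFam (Nat.dvd_of_mem_divisors m.2) i ^ (-(n m)).toNat

/-- `∏ (Δ(mτ)/Δ(τ))^(n m)` up to constants. -/
def unitFam (n : ℕ → ℤ) (i : Cst N) : AQ N := ∏ m ∈ N.divisors.attach, unitFactor n m i

/-- Functions with a prescribed top: `unit^K · j(Nτ)^l · j^t`. -/
def topFam (n : ℕ → ℤ) (K l t : ℕ) (i : Cst N) : AQ N :=
  unitFam n i ^ K * jFam (dvd_refl N) i ^ l * jFam (one_dvd N) i ^ t

theorem equivariant_topFam (n : ℕ → ℤ) (K l t : ℕ) :
    Equivariant (topFam (N := N) n K l t) := by
  refine equivariant_mul (equivariant_mul (equivariant_pow ?_ K)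
    (equivariant_pow (equivariant_jFam _) l)) (equivariant_pow (equivariant_jFam _) t)
  exact equivariant_prod _ (fun m i => unitFactor n m i) fun m _ => by
    have : NeZero (m : ℕ) := ⟨(Nat.pos_of_mem_divisors m.2).ne'⟩
    exact equivariant_mul (equivariant_pow (equivariant_uFam _) _)
      (equivariant_pow (equivariant_wFam _) _)

section Orders

variable {k : Type*} [Field k] (π : Rz N →+* k) (hπ : IsPrimitiveRoot (π (zetaR N)) N)

include hπ

theorem red_uFam_ne_zero {m : ℕ} [NeZero m] (hm : m ∣ N) (i : Cst N) :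
    Igusa.red π (uFam hm i) ≠ 0 ∧ Igusa.red π (wFam hm i) ≠ 0 := by
  have h := red_uFam_mul_wFam π hm i
  have hc : HahnSeries.C ((m : k) ^ 12) ≠ (0 : LaurentSeries k) :=
    (_root_.map_ne_zero _).mpr (pow_ne_zero _ (natCast_ne_zero_of_dvd π hπ hm))
  rw [← h] at hc
  exact ⟨left_ne_zero_of_mul hc, right_ne_zero_of_mul hc⟩

theorem red_unitFactor (n : ℕ → ℤ) (m : N.divisors) (i : Cst N) :
    Igusa.red π (unitFactor n m i) ≠ 0 ∧ (Igusa.red π (unitFactor n m i)).order =
      n m * ((Nat.gcd (kls i) m : ℤ) ^ 2 * ((N / (m : ℕ) : ℕ) : ℤ) - N) := by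
  have : NeZero (m : ℕ) := ⟨(Nat.pos_of_mem_divisors m.2).ne'⟩
  have hmN := Nat.dvd_of_mem_divisors m.2
  obtain ⟨hu, hw⟩ := red_uFam_ne_zero π hπ hmN i
  have hwo : (Igusa.red π (wFam hmN i)).order = (N : ℤ) - expo N m (repg i) := by
    have h1 := congrArg HahnSeries.order (red_uFam_mul_wFam π hmN i)
    rw [HahnSeries.order_mul hu hw, order_red_uFam π hπ hmN i, HahnSeries.C_apply,
      HahnSeries.order_single (pow_ne_zero _ (natCast_ne_zero_of_dvd π hπ hmN))] at h1
    omega
  rw [unitFactor, map_mul, map_pow, map_pow]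
  refine ⟨mul_ne_zero (pow_ne_zero _ hu) (pow_ne_zero _ hw), ?_⟩
  rw [HahnSeries.order_mul (pow_ne_zero _ hu) (pow_ne_zero _ hw), HahnSeries.order_pow,
    HahnSeries.order_pow, order_red_uFam π hπ hmN i, hwo, nsmul_eq_mul, nsmul_eq_mul,
    expo_eq hmN i]
  conv_rhs => rw [← Int.toNat_sub_toNat_neg (n m)]
  ring

theorem red_topFam (n : ℕ → ℤ) (K l t : ℕ) (i : Cst N) :
    Igusa.red π (topFam n K l t i) ≠ 0 ∧ (Igusa.red π (topFam n K l t i)).order =
      (K : ℤ) * (∑ m ∈ N.divisors, n m * ((Nat.gcd (kls i) m : ℤ) ^ 2 * ((N / m : ℕ) : ℤ)) -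
        (N : ℤ) * ∑ m ∈ N.divisors, n m) - l * (kls i : ℤ) ^ 2 - t * N := by
  have hU : Igusa.red π (unitFam n i) ≠ 0 := by
    rw [unitFam, map_prod]
    exact Finset.prod_ne_zero_iff.mpr fun m _ => (red_unitFactor π hπ n m i).1
  have hUo : (Igusa.red π (unitFam n i)).order =
      ∑ m ∈ N.divisors, n m * ((Nat.gcd (kls i) m : ℤ) ^ 2 * ((N / m : ℕ) : ℤ)) -
        (N : ℤ) * ∑ m ∈ N.divisors, n m := by
    rw [unitFam, map_prod, order_prod _ _ fun m _ => (red_unitFactor π hπ n m i).1,
      Finset.sum_congr rfl fun m _ => (red_unitFactor π hπ n m i).2,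
      Finset.sum_attach N.divisors fun m =>
        n m * ((Nat.gcd (kls i) m : ℤ) ^ 2 * ((N / m : ℕ) : ℤ) - N),
      Finset.mul_sum, ← Finset.sum_sub_distrib]
    exact Finset.sum_congr rfl fun m _ => by ring
  have hG : ∀ {m : ℕ} [NeZero m] (hm : m ∣ N), Gk π hm i ≠ 0 := fun {m} _ hm h0 => by
    have := order_Gk π hm i
    rw [h0, HahnSeries.order_zero] at this
    have := (neZero_expo hm (repg i)).out
    omega
  have hG1 : Igusa.red π (jFam (one_dvd N) i) = Gk π (one_dvd N) i := rfl
  have hGN : Igusa.red π (jFam (dvd_refl N) i) = Gk π (dvd_refl N) i := rfl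
  rw [topFam, map_mul, map_mul, map_pow, map_pow, map_pow, hG1, hGN]
  have h1 := pow_ne_zero K hU
  have h2 := pow_ne_zero l (hG (dvd_refl N))
  have h3 := pow_ne_zero t (hG (one_dvd N))
  refine ⟨mul_ne_zero (mul_ne_zero h1 h2) h3, ?_⟩
  rw [HahnSeries.order_mul (mul_ne_zero h1 h2) h3, HahnSeries.order_mul h1 h2,
    HahnSeries.order_pow, HahnSeries.order_pow, HahnSeries.order_pow, hUo, order_Gk, order_Gk,
    expo_eq (one_dvd N) i, expo_eq (dvd_refl N) i, nsmul_eq_mul, nsmul_eq_mul, nsmul_eq_mul]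
  simp only [Nat.gcd_one_right, Nat.cast_one, one_pow, Nat.div_one, one_mul,
    Nat.gcd_eq_left (cls_dvd N (repg i)), Nat.div_self (NeZero.pos N), mul_one]
  ring

omit hπ in
theorem leadingCoeff_topFam (n : ℕ → ℤ) (K l t : ℕ) (i : Cst N) :
    (Igusa.red π (topFam n K l t i)).leadingCoeff =
      (Igusa.red π (unitFam n i)).leadingCoeff ^ K *
        (Gk π (dvd_refl N) i).leadingCoeff ^ l * (Gk π (one_dvd N) i).leadingCoeff ^ t := by
  have hpow : ∀ (s : LaurentSeries k) (a : ℕ), (s ^ a).leadingCoeff = s.leadingCoeff ^ a := by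
    intro s a
    induction a with
    | zero => simp
    | succ a ih => rw [pow_succ, HahnSeries.leadingCoeff_mul, ih, pow_succ]
  rw [topFam, map_mul, map_mul, map_pow, map_pow, map_pow, HahnSeries.leadingCoeff_mul,
    HahnSeries.leadingCoeff_mul, hpow, hpow, hpow]
  rfl

/-- Within a class the conjugates are told apart by their leading coefficients. -/
theorem eq_of_leadingCoeff_eq {i i' : Cst N} (hc : kls i = kls i')
    (h : (Gk π (dvd_refl N) i).leadingCoeff = (Gk π (dvd_refl N) i').leadingCoeff) : i = i' := by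
  refine Gk_injective π hπ ?_
  have := neZero_expo (dvd_refl N) (repg i)
  have := neZero_expo (dvd_refl N) (repg i')
  have he : expo N N (repg i) = expo N N (repg i') := by rw [expo_self, expo_self, show
    cls N (repg i) = cls N (repg i') from hc]
  have htop : ∀ a : Cst N, (Gk π (dvd_refl N) a).leadingCoeff =
      (((Units.map (π : Rz N →* k) (tw N N (repg a))) ^ (-1 : ℤ) : kˣ) : k) := by
    intro a
    have := neZero_expo (dvd_refl N) (repg a)
    rw [HahnSeries.leadingCoeff_eq, order_Gk, Gk_eq, ← mul_neg_one (expo N N (repg a) : ℤ),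
      qExpand_coeff_mul, twist_coeff, coeff_jqModC_neg_one, mul_one]
  rw [htop, htop] at h
  have h2 : Units.map (π : Rz N →* k) (tw N N (repg i)) =
      Units.map (π : Rz N →* k) (tw N N (repg i')) :=
    inv_injective ((zpow_neg_one _).symm.trans ((Units.ext h).trans (zpow_neg_one _)))
  rw [Gk_eq, Gk_eq, qExpand_congr he, h2]

end Orders

end Fermat.Agent.Reduction.Level
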