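import Fermat.Agent.Reduction.Level.Places

/-!
# The extension of level `L` over level `N` for `N ∣ L`

The embeddings of `k(X₀(L))` over `k(X₀(N))` are the conjugate embeddings fixing `j(Nτ)`; hence
norms and traces are products and sums of conjugates.
-/

set_option autoImplicit false

noncomputable section

open scoped MatrixGroups
open Polynomial ModularCurve IntermediateField Fermat.Agent.Igusa

namespace Fermat.Agent.Reduction.Level

section SameSet

variable {L : ℕ} [NeZero L] {k : Type*} [Field k] (π : Rz L →+* k)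
  (hπ : IsPrimitiveRoot (π (zetaR L)) L)

include hπ

/-- Two conjugates of `j(mτ)` agree exactly when their exponents and twists do. -/
theorem Gk_eq_Gk_iff {m : ℕ} [NeZero m] (hm : m ∣ L) (i i' : Cst L) :
    Gk π hm i = Gk π hm i' ↔
      expo L m (repg i) = expo L m (repg i') ∧ tw L m (repg i) = tw L m (repg i') := by
  have := neZero_expo hm (repg i)
  have := neZero_expo hm (repg i')
  constructor
  · intro h
    have he : expo L m (repg i) = expo L m (repg i') := by
      have h1 := congrArg HahnSeries.order h
      rwa [order_Gk, order_Gk, neg_inj, Nat.cast_inj] at h1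
    refine ⟨he, ?_⟩
    have hne : π (zetaR L) ≠ 0 := hπ.ne_zero (NeZero.ne L)
    have hc : ∀ a : Cst L, expo L m (repg a) = expo L m (repg i) →
        (Gk π hm a).coeff (-(expo L m (repg i) : ℤ)) =
          π (zetaR L) ^ (-(hermB m (repg a) * (L / cod m (repg a) : ℕ))) := by
      intro a ha
      have := neZero_expo hm (repg a)
      rw [← ha, Gk_eq, ← mul_neg_one (expo L m (repg a) : ℤ), ModularCurve.qExpand_coeff_mul,
        twist_coeff, ModularCurve.coeff_jqModC_neg_one, mul_one, tw, map_zpow, ← zpow_mul,
        Units.val_zpow_eq_zpow_val, Units.coe_map, mul_neg_one]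
      rfl
    have hz := hc i rfl
    rw [h, hc i' he.symm] at hz
    set a := hermB m (repg i) * (L / cod m (repg i) : ℕ)
    set b := hermB m (repg i') * (L / cod m (repg i') : ℕ)
    have hdvd : (L : ℤ) ∣ a - b := by
      refine (hπ.zpow_eq_one_iff_dvd _).mp ?_
      rw [show a - b = -b - -a by ring, zpow_sub₀ hne, hz, div_self (zpow_ne_zero _ hne)]
    obtain ⟨t, ht⟩ := hdvd
    have hu : zetaU L ^ L = 1 := Units.ext (zetaR_pow_self L)
    show zetaU L ^ a = zetaU L ^ b
    rw [show a = (L : ℤ) * t + b by linarith, zpow_add, zpow_mul, zpow_natCast, hu, one_zpow,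
      one_mul]
  · rintro ⟨he, ht⟩
    rw [Gk_eq, Gk_eq, ht]
    exact ModularCurve.qExpand_congr he _

end SameSet

/-- An inclusion of subfields, over an abstract ambient field. -/
def inclSub {K F : Type*} [Field K] [Field F] [Algebra K F] {A B : IntermediateField K F}
    (h : A ≤ B) : A →+* B :=
  (IntermediateField.inclusion h).toRingHom

theorem coe_inclSub {K F : Type*} [Field K] [Field F] [Algebra K F] {A B : IntermediateField K F}
    (h : A ≤ B) (x : A) : ((inclSub h x : B) : F) = x := rfl

theorem inclSub_algebraMap {K F : Type*} [Field K] [Field F] [Algebra K F]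
    {A B : IntermediateField K F} (h : A ≤ B) (c : K) :
    inclSub h (algebraMap K A c) = algebraMap K B c := rfl

attribute [irreducible] inclSub

variable {k : Type*} [Field k] {N L : ℕ} [NeZero N] [NeZero L] (hNL : N ∣ L)

/-- `k(X₀(N)) ⊆ k(X₀(L))`. -/
def incl : modularFunctionFieldFullC k N →+* modularFunctionFieldFullC k L :=
  inclSub (full_degeneracyC_le k hNL)

theorem coe_incl (x : modularFunctionFieldFullC k N) :
    ((incl hNL x : modularFunctionFieldFullC k L) : LaurentSeries k) = x :=
  coe_inclSub _ x

theorem incl_evC (p : k[X]) : incl hNL (evC k N p) = evC k L p :=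
  Subtype.ext (by rw [coe_incl, coe_evC, coe_evC])

theorem incl_jC : incl hNL (jC k N) = jC k L := Subtype.ext (coe_inclSub _ _)

theorem incl_jNC : incl hNL (jNC k N) =
    ⟨qExpand k N (jqModC k), jqModCd_mem_full k L hNL⟩ := Subtype.ext (coe_inclSub _ _)

theorem incl_algebraMap (c : k) :
    incl hNL (algebraMap k (modularFunctionFieldFullC k N) c) =
      algebraMap k (modularFunctionFieldFullC k L) c :=
  inclSub_algebraMap (full_degeneracyC_le k hNL) c

theorem regFin_incl_iff {x : modularFunctionFieldFullC k N} :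
    RegFin (incl hNL x) ↔ RegFin x := by
  have h : ∀ m : (k[X])[X], m.eval₂ (evC k L) (incl hNL x) = incl hNL (m.eval₂ (evC k N) x) := by
    intro m
    rw [show evC k L = (incl (k := k) hNL).comp (evC k N) from
      RingHom.ext fun p => (incl_evC hNL p).symm]
    exact (Polynomial.hom_eval₂ m _ _ _).symm
  refine ⟨fun ⟨m, hm, h0⟩ => ⟨m, hm, ?_⟩, fun ⟨m, hm, h0⟩ => ⟨m, hm, ?_⟩⟩
  · refine (incl hNL).injective ?_
    show incl hNL _ = incl hNL 0
    rw [map_zero, ← h]
    exact h0
  · rw [h, h0, map_zero]

/-- `k(j)` inside `k(X₀(N))`. -/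
def kjHom (k : Type*) [Field k] (N : ℕ) [NeZero N] : Kj k →+* modularFunctionFieldFullC k N :=
  (algebraMap (baseC k N) (modularFunctionFieldFullC k N)).comp (toBase k N)

theorem kjHom_algebraMap (p : k[X]) : kjHom k N (algebraMap k[X] (Kj k) p) = evC k N p := by
  refine inclN_injective k N ?_
  show baseHom k N (toBase k N _) = _
  rw [baseHom_toBase_apply, phiJ_algebraMap]
  show _ = ModularCurve.qExpand k N (evC k N p : LaurentSeries k)
  rw [coe_evC, qExpand_evq]

theorem incl_kjHom (z : Kj k) : incl hNL (kjHom k N z) = kjHom k L z := by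
  refine RingHom.congr_fun (f := (incl hNL).comp (kjHom k N)) ?_ z
  refine IsLocalization.ringHom_ext (nonZeroDivisors k[X]) (RingHom.ext fun p => ?_)
  show incl hNL (kjHom k N _) = kjHom k L _
  rw [kjHom_algebraMap, kjHom_algebraMap, incl_evC]

/-- A finite separable extension stays so over an intermediate field. -/
theorem finite_separable_of_factor {B F E : Type*} [Field B] [Field F] [Field E] [Algebra B E]
    [Algebra F E] [Module.Finite B E] [Algebra.IsSeparable B E] (φ : B →+* F)
    (h : ∀ b, algebraMap F E (φ b) = algebraMap B E b) :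
    Module.Finite F E ∧ Algebra.IsSeparable F E := by
  let := φ.toAlgebra
  have : IsScalarTower B F E := IsScalarTower.of_algebraMap_eq fun b => (h b).symm
  exact ⟨Module.Finite.of_restrictScalars_finite B F E,
    Algebra.isSeparable_tower_top_of_isSeparable B F E⟩

/-- `k(X₀(L))` is a finite separable extension of `k(X₀(N))`. -/
theorem finite_separable_incl [IsAlgClosed k] (hL : (L : k) ≠ 0) :
    letI := (incl (k := k) hNL).toAlgebra
    Module.Finite (modularFunctionFieldFullC k N) (modularFunctionFieldFullC k L) ∧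
      Algebra.IsSeparable (modularFunctionFieldFullC k N) (modularFunctionFieldFullC k L) := by
  let := (incl (k := k) hNL).toAlgebra
  have := finiteDimensional_fullC (k := k) L hL
  have := isSeparable_fullC (k := k) L hL
  let e : Kj k ≃+* baseC k L :=
    RingEquiv.ofBijective (toBase k L) ⟨(toBase k L).injective, toBase_surjective k L⟩
  refine finite_separable_of_factor ((kjHom k N).comp e.symm.toRingHom) fun b => ?_
  obtain ⟨z, rfl⟩ := e.surjective b
  rw [RingHom.comp_apply, RingEquiv.toRingHom_eq_coe, RingEquiv.coe_toRingHom,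
    RingEquiv.symm_apply_apply]
  exact incl_kjHom hNL z

variable (π : Rz L →+* k)

open Classical in
/-- The conjugates fixing `j(Nτ)`. -/
def fixSet : Finset (Cst L) :=
  Finset.univ.filter fun i => Gk π hNL i = Gk π hNL cst0

theorem mem_fixSet {i : Cst L} : i ∈ fixSet hNL π ↔ Gk π hNL i = Gk π hNL cst0 := by
  classical
  simp [fixSet]

variable [IsAlgClosed k] (hπ : IsPrimitiveRoot (π (zetaR L)) L)

include hπ

theorem sig_incl_kjHom (i : Cst L) (z : Kj k) :
    sig π hπ i (incl hNL (kjHom k N z)) = phiJ L k z := by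
  rw [incl_kjHom, kjHom, RingHom.comp_apply, sig_algebraMap_base, baseHom_toBase_apply]

theorem sig_incl_jNC (i : Cst L) : sig π hπ i (incl hNL (jNC k N)) = Gk π hNL i := by
  rw [incl_jNC, sig_jdC π hπ hNL]

/-- The conjugates in `fixSet` restrict to the identity on level `N`. -/
theorem sig_incl {i : Cst L} (hi : i ∈ fixSet hNL π) (x : modularFunctionFieldFullC k N) :
    sig π hπ i (incl hNL x) = qExpand k L (x : LaurentSeries k) := by
  obtain ⟨π', hπ'⟩ := exists_pi (k := k) N
    (natCast_ne_zero_of_dvd π hπ hNL)
  rw [show qExpand k L (x : LaurentSeries k) = sig π hπ cst0 (incl hNL x) by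
    rw [sig_cst0_apply, coe_incl]]
  refine RingHom.congr_fun (f := (sig π hπ i).comp (incl hNL))
    (g := (sig π hπ cst0).comp (incl hNL)) (hom_ext π' hπ' (fun b => ?_) ?_) x
  · obtain ⟨z, rfl⟩ := toBase_surjective k N b
    show sig π hπ i (incl hNL (kjHom k N z)) = sig π hπ cst0 (incl hNL (kjHom k N z))
    rw [sig_incl_kjHom, sig_incl_kjHom]
  · show sig π hπ i (incl hNL (jNC k N)) = sig π hπ cst0 (incl hNL (jNC k N))
    rw [sig_incl_jNC, sig_incl_jNC, (mem_fixSet hNL π).mp hi]

/-- Norms and traces to level `N` are products and sums of the fixing conjugates. -/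
theorem qExpand_norm_trace (y : modularFunctionFieldFullC k L) :
    letI := (incl (k := k) hNL).toAlgebra
    qExpand k L ((Algebra.norm (modularFunctionFieldFullC k N) y : modularFunctionFieldFullC k N) :
        LaurentSeries k) = ∏ i ∈ fixSet hNL π, sig π hπ i y ∧
    qExpand k L ((Algebra.trace (modularFunctionFieldFullC k N) (modularFunctionFieldFullC k L) y :
        modularFunctionFieldFullC k N) : LaurentSeries k) = ∑ i ∈ fixSet hNL π, sig π hπ i y := by
  classical
  let := (incl (k := k) hNL).toAlgebra
  obtain ⟨hfin, hsep⟩ := finite_separable_incl hNL (natCast_level_ne_zero π hπ)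
  let Ω := AlgebraicClosure (LaurentSeries k)
  let ι : LaurentSeries k →+* Ω := algebraMap _ _
  let : Algebra (modularFunctionFieldFullC k N) Ω :=
    ((ι.comp (inclN k L)).comp (incl hNL)).toAlgebra
  have hcomm : ∀ x : modularFunctionFieldFullC k N,
      algebraMap _ Ω x = ι (qExpand k L (x : LaurentSeries k)) := fun x => by
    show ι (qExpand k L ((incl hNL x : modularFunctionFieldFullC k L) : LaurentSeries k)) = _
    rw [coe_incl]
  let f : fixSet hNL π → (modularFunctionFieldFullC k L →ₐ[modularFunctionFieldFullC k N] Ω) :=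
    fun i => { ι.comp (sig π hπ i.1) with
      commutes' := fun x => by
        show ι (sig π hπ i.1 (incl hNL x)) = _
        rw [sig_incl hNL π hπ i.2, hcomm] }
  have hf : Function.Bijective f := by
    refine ⟨fun i i' h => Subtype.ext (sig_injective π hπ ?_), fun τ => ?_⟩
    · refine RingHom.ext fun x => ι.injective ?_
      exact AlgHom.congr_fun h x
    obtain ⟨i, hi⟩ := exists_sig_of_hom π hπ ι τ.toRingHom fun b => by
      obtain ⟨z, rfl⟩ := toBase_surjective k L b
      show τ (kjHom k L z) = _
      rw [← incl_kjHom hNL, baseHom_toBase_apply,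
        show incl hNL (kjHom k N z) = algebraMap _ _ (kjHom k N z) from rfl, τ.commutes, hcomm,
        ← sig_incl_kjHom hNL π hπ cst0, sig_cst0_apply, coe_incl]
    have hmem : i ∈ fixSet hNL π := by
      refine (mem_fixSet hNL π).mpr (ι.injective ?_)
      rw [← sig_incl_jNC hNL π hπ, ← sig_incl_jNC hNL π hπ, sig_cst0_apply, coe_incl,
        ← RingHom.comp_apply, ← hi, ← hcomm]
      exact τ.commutes _
    exact ⟨⟨i, hmem⟩, AlgHom.ext fun x => (RingHom.congr_fun hi x).symm⟩
  constructor <;> refine ι.injective ?_
  · rw [← hcomm, Algebra.norm_eq_prod_embeddings _ Ω, map_prod,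
      ← Finset.prod_coe_sort (fixSet hNL π)]
    exact (Fintype.prod_bijective f hf _ _ fun i => rfl).symm
  · rw [← hcomm, trace_eq_sum_embeddings Ω, map_sum, ← Finset.sum_coe_sort (fixSet hNL π)]
    exact (Fintype.sum_bijective f hf _ _ fun i => rfl).symm

/-- Norms and traces of regular elements are regular. -/
theorem regFin_norm_trace {y : modularFunctionFieldFullC k L} (hy : RegFin y) :
    letI := (incl (k := k) hNL).toAlgebra
    RegFin (Algebra.norm (modularFunctionFieldFullC k N) y) ∧
      RegFin (Algebra.trace (modularFunctionFieldFullC k N) (modularFunctionFieldFullC k L) y) := by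
  let := (incl (k := k) hNL).toAlgebra
  have key : ∀ w : modularFunctionFieldFullC k N,
      (evJ k L).IsIntegralElem (qExpand k L (w : LaurentSeries k)) → RegFin w := by
    rintro w ⟨p, hp, hpw⟩
    refine (regFin_incl_iff hNL).mp ⟨p, hp, (sig π hπ cst0).injective ?_⟩
    rw [map_zero, Polynomial.hom_eval₂,
      show (sig π hπ cst0).comp (evC k L) = evJ k L from RingHom.ext (sig_evC π hπ cst0),
      sig_cst0_apply, coe_incl]
    exact hpw
  let := (evJ k L).toAlgebra
  let T := integralClosure k[X] (LaurentSeries k)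
  have hT : ∀ i, sig π hπ i y ∈ T := fun i => hy.isIntegralElem_sig π hπ i
  obtain ⟨h1, h2⟩ := qExpand_norm_trace hNL π hπ y
  exact ⟨key _ (h1 ▸ (prod_mem fun i _ => hT i : (∏ i ∈ fixSet hNL π, sig π hπ i y) ∈ T)),
    key _ (h2 ▸ (sum_mem fun i _ => hT i : (∑ i ∈ fixSet hNL π, sig π hπ i y) ∈ T))⟩

end Fermat.Agent.Reduction.Level
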