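import Fermat.Agent.Reduction.Level.Special
import Fermat.Agent.Kummer.NormSeries
import Fermat.Agent.Semistable.Instance

/-!
# The Frobenius lift of `T_ℓ`

The correspondence of the two degeneracy maps sends `q = 0` to a multiple of itself, and the norm
lift of a function with reduction `x` has series `u(q ^ ℓ) * seriesNorm ℓ u`, reducing to
`(φ⁻¹ x) ^ ℓ * φ x`. The main theorem is `heckeFrobLift`.
-/

set_option autoImplicit false

noncomputable section

open AlgebraicCurve ModularCurve

namespace Fermat.Agent.Reduction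

section Effective

variable {K F F' : Type*} [Field K] [Field F] [Field F'] [Algebra K F] [Algebra K F']

theorem pushforwardAlong_nonneg (φ : F →ₐ[K] F') (hφ : φ.toRingHom.IsIntegral)
    {D : Divisor K F'} (hD : ∀ w, 0 ≤ D w) (v : Place K F) :
    0 ≤ Divisor.pushforwardAlong φ hφ D v := by
  classical
  rw [show D = ∑ w ∈ D.support, Finsupp.single w (D w) from (Finsupp.sum_single D).symm, map_sum,
    Finset.sum_apply']
  refine Finset.sum_nonneg fun w _ => ?_
  rw [Divisor.pushforwardAlong_single, Finsupp.single_apply]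
  split_ifs
  · exact mul_nonneg (hD w) (Int.natCast_nonneg _)
  · exact le_rfl

theorem pullbackAlong_nonneg [HasPrincipalDivisors K F'] (φ : F →ₐ[K] F')
    (hφ : φ.toRingHom.IsIntegral) {D : Divisor K F} (hD : ∀ v, 0 ≤ D v) (w : Place K F') :
    0 ≤ Divisor.pullbackAlong φ hφ D w := by
  rw [Divisor.pullbackAlong_apply]
  exact mul_nonneg (Int.natCast_nonneg _) (hD _)

/-- Pushforward after pullback of a point, when all of its preimages land on one point. -/
theorem exists_correspondence_single [HasPrincipalDivisors K F'] (φ ψ : F →ₐ[K] F')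
    (hφ : φ.toRingHom.IsIntegral) (hψ : ψ.toRingHom.IsIntegral) (v u : Place K F)
    (h : ∀ w : Place K F', Place.restrictAlong φ hφ w = v → Place.restrictAlong ψ hψ w = u) :
    ∃ d : ℤ, Divisor.correspondence φ ψ hφ hψ (Finsupp.single v 1) = Finsupp.single u d := by
  refine ⟨∑ W ∈ Place.fiberAlong φ hφ v,
    (1 * (W.ramificationIndexAlong φ : ℤ)) * W.inertiaDegAlong ψ hψ, ?_⟩
  rw [Divisor.correspondence_apply, Divisor.pullbackAlong_single, map_sum, Finsupp.single_finsetSum]
  refine Finset.sum_congr rfl fun W hW => ?_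
  rw [Divisor.pushforwardAlong_single, h W (Place.mem_fiberAlong.mp hW)]

/-- An involution exchanging two embeddings carries the fibre of `P` along one to the other. -/
theorem restrictAlong_eq_of_involution (α β : F →ₐ[K] F') (hα : α.toRingHom.IsIntegral)
    (hβ : β.toRingHom.IsIntegral) (W : F' ≃ₐ[K] F') (hW : ∀ x, W (W x) = x)
    (hWα : ∀ y, W (α y) = β y) (P : Place K F) (c0 c1 : Place K F') (l : ℤ) (hl : 0 < l)
    (hcusps : ∀ v, Place.restrictAlong α hα v = P → v = c0 ∨ v = c1)
    (h0 : ∀ y, c0.ord (α y) = P.ord y) (h1 : ∀ y, c1.ord (α y) = l * P.ord y)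
    (hc : ∀ f, c1.ord f = c0.ord (W f)) (v : Place K F')
    (h : Place.restrictAlong β hβ v = P) : Place.restrictAlong α hα v = P := by
  set g := SemilinearAut.ofAlgAut W with hg
  have hord : ∀ u, (g • v).ord u = v.ord (W u) := fun u => by
    have hgu : g • (W u) = u := by rw [hg, SemilinearAut.ofAlgAut_smul]; exact hW u
    conv_lhs => rw [← hgu]
    exact SemilinearAut.ord_smul g v _
  have hWβ : ∀ y, W (β y) = α y := fun y => by rw [← hWα, hW]
  have hgv : Place.restrictAlong α hα (g • v) = P := by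
    refine Place.ext (SetLike.ext fun y => ?_)
    rcases eq_or_ne y 0 with rfl | hy
    · simp only [zero_mem]
    rw [← h]
    show α y ∈ (g • v).toValuationSubring ↔ β y ∈ v.toValuationSubring
    rw [FF.mem_toValuationSubring_iff_ord _ ((map_ne_zero _).mpr hy),
      FF.mem_toValuationSubring_iff_ord _ ((map_ne_zero _).mpr hy), hord, hWα]
  have hval : ∀ y, v.ord (α y) = (g • v).ord (β y) := fun y => by rw [hord, hWβ]
  refine Place.ext (SetLike.ext fun y => ?_)
  rcases eq_or_ne y 0 with rfl | hy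
  · simp only [zero_mem]
  show α y ∈ v.toValuationSubring ↔ y ∈ P.toValuationSubring
  rw [FF.mem_toValuationSubring_iff_ord _ ((map_ne_zero _).mpr hy),
    FF.mem_toValuationSubring_iff_ord _ hy, hval]
  rcases hcusps _ hgv with e | e
  · have e' : (g • v).ord (β y) = l * P.ord y := by rw [e, ← hWα, ← hc, h1]
    rw [e']
    exact ⟨fun h2 => nonneg_of_mul_nonneg_right h2 hl, fun h2 => mul_nonneg hl.le h2⟩
  · rw [e, hc, hWβ, h0]

end Effective

namespace Level

open Semistable

local notation "Qb" => AlgebraicClosure ℚ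

variable {ℓ : ℕ} [hℓ : Fact ℓ.Prime] (A : ValuationSubring Qb) (hA : A.LiesOverPrime ℓ)
variable (N : ℕ) [NeZero N] (hℓN : ¬ ℓ ∣ N)

theorem barCurve_pt : (barCurve A hA N hℓN).pt = cuspInf N :=
  place_eq_of_ord fun f => ((barCurve A hA N hℓN).ord_pt f).trans (ord_cuspInf N f).symm

include hℓN in
/-- A place over `q = 0` along `β` is over `q = 0` along `α`. -/
theorem restrict_alpha_of_restrict_beta [NeZero ℓ] (hα : HeckeAlphaBarIntegral Qb N ℓ)
    (hβ : HeckeBetaBarIntegral Qb N ℓ) (v : Place Qb (modularFunctionFieldBar (N * ℓ)))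
    (h : v.restrictAlong (heckeBetaBar Qb N ℓ) hβ = cuspInf N) :
    v.restrictAlong (heckeAlphaBar Qb N ℓ) hα = cuspInf N := by
  obtain ⟨w⟩ := ALData.exists_of_coprime (q := ℓ) (M := N) hℓ.out hℓN
  refine restrictAlong_eq_of_involution (heckeAlphaBar Qb N ℓ) (heckeBetaBar Qb N ℓ) hα hβ
    (wEquiv w hℓ.out) (wEquiv_wEquiv w hℓ.out) (wEquiv_heckeAlphaBar w hℓ.out) (cuspInf N)
    (cuspInf (N * ℓ)) (cuspZero w hℓ.out) ℓ (Int.natCast_pos.mpr hℓ.out.pos)
    (eq_cusp_of_restrict w hℓ.out hℓN hα) (fun y => ?_) (fun y => ?_) (fun f => ?_) v h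
  · exact (ord_cuspInf_alpha y).trans (ord_cuspInf N y).symm
  · rw [ord_cuspInf N y]
    exact ord_cuspZero_alpha w hℓ.out y
  · exact (ord_cuspZero w hℓ.out f).trans (ord_cuspInf _ _).symm

theorem qExpand_seriesNorm_residue [NeZero ℓ] (x : LaurentSeries (IsLocalRing.ResidueField A)) :
    LevelLowerP.seriesNorm ℓ x = (frobSymm A hA N hℓN).toRingHom x ∧
      qExpand (IsLocalRing.ResidueField A) ℓ x = (frobInvSymm A hA N hℓN).toRingHom x ^ ℓ := by
  have := Gal.charP_residueField A (Fact.out (p := ℓ.Prime)) hA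
  have : ExpChar (IsLocalRing.ResidueField A) ℓ := .prime Fact.out
  have hφ : (residueFrob A hA : IsLocalRing.ResidueField A →+* IsLocalRing.ResidueField A) =
      frobenius (IsLocalRing.ResidueField A) ℓ :=
    RingHom.ext fun a => (residueFrob_apply A hA a).trans (frobenius_def ℓ a).symm
  have key : ∀ s, qExpand (IsLocalRing.ResidueField A) ℓ
      ((frobSymm A hA N hℓN).toRingHom s) = s ^ ℓ := fun s => by
    rw [frobSymm_toRingHom, hφ]
    exact qExpand_coeffMap_frobenius ℓ s
  constructor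
  · have : CharP (LaurentSeries (IsLocalRing.ResidueField A)) ℓ :=
      charP_of_injective_ringHom (algebraMap (IsLocalRing.ResidueField A) _).injective ℓ
    have : ExpChar (LaurentSeries (IsLocalRing.ResidueField A)) ℓ := .prime Fact.out
    refine frobenius_inj (LaurentSeries (IsLocalRing.ResidueField A)) ℓ ?_
    rw [frobenius_def, frobenius_def, ← LevelLowerP.seriesNorm_pow, ← key,
      LevelLowerP.seriesNorm_qExpand]
  · rw [← key, frobSymm_toRingHom, frobInvSymm_toRingHom]
    congr 1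
    ext i
    simp

/-- The correspondence `T_ℓ` of `X₀(N)` has a Frobenius lift at every place over `ℓ ∤ N`. -/
theorem heckeFrobLift : HeckeFrobLift A hA N hℓN := by
  have : NeZero ℓ := ⟨hℓ.out.ne_zero⟩
  intro hα hβ hP
  obtain ⟨d, hd⟩ := exists_correspondence_single (heckeBetaBar Qb N ℓ) (heckeAlphaBar Qb N ℓ)
    hβ hα (cuspInf N) (cuspInf N) (restrict_alpha_of_restrict_beta N hℓN hα hβ)
  refine ⟨d, fun E hE v => pushforwardAlong_nonneg _ hα (pullbackAlong_nonneg _ hβ hE) v, ?_,
    fun u _ hu E hE x hx => ?_⟩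
  · rw [CurveRed.atPt, barCurve_pt]
    exact hd
  obtain ⟨u', hu'0, hser, hdiv⟩ := Kummer.exists_norm_lift (ℓ := ℓ) hℓN hu
  refine ⟨u', hu'0, fun v => hdiv hβ hα E hE v, ?_⟩
  rw [hser, mul_comm ((frobSymm A hA N hℓN).toRingHom x)]
  obtain ⟨h1, h2⟩ := qExpand_seriesNorm_residue A hA N hℓN x
  rw [← h1, ← h2]
  obtain ⟨z, hz, hzx⟩ := red_iff_exists.mp hx
  refine Red.mul (red_qExpand hx) (red_iff_exists.mpr ⟨LevelLowerP.seriesNorm ℓ z, ?_, ?_⟩)
  · rw [LevelLowerP.coeffMap_seriesNorm, hz]
  · rw [LevelLowerP.coeffMap_seriesNorm, hzx]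

end Level

end Fermat.Agent.Reduction
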