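import Fermat.Agent.Reduction.Galois
import Fermat.Agent.Reduction.Level.Normal

/-!
# The reduced curve of `modularFunctionFieldBar N` and its Galois symmetries

The data of `qbarCurve` transported to `modularFunctionFieldBar N`. An element of the decomposition
group of `A` gives a semilinear symmetry acting on reductions through its residue automorphism.
-/

set_option autoImplicit false

noncomputable section

open scoped Pointwise
open AlgebraicCurve ModularCurve

namespace Fermat.Agent.Reduction

variable {K k : Type*} [Field K] [Field k] {A : ValuationSubring K} {π : A →+* k}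

/-- The same data with the function field given up to equality. -/
def CurveRed.withF (S : CurveRed A π) (F : IntermediateField K (LaurentSeries K)) (hF : F = S.F) :
    CurveRed A π where
  F := F
  Fbar := S.Fbar
  pt := hF ▸ S.pt
  g := S.g
  surj := S.surj
  arch := S.arch
  normalizable := by subst hF; exact S.normalizable
  red_mem := by subst hF; exact S.red_mem
  ord_pt := by subst hF; exact S.ord_pt
  deg_one := by subst hF; exact S.deg_one
  hasPrincipal := by subst hF; exact S.hasPrincipal
  riemann := by subst hF; exact S.riemann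

theorem CurveRed.GapBound.withF {S : CurveRed A π} {n₀ : ℕ} (h : S.GapBound n₀)
    (F : IntermediateField K (LaurentSeries K)) (hF : F = S.F) :
    (S.withF F hF).GapBound n₀ := by
  subst hF
  exact h

theorem coeffMap_mem_fullC {R : Type*} [Field R] {N : ℕ} (φ : R →+* R) {x : LaurentSeries R}
    (hx : x ∈ modularFunctionFieldFullC R N) :
    coeffMap φ x ∈ modularFunctionFieldFullC R N := by
  rw [modularFunctionFieldFullC, ← IntermediateField.mem_toSubfield,
    IntermediateField.adjoin_toSubfield] at hx
  refine (Subfield.closure_le (t := (modularFunctionFieldFullC R N).toSubfield.comap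
    (coeffMap φ))).2 ?_ hx
  rintro _ (⟨c, rfl⟩ | ⟨d, hd, hdN, rfl⟩)
  · show coeffMap φ (algebraMap R (LaurentSeries R) c) ∈ modularFunctionFieldFullC R N
    rw [coeffMap_algebraMap]
    exact (modularFunctionFieldFullC R N).algebraMap_mem _
  · show coeffMap φ (qExpand R d (jqModC R)) ∈ modularFunctionFieldFullC R N
    rw [coeffMap_qExpand, coeffMap_jqModC]
    exact jqModCd_mem_full R N hdN

namespace Level

local notation "Qb" => AlgebraicClosure ℚ

variable {ℓ : ℕ} [Fact ℓ.Prime] (A : ValuationSubring Qb) (hA : A.LiesOverPrime ℓ)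
variable (N : ℕ) [NeZero N] (hℓN : ¬ ℓ ∣ N)

/-- The reduction data of `ℚ̄(X₀(N))` at a place over `ℓ ∤ N`. -/
def barCurve : CurveRed A (IsLocalRing.residue A) :=
  (qbarCurve A hA N hℓN).withF (modularFunctionFieldBar N) (modularFunctionFieldBar_eq_fullC N)

/-- The reduced curve of `modularFunctionFieldBar N` satisfies a gap bound for `ℓ ∤ N`. -/
theorem exists_gapBound_bar : ∃ n₀, (barCurve A hA N hℓN).GapBound n₀ :=
  let ⟨n₀, h⟩ := exists_gapBound_qbar A hA N hℓN
  ⟨n₀, h.withF _ _⟩

/-- The symmetry given by an element of the decomposition group with residue automorphism `φ`. -/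
def galoisSymm (σ : Qb ≃ₐ[ℚ] Qb) (hσ : σ • A = A)
    (φ : IsLocalRing.ResidueField A ≃+* IsLocalRing.ResidueField A)
    (hφ : ∀ (a : A) (h : σ a ∈ A),
      IsLocalRing.residue A ⟨σ a, h⟩ = φ (IsLocalRing.residue A a)) :
    (barCurve A hA N hℓN).GaloisSymm where
  g := arithmeticGalois (modularFunctionFieldFull N) σ
  res := φ
  coe_smul _ := rfl
  mem_iff a := Gal.apply_mem_iff hσ a
  residue := hφ
  map_Fbar _ hx := coeffMap_mem_fullC _ hx
  symm_map_Fbar _ hx := coeffMap_mem_fullC _ hx

theorem residue_inertia {σ : Qb ≃ₐ[ℚ] Qb} (hσ : σ ∈ A.inertiaSubgroupIn ℚ) (a : A) (h : σ a ∈ A) :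
    IsLocalRing.residue A ⟨σ a, h⟩ = IsLocalRing.residue A a :=
  (Gal.residue_eq_residue_iff ..).mpr (((Gal.mem_inertia_iff A σ).mp hσ).2 a a.2)

theorem residue_frobenius {σ : Qb ≃ₐ[ℚ] Qb} {q : ℕ} (hσ : A.IsFrobeniusAt σ q) (a : A)
    (h : σ a ∈ A) : IsLocalRing.residue A ⟨σ a, h⟩ = IsLocalRing.residue A a ^ q := by
  rw [← map_pow]
  refine (Gal.residue_eq_residue_iff ..).mpr ?_
  simpa using ((Gal.isFrobeniusAt_iff A σ q).mp hσ).2 a a.2

end Level

end Fermat.Agent.Reduction
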