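import Fermat.Agent.Igusa.FullField

/-!
# The conjugate embeddings of the level `N` function field

For an algebraically closed field `k` with a map `π : ℤ[ζ_N] → k` keeping `ζ_N` primitive, the
embeddings `sig π hπ i`, `i : Cst N`, of `k(X₀(N))` into series in `q^(1/N)` send `j(dτ)` to the
conjugates `Gk`. They are all the embeddings over `k(j)`, and the elements integral over `k[j]`
are interpolation quotients `P(G)/Φ'(G)` with `P` in `k[j][X]`.
-/

set_option autoImplicit false

noncomputable section

open scoped MatrixGroups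
open Polynomial ModularCurve IntermediateField Fermat.Agent.Igusa

namespace Fermat.Agent.Reduction.Level

variable (k : Type*) [Field k] (N : ℕ) [NeZero N]

/-- `k(j) ⊆ k(X₀(N))` followed by `q ↦ q^N`. -/
def baseHom : baseC k N →+* LaurentSeries k :=
  (inclN k N).comp (algebraMap (baseC k N) (modularFunctionFieldFullC k N))

theorem baseHom_toBase : (baseHom k N).comp (toBase k N) = phiJ N k := inclN_toBase k N

theorem baseHom_toBase_apply (z : Kj k) : baseHom k N (toBase k N z) = phiJ N k z :=
  RingHom.congr_fun (baseHom_toBase k N) z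

variable {k} {N}

variable [IsAlgClosed k] (π : Rz N →+* k) (hπ : IsPrimitiveRoot (π (zetaR N)) N)

include hπ

omit [IsAlgClosed k] in
theorem natCast_level_ne_zero : (N : k) ≠ 0 := natCast_ne_zero_of_primitive π hπ

theorem map_minpoly_eq :
    (minpoly (baseC k N) (jNC k N)).map (baseHom k N) =
      ∏ i : Cst N, (X - C (Gk π (dvd_refl N) i)) := by
  have hN := natCast_level_ne_zero π hπ
  obtain ⟨P, hm, hd, hP⟩ := exists_charPoly_red π (jFam (N := N) dvd_rfl) (equivariant_jFam _)
  set Q := (P.map (algebraMap k[X] (Kj k))).map (toBase k N) with hQ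
  have hQm : Q.Monic := (hm.map _).map _
  have hmap : Q.map (baseHom k N) = ∏ i : Cst N, (X - C (Gk π (dvd_refl N) i)) := by
    rw [hQ, Polynomial.map_map, baseHom_toBase, hP]
    rfl
  have hroot : aeval (jNC k N) Q = 0 := by
    refine inclN_injective k N ?_
    rw [hQ, inclN_aeval N π, map_zero, ← Polynomial.eval_map, hP, Polynomial.eval_prod]
    exact Finset.prod_eq_zero (Finset.mem_univ cst0) (by simp [Gk])
  have hdeg : (minpoly (baseC k N) (jNC k N)).natDegree = Fintype.card (Cst N) := by
    rw [← IntermediateField.adjoin.finrank (isIntegral_jNC N hN), adjoin_jNC_eq_top N hN,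
      IntermediateField.finrank_top', finrank_fullC N hN]
  have hQd : Q.natDegree = Fintype.card (Cst N) := by
    rw [hQ, (hm.map _).natDegree_map, hm.natDegree_map, hd]
  rw [← hmap, Polynomial.eq_of_monic_of_dvd_of_natDegree_le (minpoly.monic (isIntegral_jNC N hN))
    hQm (minpoly.dvd _ _ hroot) (by rw [hQd, hdeg])]

/-- `k(X₀(N))` as `k(j)[X]` modulo the modular equation. -/
def genEquiv : AdjoinRoot (minpoly (baseC k N) (jNC k N)) ≃ₐ[baseC k N]
    modularFunctionFieldFullC k N :=
  ((IntermediateField.adjoinRootEquivAdjoin (baseC k N)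
      (isIntegral_jNC N (natCast_level_ne_zero π hπ))).trans
    (IntermediateField.equivOfEq (adjoin_jNC_eq_top N (natCast_level_ne_zero π hπ)))).trans
    IntermediateField.topEquiv

theorem genEquiv_root : genEquiv π hπ (AdjoinRoot.root _) = jNC k N := by
  simp only [genEquiv, AlgEquiv.trans_apply, IntermediateField.adjoinRootEquivAdjoin_apply_root]
  rfl

theorem genEquiv_mk (g : (baseC k N)[X]) :
    genEquiv π hπ (AdjoinRoot.mk _ g) = aeval (jNC k N) g := by
  rw [← AdjoinRoot.aeval_eq, ← Polynomial.aeval_algHom_apply, genEquiv_root]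

/-- Every element is a polynomial in `j(Nτ)` of degree less than the index. -/
theorem exists_aeval_eq (x : modularFunctionFieldFullC k N) :
    ∃ g : (baseC k N)[X], aeval (jNC k N) g = x := by
  obtain ⟨g, hg⟩ := AdjoinRoot.mk_surjective ((genEquiv π hπ).symm x)
  exact ⟨g, by rw [← genEquiv_mk π hπ, hg, AlgEquiv.apply_symm_apply]⟩

/-- The `i`-th conjugate embedding. -/
def sig (i : Cst N) : modularFunctionFieldFullC k N →+* LaurentSeries k :=
  (AdjoinRoot.lift (baseHom k N) (Gk π (dvd_refl N) i) (by
    rw [← Polynomial.eval_map, map_minpoly_eq π hπ, Polynomial.eval_prod]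
    exact Finset.prod_eq_zero (Finset.mem_univ i) (by simp))).comp
    ((genEquiv π hπ).symm : _ →+* _)

theorem sig_aeval (i : Cst N) (g : (baseC k N)[X]) :
    sig π hπ i (aeval (jNC k N) g) = g.eval₂ (baseHom k N) (Gk π (dvd_refl N) i) := by
  rw [← genEquiv_mk π hπ]
  simp [sig]

theorem sig_algebraMap_base (i : Cst N) (b : baseC k N) :
    sig π hπ i (algebraMap (baseC k N) (modularFunctionFieldFullC k N) b) = baseHom k N b := by
  have h := sig_aeval π hπ i (C b)
  rwa [aeval_C, eval₂_C] at h

theorem sig_jNC (i : Cst N) : sig π hπ i (jNC k N) = Gk π (dvd_refl N) i := by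
  have h := sig_aeval π hπ i X
  rwa [aeval_X, eval₂_X] at h

/-- Two maps to a field agreeing on `k(j)` and `j(Nτ)` are equal. -/
theorem hom_ext {S : Type*} [CommRing S] {f g : modularFunctionFieldFullC k N →+* S}
    (hb : ∀ b : baseC k N, f (algebraMap (baseC k N) (modularFunctionFieldFullC k N) b) =
      g (algebraMap (baseC k N) (modularFunctionFieldFullC k N) b))
    (hG : f (jNC k N) = g (jNC k N)) : f = g := by
  refine RingHom.ext fun x => ?_
  obtain ⟨p, rfl⟩ := exists_aeval_eq π hπ x
  rw [aeval_def, Polynomial.hom_eval₂, Polynomial.hom_eval₂, hG]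
  congr 1
  exact RingHom.ext hb

/-- The distinguished embedding is `q ↦ q^N`. -/
theorem sig_cst0 : sig π hπ cst0 = inclN k N := by
  refine hom_ext π hπ (fun b => ?_) ?_
  · rw [sig_algebraMap_base]
    rfl
  · rw [sig_jNC, inclN_jNC N π]

theorem sig_cst0_apply (x : modularFunctionFieldFullC k N) :
    sig π hπ cst0 x = ModularCurve.qExpand k N (x : LaurentSeries k) := by
  rw [sig_cst0]
  rfl

theorem sig_algebraMap (i : Cst N) (c : k) :
    sig π hπ i (algebraMap k (modularFunctionFieldFullC k N) c) =
      algebraMap k (LaurentSeries k) c := by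
  rw [IsScalarTower.algebraMap_apply k (baseC k N) (modularFunctionFieldFullC k N),
    sig_algebraMap_base]
  show ModularCurve.qExpand k N (algebraMap k (LaurentSeries k) c) = _
  rw [algebraMap_laurentSeries_eq_single, qExpand_single, mul_zero]

theorem sig_jC (i : Cst N) : sig π hπ i (jC k N) = jW k N := by
  show sig π hπ i (algebraMap (baseC k N) (modularFunctionFieldFullC k N) (jBase k N)) = _
  rw [sig_algebraMap_base]
  rfl

/-- Every equivariant family gives the conjugates of one element. -/
theorem exists_sig_eq (x : Cst N → AQ N) (hx : Equivariant x) :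
    ∃ z : modularFunctionFieldFullC k N, ∀ i, sig π hπ i z = red π (x i) := by
  obtain ⟨H, hH⟩ := exists_eval_eq π hπ x hx
  refine ⟨aeval (jNC k N) (H.map (toBase k N)), fun i => ?_⟩
  rw [sig_aeval, Polynomial.eval₂_map, baseHom_toBase, hH]

theorem sig_jdC {d : ℕ} [NeZero d] (hd : d ∣ N) (i : Cst N) :
    sig π hπ i ⟨qExpand k d (jqModC k), jqModCd_mem_full k N hd⟩ = Gk π hd i := by
  obtain ⟨z, hz⟩ := exists_sig_eq π hπ _ (equivariant_jFam (N := N) hd)
  have : z = ⟨qExpand k d (jqModC k), jqModCd_mem_full k N hd⟩ := by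
    refine inclN_injective k N ?_
    rw [← sig_cst0 π hπ, hz, sig_cst0, ← Gk, Gk_cst0]
    show _ = ModularCurve.qExpand k N (qExpand k d (jqModC k))
    rw [qExpand_qExpand]
    exact qExpand_congr (mul_comm d N) _
  rw [← this, hz]
  rfl

theorem sig_injective : Function.Injective (sig π hπ) := fun i i' h => by
  have := RingHom.congr_fun h (jNC k N)
  rw [sig_jNC, sig_jNC] at this
  exact Gk_injective π hπ this

/-- Every embedding over `k(j)` into a field of series is one of the `sig`. -/
theorem exists_sig_of_hom {Ω : Type*} [Field Ω] (ι : LaurentSeries k →+* Ω)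
    (τ : modularFunctionFieldFullC k N →+* Ω)
    (hτ : ∀ b : baseC k N,
      τ (algebraMap (baseC k N) (modularFunctionFieldFullC k N) b) = ι (baseHom k N b)) :
    ∃ i, τ = ι.comp (sig π hπ i) := by
  have h0 : ((minpoly (baseC k N) (jNC k N)).map (baseHom k N) |>.map ι).eval
      (τ (jNC k N)) = 0 := by
    rw [Polynomial.map_map, Polynomial.eval_map,
      show ι.comp (baseHom k N) = τ.comp (algebraMap (baseC k N) _) from
        RingHom.ext fun b => (hτ b).symm,
      ← Polynomial.hom_eval₂, ← aeval_def, minpoly.aeval, map_zero]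
  rw [map_minpoly_eq π hπ, Polynomial.map_prod, Polynomial.eval_prod,
    Finset.prod_eq_zero_iff] at h0
  obtain ⟨i, -, hi⟩ := h0
  simp only [Polynomial.map_sub, Polynomial.map_X, Polynomial.map_C, Polynomial.eval_sub,
    Polynomial.eval_X, Polynomial.eval_C, sub_eq_zero] at hi
  refine ⟨i, hom_ext π hπ (fun b => ?_) ?_⟩
  · rw [RingHom.comp_apply, sig_algebraMap_base, hτ]
  · rw [RingHom.comp_apply, sig_jNC, hi]

/-- `k[j] → k(X₀(N))`. -/
theorem sig_aeval_jC (i : Cst N) (p : k[X]) :
    sig π hπ i (aeval (jC k N) p) = evJ k N p := by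
  rw [aeval_def, Polynomial.hom_eval₂, evJ, Polynomial.coe_eval₂RingHom, sig_jC]
  congr 1
  exact RingHom.ext fun c => by
    rw [RingHom.comp_apply, sig_algebraMap, HahnSeries.C_apply, algebraMap_laurentSeries_eq_single]

theorem isIntegralElem_sig {x : modularFunctionFieldFullC k N}
    (hx : (aeval (jC k N) : k[X] →ₐ[k] _).toRingHom.IsIntegralElem x) (i : Cst N) :
    (evJ k N).IsIntegralElem (sig π hπ i x) := by
  obtain ⟨p, hp, hpx⟩ := hx
  refine ⟨p, hp, ?_⟩
  rw [show evJ k N = (sig π hπ i).comp (aeval (jC k N) : k[X] →ₐ[k] _).toRingHom from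
      RingHom.ext fun q => (sig_aeval_jC π hπ i q).symm,
    ← Polynomial.hom_eval₂, hpx, map_zero]

open Classical in
/-- The derivative of the modular equation at the `i`-th root. -/
def dPhi (i : Cst N) : LaurentSeries k :=
  ∏ i' ∈ Finset.univ.erase i, (Gk π (dvd_refl N) i - Gk π (dvd_refl N) i')

omit [IsAlgClosed k] in
theorem dPhi_ne_zero (i : Cst N) : dPhi π i ≠ 0 := by
  classical
  exact Finset.prod_ne_zero_iff.mpr fun i' hi' =>
    sub_ne_zero.mpr fun h => (Finset.mem_erase.mp hi').1 (Gk_injective π hπ h).symm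

theorem sig_derivative (i : Cst N) :
    sig π hπ i (aeval (jNC k N) (minpoly (baseC k N) (jNC k N)).derivative) = dPhi π i := by
  classical
  rw [sig_aeval, ← Polynomial.eval_map, ← Polynomial.derivative_map, map_minpoly_eq π hπ,
    Polynomial.derivative_prod_finset, Polynomial.eval_finsetSum, Finset.sum_eq_single i]
  · simp [Polynomial.eval_prod, dPhi]
  · intro j _ hj
    rw [Polynomial.eval_mul, Polynomial.eval_prod,
      Finset.prod_eq_zero (Finset.mem_erase.mpr ⟨hj.symm, Finset.mem_univ _⟩) (by simp), zero_mul]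
  · simp

/-- An element integral over `k[j]` times `Φ'` is a polynomial over `k[j]` in `j(Nτ)`. -/
theorem exists_interp_of_integral {x : modularFunctionFieldFullC k N}
    (hx : (aeval (jC k N) : k[X] →ₐ[k] _).toRingHom.IsIntegralElem x) :
    ∃ P : Fin (idx N) → k[X], ∀ i, sig π hπ i x * dPhi π i =
      ∑ l, evJ k N (P l) * Gk π (dvd_refl N) i ^ (l : ℕ) := by
  classical
  set G := Gk π (dvd_refl N) with hG
  obtain ⟨g, hg⟩ := exists_aeval_eq π hπ
    (x * aeval (jNC k N) (minpoly (baseC k N) (jNC k N)).derivative)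
  set f := minpoly (baseC k N) (jNC k N) with hf
  have hfm : f.Monic := minpoly.monic (isIntegral_jNC N (natCast_level_ne_zero π hπ))
  set H := (g %ₘ f).map (baseHom k N) with hH
  have hHev : ∀ i, H.eval (G i) = sig π hπ i x * dPhi π i := fun i => by
    rw [hH, Polynomial.eval_map, ← sig_derivative π hπ i, ← map_mul, ← hg, sig_aeval π hπ i g]
    have h0 : Polynomial.eval₂ (baseHom k N) (G i) f = 0 := by
      rw [← Polynomial.eval_map (f := baseHom k N), hf, map_minpoly_eq π hπ, Polynomial.eval_prod]
      exact Finset.prod_eq_zero (Finset.mem_univ i) (by simp [hG])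
    conv_rhs => rw [← Polynomial.modByMonic_add_div g f]
    rw [Polynomial.eval₂_add, Polynomial.eval₂_mul, h0, zero_mul, add_zero]
  set S : (LaurentSeries k)[X] :=
    ∑ i, C (sig π hπ i x) * ∏ i' ∈ Finset.univ.erase i, (X - C (G i')) with hS
  have hSdeg : S.degree < (idx N : ℕ) := by
    refine lt_of_le_of_lt (Polynomial.degree_sum_le _ _) ((Finset.sup_lt_iff ?_).mpr fun i _ => ?_)
    · exact WithBot.bot_lt_coe _
    refine lt_of_le_of_lt (Polynomial.degree_mul_le _ _) ?_
    rw [Polynomial.degree_prod]
    simp only [Polynomial.degree_X_sub_C, Finset.sum_const, Finset.card_erase_of_mem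
      (Finset.mem_univ i), Finset.card_univ, nsmul_eq_mul, mul_one]
    refine lt_of_le_of_lt (add_le_add Polynomial.degree_C_le le_rfl) ?_
    rw [zero_add]
    exact WithBot.coe_lt_coe.mpr (Nat.sub_lt (Fintype.card_pos_iff.mpr ⟨cst0⟩) one_pos)
  have hfd : f.natDegree = idx N := by
    have := congrArg Polynomial.natDegree (map_minpoly_eq π hπ)
    rwa [hfm.natDegree_map, Polynomial.natDegree_finsetProd_X_sub_C_eq_card,
      Finset.card_univ] at this
  have hHdeg : H.degree < (idx N : ℕ) := by
    refine lt_of_le_of_lt Polynomial.degree_map_le ?_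
    rw [← hfd, ← Polynomial.degree_eq_natDegree hfm.ne_zero]
    exact Polynomial.degree_modByMonic_lt g hfm
  have hSH : S = H := by
    refine Polynomial.eq_of_degree_sub_lt_of_eval_index_eq (s := Finset.univ) (v := G)
      (Gk_injective π hπ).injOn ?_ fun i _ => ?_
    · rw [Finset.card_univ]
      exact lt_of_le_of_lt (Polynomial.degree_sub_le _ _) (max_lt hSdeg hHdeg)
    rw [hHev, hS, Polynomial.eval_finsetSum, Finset.sum_eq_single i]
    · simp [Polynomial.eval_prod, dPhi, hG]
    · intro j _ hj
      rw [Polynomial.eval_mul, Polynomial.eval_prod,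
        Finset.prod_eq_zero (Finset.mem_erase.mpr ⟨hj.symm, Finset.mem_univ _⟩) (by simp), mul_zero]
    · simp
  -- the coefficients are integral over `k[j]`
  have hint : ∀ l, (evJ k N).IsIntegralElem (S.coeff l) := by
    intro l
    let := (evJ k N).toAlgebra
    let T := integralClosure k[X] (LaurentSeries k)
    have hx' : ∀ i, sig π hπ i x ∈ T := fun i => isIntegralElem_sig π hπ hx i
    have hG' : ∀ i, G i ∈ T := fun i => isIntegral_red π (jFam (N := N) dvd_rfl)
        (equivariant_jFam _) i
    let S₀ : T[X] := ∑ i, C (⟨_, hx' i⟩ : T) *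
      ∏ i' ∈ Finset.univ.erase i, (X - C (⟨_, hG' i'⟩ : T))
    have hmap : S₀.map T.val.toRingHom = S := by
      simp [S₀, hS, Polynomial.map_prod, Polynomial.map_sum]
    rw [← hmap, Polynomial.coeff_map]
    exact (S₀.coeff l).2
  choose p hp using fun l : Fin (idx N) => show ∃ p : k[X], evJ k N p = S.coeff l from by
    obtain ⟨z, hz⟩ := toBase_surjective k N ((g %ₘ f).coeff l)
    have hzl : phiJ N k z = S.coeff l := by
      rw [← baseHom_toBase_apply, hz, hSH, hH, Polynomial.coeff_map]
    obtain ⟨p, hp⟩ := exists_polynomial_of_isIntegral (N := N) (z := z) (hzl ▸ hint l)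
    exact ⟨p, by rw [← phiJ_algebraMap, hp, hzl]⟩
  refine ⟨p, fun i => ?_⟩
  have hSn : S.natDegree < idx N := by
    rcases eq_or_ne S 0 with h0 | h0
    · rw [h0, Polynomial.natDegree_zero]
      exact Fintype.card_pos_iff.mpr ⟨cst0⟩
    · exact (Polynomial.natDegree_lt_iff_degree_lt h0).mpr hSdeg
  rw [← hHev i, ← hSH, Polynomial.eval_eq_sum_range' hSn,
    ← Fin.sum_univ_eq_sum_range fun l => S.coeff l * G i ^ l]
  exact Finset.sum_congr rfl fun l _ => by rw [hp]

end Fermat.Agent.Reduction.Level
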