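import Fermat.Agent.Reduction.Level.Hauptfun
import Fermat.Agent.Reduction.Level.Setup
import Fermat.Agent.MFGenus.Classify
import Fermat.Agent.FF.Deriv

/-!
# The fibres of `t` in characteristic zero

Away from the zeros of `Q` the function `t` is unramified: the ramification indices of `j` divide
`3`, `2` over `0`, `1728`, and those of `P = A³`, `P - 1728 Q = B²` absorb them. Hence the fibre
sums evaluate to the sums of the values, and a singular fibre sum matrix gives a combination
vanishing on the fibre.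
-/

set_option autoImplicit false

noncomputable section

open Polynomial ModularCurve IntermediateField AlgebraicCurve Fermat.Agent.Igusa
open scoped MatrixGroups

attribute [-instance] IsScalarTower.of_algHom

namespace Fermat.Agent.Reduction.Level

variable {k : Type*} [Field k] [IsAlgClosed k] [Algebra ℚ k] {N : ℕ} [NeZero N] (ι : k →+* ℂ)

include ι in
theorem ord_dvd_over_FL (x₀ : k) (v : Place k (MFGenus.FL k N))
    (hv : 0 < v.ord (MFGenus.jElt k N - algebraMap k _ x₀)) :
    (x₀ = 0 ∧ v.ord (MFGenus.jElt k N - algebraMap k _ x₀) ∣ 3) ∨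
      (x₀ = 1728 ∧ v.ord (MFGenus.jElt k N - algebraMap k _ x₀) ∣ 2) ∨
        v.ord (MFGenus.jElt k N - algebraMap k _ x₀) = 1 := by
  by_cases h0 : ι x₀ = 0
  · left
    refine ⟨(map_eq_zero ι).mp h0, ?_⟩
    obtain ⟨e, he⟩ := MFGenus.exists_point_equiv (N := N) ι
      (h0.trans LevelOne.jFun_rho.symm) MFGenus.ST_smul_rho
      (LevelOne.analyticOrderAt_jFun_of_E₄_eq_zero LevelOne.E₄_rho)
      (Or.inr ⟨Nat.prime_three, by rw [MFGenus.rot_ST_inv]; exact MFGenus.rho_ne_one,
        by rw [MFGenus.rot_ST_inv]; exact MFGenus.rho_cube⟩) Cosets.ST_pow_three_smul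
    obtain ⟨o, ho⟩ := e.surjective ⟨v, hv⟩
    obtain ⟨q, rfl⟩ := Quotient.mk''_surjective o
    have h := (he q).1
    rw [ho] at h
    exact Dvd.intro_left _ (by exact_mod_cast h)
  by_cases h1 : ι x₀ = 1728
  · right; left
    refine ⟨ι.injective (h1.trans (map_ofNat ι 1728).symm), ?_⟩
    obtain ⟨e, he⟩ := MFGenus.exists_point_equiv (N := N) ι
      (h1.trans LevelOne.jFun_I.symm) MFGenus.S_smul_I
      (LevelOne.analyticOrderAt_jFun_of_E₆_eq_zero LevelOne.E₆_I)
      (Or.inr ⟨Nat.prime_two, by rw [MFGenus.rot_S_inv]; norm_num,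
        by rw [MFGenus.rot_S_inv]; norm_num⟩) Cosets.S_sq_smul
    obtain ⟨o, ho⟩ := e.surjective ⟨v, hv⟩
    obtain ⟨q, rfl⟩ := Quotient.mk''_surjective o
    have h := (he q).1
    rw [ho] at h
    exact Dvd.intro_left _ (by exact_mod_cast h)
  right; right
  obtain ⟨τ, hτ⟩ := LevelOne.jFun_surjective (ι x₀)
  obtain ⟨e, he⟩ := MFGenus.exists_point_equiv (N := N) ι hτ.symm (one_smul _ τ)
    (by rw [Nat.cast_one]
        exact LevelOne.analyticOrderAt_jFun_sub
          (fun h => h0 (hτ ▸ LevelOne.jFun_eq_zero_iff.2 h))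
          (fun h => h1 (hτ ▸ LevelOne.jFun_eq_1728_iff.2 h)))
    (Or.inl rfl) (fun q => by simp)
  obtain ⟨o, ho⟩ := e.surjective ⟨v, hv⟩
  obtain ⟨q, rfl⟩ := Quotient.mk''_surjective o
  have h := (he q).1
  rw [ho] at h
  rcases Int.eq_one_or_neg_one_of_mul_eq_one' (by exact_mod_cast h) with h' | h'
  · exact h'.2
  · omega

include ι in
theorem ord_dvd_over (x₀ : k) {F : IntermediateField k (LaurentSeries k)}
    (hF : F = MFGenus.FL k N) (jj : F) (hj : (jj : LaurentSeries k) = jqModC k) (v : Place k F)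
    (hv : 0 < v.ord (jj - algebraMap k F x₀)) :
    (x₀ = 0 ∧ v.ord (jj - algebraMap k F x₀) ∣ 3) ∨
      (x₀ = 1728 ∧ v.ord (jj - algebraMap k F x₀) ∣ 2) ∨
        v.ord (jj - algebraMap k F x₀) = 1 := by
  subst hF
  obtain rfl : jj = MFGenus.jElt k N := Subtype.ext (by
    rw [hj]
    exact ((coeffEmb_qExpand_jqModC k 1).trans (qExpand_one_apply _)).symm)
  exact ord_dvd_over_FL ι x₀ v hv

namespace HData

variable {π : Rz N →+* k} (hπ : IsPrimitiveRoot (π (zetaR N)) N) (H : HData k N)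

omit [Algebra ℚ k] in
omit [IsAlgClosed k] [NeZero N] in
theorem ord_aeval_over {α : k} (v : Place k (modularFunctionFieldFullC k N))
    (hv : 0 < v.ord (H.t - algebraMap k _ α)) {p : k[X]} (hp : p ≠ 0) :
    v.ord (aeval H.t p) = p.rootMultiplicity α * v.ord (H.t - algebraMap k _ α) := by
  classical
  set f := H.t - algebraMap k _ α
  have hf0 : f ≠ 0 := fun h => by rw [h, v.ord_zero] at hv; exact lt_irrefl _ hv
  have htm : H.t ∈ v.toValuationSubring := by
    have hfm : f ∈ v.toValuationSubring := (FF.mem_toValuationSubring_iff_ord v hf0).mpr hv.le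
    have := add_mem hfm (v.algebraMap_mem' α)
    simpa [f] using this
  obtain ⟨q, hq, hndvd⟩ := Polynomial.exists_eq_pow_rootMultiplicity_mul_and_not_dvd p hp α
  have hqα : q.eval α ≠ 0 := fun h => hndvd (dvd_iff_isRoot.mpr h)
  obtain ⟨q', hq'⟩ := Polynomial.X_sub_C_dvd_sub_C_eval (a := α) (p := q)
  have hfe : aeval H.t (X - C α) = f := by simp [f]
  have he : aeval H.t q = algebraMap k _ (q.eval α) + f * aeval H.t q' := by
    have h1 := congrArg (aeval H.t) hq'
    rw [map_sub, aeval_C, map_mul, hfe] at h1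
    linear_combination h1
  have hc : algebraMap k (modularFunctionFieldFullC k N) (q.eval α) ≠ 0 :=
    (_root_.map_ne_zero _).mpr hqα
  have hor : f * aeval H.t q' = 0 ∨
      v.ord (algebraMap k (modularFunctionFieldFullC k N) (q.eval α)) <
        v.ord (f * aeval H.t q') := by
    rcases eq_or_ne (f * aeval H.t q') 0 with h0 | h0
    · exact Or.inl h0
    · refine Or.inr ?_
      rw [FF.ord_algebraMap, v.ord_mul hf0 (right_ne_zero_of_mul h0)]
      have := FF.ord_nonneg_of_mem v (FF.aeval_mem_of_mem v.algebraMap_mem' htm q')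
      omega
  have hq0 : v.ord (aeval H.t q) = 0 := by
    rw [he, FF.ord_add_eq_left v hc hor, FF.ord_algebraMap]
  have hqne : aeval H.t q ≠ 0 := he ▸ FF.add_ne_zero_of_ord_lt v hor hc
  conv_lhs => rw [hq]
  rw [map_mul, map_pow, hfe, v.ord_mul (pow_ne_zero _ hf0) hqne, FF.ord_pow, hq0, add_zero]

variable (hP : ∃ A : k[X], H.P = A ^ 3) (hB : ∃ B : k[X], H.P - C 1728 * H.Q = B ^ 2)
variable {α : k} (hQ : H.Q.eval α ≠ 0)

include ι hP hB hQ in
theorem ord_sub_eq_one (v : Place k (modularFunctionFieldFullC k N))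
    (hv : 0 < v.ord (H.t - algebraMap k _ α)) : v.ord (H.t - algebraMap k _ α) = 1 := by
  set e := v.ord (H.t - algebraMap k _ α)
  set x₀ := H.P.eval α / H.Q.eval α with hx₀
  set R := H.P - C x₀ * H.Q with hR
  have hR0 : R ≠ 0 := fun h => by
    have h1 := congrArg Polynomial.natDegree (sub_eq_zero.mp h)
    have h2 := natDegree_C_mul_le x₀ H.Q
    have := H.deg_lt
    omega
  have hroot : 0 < R.rootMultiplicity α := (Polynomial.rootMultiplicity_pos hR0).mpr (by
    rw [IsRoot, hR, eval_sub, eval_mul, eval_C, hx₀, div_mul_cancel₀ _ hQ, sub_self])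
  have hQe : v.ord (aeval H.t H.Q) = 0 := by
    rw [H.ord_aeval_over v hv H.monicQ.ne_zero, Polynomial.rootMultiplicity_eq_zero hQ]
    simp
  have hord : v.ord (jC k N - algebraMap k _ x₀) = (R.rootMultiplicity α : ℤ) * e := by
    have hmul : jC k N - algebraMap k _ x₀ = aeval H.t R / aeval H.t H.Q := by
      rw [eq_div_iff H.Q_ne_zero, hR, map_sub, map_mul, aeval_C, sub_mul, H.hrel]
    have hRne : aeval H.t R ≠ 0 := fun h => by
      have := H.ord_aeval_over v hv hR0
      rw [h, v.ord_zero] at this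
      have : (0 : ℤ) < (R.rootMultiplicity α : ℤ) * e := by positivity
      linarith
    rw [hmul, FF.ord_div v hRne H.Q_ne_zero, hQe, sub_zero, H.ord_aeval_over v hv hR0]
  have hpos : 0 < v.ord (jC k N - algebraMap k _ x₀) := by rw [hord]; positivity
  have hpow : ∀ (A : k[X]) (n : ℕ), R = A ^ n →
      ∃ m : ℕ, 0 < m ∧ R.rootMultiplicity α = n * m := by
    intro A n hA
    classical
    refine ⟨A.rootMultiplicity α, ?_, ?_⟩
    · by_contra h
      rw [hA, ← count_roots, roots_pow, Multiset.count_nsmul, count_roots] at hroot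
      simp [Nat.eq_zero_of_not_pos h] at hroot
    · rw [hA, ← count_roots, roots_pow, Multiset.count_nsmul, count_roots]
  have hle : ∀ {n : ℕ} (m : ℕ), 0 < m → 0 < n → ((n * m : ℕ) : ℤ) * e ∣ (n : ℤ) → e = 1 := by
    intro n m hm hn h
    have h1 : (n : ℤ) * (m * e) ∣ (n : ℤ) * 1 := by
      rw [mul_one, ← mul_assoc]; exact_mod_cast h
    exact Int.eq_one_of_dvd_one hv.le
      ((dvd_mul_left e (m : ℤ)).trans ((mul_dvd_mul_iff_left (by positivity)).mp h1))
  rcases ord_dvd_over ι x₀ (laurentBaseChange_eq_fullC k N).symm (jC k N) coe_jC v hpos with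
    ⟨h0, hd⟩ | ⟨h0, hd⟩ | hd
  · obtain ⟨A, hA⟩ := hP
    obtain ⟨m, hm, hRm⟩ := hpow A 3 (by rw [hR, h0, map_zero, zero_mul, sub_zero, hA])
    rw [hord, hRm] at hd
    exact hle m hm three_pos (by exact_mod_cast hd)
  · obtain ⟨B, hB⟩ := hB
    obtain ⟨m, hm, hRm⟩ := hpow B 2 (by rw [hR, h0, hB])
    rw [hord, hRm] at hd
    exact hle m hm two_pos (by exact_mod_cast hd)
  · rw [hord] at hd
    exact Int.eq_one_of_dvd_one hv.le (Dvd.intro_left _ hd)

include ι hP hB hQ in
/-- Nonzero elements of `k(t)` have one order on a whole fibre. -/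
theorem exists_ord_line {r : modularFunctionFieldFullC k N} (hr : r ∈ k⟮H.t⟯) (hr0 : r ≠ 0) :
    ∃ n : ℤ, ∀ v : Place k (modularFunctionFieldFullC k N),
      0 < v.ord (H.t - algebraMap k _ α) → v.ord r = n := by
  obtain ⟨g, h, rfl⟩ := (IntermediateField.mem_adjoin_simple_iff k r).mp hr
  obtain ⟨hg, hh⟩ := div_ne_zero_iff.mp hr0
  refine ⟨g.rootMultiplicity α - h.rootMultiplicity α, fun v hv => ?_⟩
  rw [FF.ord_div v hg hh, H.ord_aeval_over v hv (fun h0 => hg (by rw [h0, map_zero])),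
    H.ord_aeval_over v hv (fun h0 => hh (by rw [h0, map_zero])),
    H.ord_sub_eq_one ι hP hB hQ v hv, mul_one, mul_one]

include ι hP hB hQ in
/-- A combination over `k(t)` of functions with delta values on the fibre vanishes only trivially
and has regular coefficients if it is regular. -/
theorem comb_regular (S : Finset (Place k (modularFunctionFieldFullC k N)))
    (hmemS : ∀ v, v ∈ S ↔ 0 < v.ord (H.t - algebraMap k _ α))
    (h : S → modularFunctionFieldFullC k N) (hh1 : ∀ w : S, h w - 1 ∈ FF.ordGE w.1 1)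
    (hh0 : ∀ (w : S) (v : Place k (modularFunctionFieldFullC k N)), v ∈ S → v ≠ w.1 →
      h w ∈ FF.ordGE v 1)
    (c : S → k⟮H.t⟯) (x : modularFunctionFieldFullC k N)
    (hcx : ∑ w, (c w : modularFunctionFieldFullC k N) * h w = x) :
    (x = 0 → c = 0) ∧ ((∀ v ∈ S, x ∈ FF.ordGE v 0) →
      ∀ w, ∀ v ∈ S, (c w : modularFunctionFieldFullC k N) ∈ FF.ordGE v 0) := by
  classical
  have hord : ∀ r ∈ k⟮H.t⟯, r ≠ 0 → ∃ n : ℤ, ∀ v ∈ S, v.ord r = n := fun r hr hr0 => by
    obtain ⟨n, hn⟩ := H.exists_ord_line ι hP hB hQ hr hr0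
    exact ⟨n, fun v hv => hn v ((hmemS v).mp hv)⟩
  rcases eq_or_ne c 0 with rfl | hne
  · exact ⟨fun _ => rfl, fun _ w v _ => by simp⟩
  obtain ⟨w₀, hw₀⟩ := Function.ne_iff.mp hne
  have hex : ∀ w, c w ≠ 0 → ∃ n : ℤ, ∀ v ∈ S,
      v.ord (c w : modularFunctionFieldFullC k N) = n := fun w hw =>
    hord _ (c w).2 (fun h0 => hw (Subtype.ext h0))
  choose! n hn using hex
  obtain ⟨w₁, hw₁, hmin⟩ := (Finset.univ.filter fun w => c w ≠ 0).exists_min_image n
    ⟨w₀, Finset.mem_filter.mpr ⟨Finset.mem_univ _, hw₀⟩⟩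
  obtain ⟨-, hw₁⟩ := Finset.mem_filter.mp hw₁
  have hc1 : (c w₁ : modularFunctionFieldFullC k N) ≠ 0 := fun h0 => hw₁ (Subtype.ext h0)
  have hx : x - (c w₁ : modularFunctionFieldFullC k N) ∈ FF.ordGE w₁.1 (n w₁ + 1) := by
    rw [← hcx, ← Finset.add_sum_erase _ _ (Finset.mem_univ w₁),
      show ∀ a b e : modularFunctionFieldFullC k N, a * b + e - a = a * (b - 1) + e from
        fun a b e => by ring]
    refine add_mem (FF.mul_mem_ordGE _
      (FF.mem_ordGE_of_le_ord _ (hn w₁ hw₁ _ w₁.2).ge) (hh1 w₁)) (sum_mem fun w hw => ?_)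
    rcases eq_or_ne (c w) 0 with h0 | h0
    · simp [h0]
    refine FF.mul_mem_ordGE _ (FF.mem_ordGE_of_le_ord _ ?_)
      (hh0 w w₁.1 w₁.2 fun h => (Finset.mem_erase.mp hw).1 (Subtype.ext h.symm))
    rw [hn w h0 _ w₁.2]
    exact hmin w (Finset.mem_filter.mpr ⟨Finset.mem_univ _, h0⟩)
  have hxord : w₁.1.ord x = n w₁ := by
    rw [← hn w₁ hw₁ _ w₁.2]
    exact (FF.ord_eq_of_sub_mem _ hc1 (by rwa [hn w₁ hw₁ _ w₁.2])).2
  have hxne : x ≠ 0 := fun h0 => by
    rw [h0, zero_sub] at hx
    rw [neg_mem_iff, FF.mem_ordGE_of_ne_zero _ hc1, hn w₁ hw₁ _ w₁.2] at hx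
    omega
  refine ⟨fun h0 => absurd h0 hxne, fun hreg w v hv => ?_⟩
  rcases eq_or_ne (c w) 0 with h0 | h0
  · simp [h0]
  refine FF.mem_ordGE_of_le_ord _ ?_
  rw [hn w h0 v hv]
  refine le_trans ?_ (hmin w (Finset.mem_filter.mpr ⟨Finset.mem_univ _, h0⟩))
  rw [← hxord]
  exact (FF.mem_ordGE_of_ne_zero _ hxne).mp (hreg w₁.1 w₁.2)

include ι hP hB hQ in
/-- The trace to `k(t)` takes the sum of the values as its value. -/
theorem eval_trace (S : Finset (Place k (modularFunctionFieldFullC k N))) [Nonempty S]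
    (hmemS : ∀ v, v ∈ S ↔ 0 < v.ord (H.t - algebraMap k _ α))
    (h : S → modularFunctionFieldFullC k N) (hh1 : ∀ w : S, h w - 1 ∈ FF.ordGE w.1 1)
    (hh0 : ∀ (w : S) (v : Place k (modularFunctionFieldFullC k N)), v ∈ S → v ≠ w.1 →
      h w ∈ FF.ordGE v 1)
    (B : Module.Basis S k⟮H.t⟯ (modularFunctionFieldFullC k N)) (hBh : ∀ w, B w = h w)
    (x : modularFunctionFieldFullC k N) (q : k[X]) (m : ℕ)
    (hq : ((Algebra.trace k⟮H.t⟯ (modularFunctionFieldFullC k N) x : k⟮H.t⟯) :
        modularFunctionFieldFullC k N) * aeval H.t H.Q ^ m = aeval H.t q)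
    (val : S → k) (hvalx : ∀ w, x - algebraMap k _ (val w) ∈ FF.ordGE w.1 1) :
    q.eval α = (∑ w, val w) * H.Q.eval α ^ m := by
  classical
  have hone : ∀ v ∈ S, v.ord (H.t - algebraMap k _ α) = 1 := fun v hv =>
    H.ord_sub_eq_one ι hP hB hQ v ((hmemS v).mp hv)
  have hord : ∀ r ∈ k⟮H.t⟯, r ≠ 0 → ∃ n : ℤ, ∀ v ∈ S, v.ord r = n := fun r hr hr0 => by
    obtain ⟨n, hn⟩ := H.exists_ord_line ι hP hB hQ hr hr0
    exact ⟨n, fun v hv => hn v ((hmemS v).mp hv)⟩
  have hhreg : ∀ (w : S) (v : Place k (modularFunctionFieldFullC k N)), v ∈ S →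
      h w ∈ FF.ordGE v 0 := fun w v hv => by
    rcases eq_or_ne v w.1 with rfl | hne
    · have := add_mem (FF.ordGE_antitone _ zero_le_one (hh1 w)) (FF.one_mem_ordGE_zero w.1)
      simpa using this
    · exact FF.ordGE_antitone _ zero_le_one (hh0 w v hv hne)
  set M := Algebra.leftMulMatrix B x with hM
  rw [Algebra.trace_eq_matrix_trace B x, ← hM] at hq
  have hrow : ∀ w, ∑ u, (M u w : modularFunctionFieldFullC k N) * h u = x * h w := by
    intro w
    have h1 := B.sum_repr (x * h w)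
    refine Eq.trans (Finset.sum_congr rfl fun u _ => ?_) h1
    rw [Algebra.smul_def, hM, Algebra.leftMulMatrix_eq_repr_mul, hBh, hBh]
    rfl
  have hxreg : ∀ v ∈ S, x ∈ FF.ordGE v 0 := fun v hv => by
    have := add_mem (FF.ordGE_antitone v zero_le_one (hvalx ⟨v, hv⟩))
      (FF.algebraMap_mem_ordGE_zero v (val ⟨v, hv⟩))
    simpa using this
  have hreg : ∀ u w : S, ∀ v ∈ S, (M u w : modularFunctionFieldFullC k N) ∈ FF.ordGE v 0 :=
    fun u w => (H.comb_regular ι hP hB hQ S hmemS h hh1 hh0 (fun u => M u w) _ (hrow w)).2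
      (fun v hv => by simpa using FF.mul_mem_ordGE v (hxreg v hv) (hhreg w v hv)) u
  -- a diagonal entry takes the value of `x` at its own point, hence everywhere
  have hdiag : ∀ w : S, ∀ v ∈ S,
      (M w w : modularFunctionFieldFullC k N) - algebraMap k _ (val w) ∈ FF.ordGE v 1 := by
    intro w v hv
    have hself : (M w w : modularFunctionFieldFullC k N) - algebraMap k _ (val w) ∈
        FF.ordGE w.1 1 := by
      have e : (M w w : modularFunctionFieldFullC k N) - algebraMap k _ (val w) =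
          (x - algebraMap k _ (val w)) + x * (h w - 1) -
            (M w w : modularFunctionFieldFullC k N) * (h w - 1) -
            ∑ u ∈ Finset.univ.erase w, (M u w : modularFunctionFieldFullC k N) * h u := by
        have h1 := hrow w
        rw [← Finset.add_sum_erase _ _ (Finset.mem_univ w)] at h1
        linear_combination h1
      rw [e]
      refine sub_mem (sub_mem (add_mem (hvalx w) ?_) ?_) (sum_mem fun u hu => ?_)
      · simpa using FF.mul_mem_ordGE _ (hxreg _ w.2) (hh1 w)
      · simpa using FF.mul_mem_ordGE _ (hreg w w _ w.2) (hh1 w)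
      · simpa using FF.mul_mem_ordGE _ (hreg u w _ w.2)
          (hh0 u w.1 w.2 fun h => (Finset.mem_erase.mp hu).1 (Subtype.ext h.symm))
    rcases eq_or_ne ((M w w : modularFunctionFieldFullC k N) - algebraMap k _ (val w)) 0 with
      h0 | h0
    · rw [h0]; exact zero_mem _
    obtain ⟨n, hn⟩ := hord _ (sub_mem (M w w).2 (k⟮H.t⟯.algebraMap_mem _)) h0
    rw [FF.mem_ordGE_of_ne_zero _ h0, hn v hv]
    rw [FF.mem_ordGE_of_ne_zero _ h0, hn _ w.2] at hself
    exact hself
  obtain ⟨v⟩ := (inferInstance : Nonempty S)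
  have hv' := (hmemS _).mp v.2
  have hpoly : ∀ r : k[X], aeval H.t r - algebraMap k _ (r.eval α) ∈ FF.ordGE v.1 1 := by
    intro r
    obtain ⟨r', hr'⟩ := Polynomial.X_sub_C_dvd_sub_C_eval (a := α) (p := r)
    have h1 := congrArg (aeval H.t) hr'
    rw [map_sub, aeval_C, map_mul, map_sub, aeval_X, aeval_C] at h1
    rw [h1]
    have h2 : aeval H.t r' ∈ FF.ordGE v.1 0 := by
      rcases eq_or_ne r' 0 with rfl | h0
      · simp
      refine FF.mem_ordGE_of_le_ord _ ?_
      rw [H.ord_aeval_over _ hv' h0, hone _ v.2]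
      simp
    simpa using FF.mul_mem_ordGE v.1
      (FF.mem_ordGE_of_le_ord v.1 (hone _ v.2).ge) h2
  have hr : ((M.trace : k⟮H.t⟯) : modularFunctionFieldFullC k N) -
      algebraMap k _ (∑ w, val w) ∈ FF.ordGE v.1 1 := by
    rw [Matrix.trace, AddSubmonoidClass.coe_finsetSum, map_sum, ← Finset.sum_sub_distrib]
    exact sum_mem fun w _ => hdiag w v.1 v.2
  have htr0 : ((M.trace : k⟮H.t⟯) : modularFunctionFieldFullC k N) ∈ FF.ordGE v.1 0 := by
    rw [Matrix.trace, AddSubmonoidClass.coe_finsetSum]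
    exact sum_mem fun w _ => hreg w w v.1 v.2
  generalize ((M.trace : k⟮H.t⟯) : modularFunctionFieldFullC k N) = T at hq hr htr0
  have hz : algebraMap k (modularFunctionFieldFullC k N)
      (q.eval α - (∑ w, val w) * (H.Q ^ m).eval α) ∈ FF.ordGE v.1 1 := by
    have e : algebraMap k (modularFunctionFieldFullC k N)
        (q.eval α - (∑ w, val w) * (H.Q ^ m).eval α) =
        (T - algebraMap k _ (∑ w, val w)) * algebraMap k _ ((H.Q ^ m).eval α) +
          T * (aeval H.t (H.Q ^ m) - algebraMap k _ ((H.Q ^ m).eval α)) -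
          (aeval H.t q - algebraMap k _ (q.eval α)) := by
      rw [map_sub, map_mul, map_pow (aeval H.t) H.Q m, ← hq]
      ring
    rw [e]
    exact sub_mem (add_mem (FF.mul_mem_ordGE (m := 1) (n := 0) v.1 hr
        (FF.algebraMap_mem_ordGE_zero v.1 _))
      (FF.mul_mem_ordGE (m := 0) (n := 1) v.1 htr0 (hpoly (H.Q ^ m)))) (hpoly q)
  by_contra hne
  rw [← eval_pow] at hne
  rw [FF.mem_ordGE_of_ne_zero _ ((_root_.map_ne_zero _).mpr (sub_ne_zero.mpr hne)),
    FF.ord_algebraMap] at hz
  omega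

include ι hπ hP hB hQ in
/-- A singular matrix of fibre sums gives a combination vanishing on the fibre. -/
theorem exists_vanishing {d : ℕ} (hd : d = (H.fibre π hπ).card)
    (b : Fin d → modularFunctionFieldFullC k N) (hb : ∀ j, RegFin (b j))
    (p : Matrix (Fin d) (Fin d) k[X]) (m : ℕ)
    (hp : ∀ i j, (∑ a ∈ H.fibre π hπ, sig π hπ a (b i * b j)) *
      sig π hπ cst0 (aeval H.t H.Q) ^ m = sig π hπ cst0 (aeval H.t (p i j)))
    (hsing : (p.map (Polynomial.eval α)).det = 0) :
    ∃ c : Fin d → k, c ≠ 0 ∧ ∀ v : Place k (modularFunctionFieldFullC k N),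
      0 < v.ord (H.t - algebraMap k _ α) →
        ∑ j, algebraMap k _ (c j) * b j ∈ FF.ordGE v 1 := by
  classical
  have := isFunctionField_level (k := k) (natCast_level_ne_zero π hπ)
  have htr := H.transcendental_t π hπ
  set f := H.t - algebraMap k (modularFunctionFieldFullC k N) α with hf
  have htrf : Transcendental k f⁻¹ := fun h => by
    have h1 := h.inv
    rw [inv_inv] at h1
    exact htr (by simpa [hf] using h1.add (isAlgebraic_algebraMap α))
  have hf0 : f ≠ 0 := fun h => htrf (by rw [h, inv_zero]; exact isAlgebraic_zero)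
  set S := (FF.finite_setOf_ord_pos (K := k) f).toFinset with hS
  have hmemS : ∀ v, v ∈ S ↔ 0 < v.ord f := fun v => Set.Finite.mem_toFinset _
  have hone : ∀ v ∈ S, v.ord f = 1 := fun v hv =>
    H.ord_sub_eq_one ι hP hB hQ v ((hmemS v).mp hv)
  -- the number of points
  have hline : k⟮f⁻¹⟯ = k⟮H.t⟯ := by
    refine le_antisymm (adjoin_simple_le_iff.mpr (inv_mem (sub_mem (mem_adjoin_simple_self k _)
      (k⟮H.t⟯.algebraMap_mem α)))) (adjoin_simple_le_iff.mpr ?_)
    have h1 := add_mem (inv_mem (mem_adjoin_simple_self k f⁻¹)) (k⟮f⁻¹⟯.algebraMap_mem α)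
    rw [inv_inv] at h1
    simpa [hf] using h1
  have hfin : Module.finrank k⟮H.t⟯ (modularFunctionFieldFullC k N) = S.card := by
    have h1 := FF.degree_poleDiv htrf
    rw [hline] at h1
    have h2 : FF.poleDiv k f⁻¹ = ∑ v ∈ S, Finsupp.single v 1 := by
      ext v
      rw [FF.poleDiv_apply, v.ord_inv, neg_neg, Finsupp.finsetSum_apply]
      simp only [Finsupp.single_apply, Finset.sum_ite_eq']
      split_ifs with hv
      · rw [hone v hv]; rfl
      · exact max_eq_right (not_lt.mp fun h => hv ((hmemS v).mpr h))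
    rw [h2, map_sum, Finset.sum_congr rfl fun v _ => by
      rw [Divisor.degree_single, FF.deg_eq_one, Nat.cast_one, mul_one]] at h1
    simp at h1
    exact h1.symm
  -- functions with prescribed values on the fibre
  choose h hh using fun w : S =>
    FF.exists_almost_one (w : Place k (modularFunctionFieldFullC k N)) S 1
  have hh1 : ∀ w : S, h w - 1 ∈ FF.ordGE w.1 1 := fun w => by simpa using (hh w).1
  have hh0 : ∀ (w : S) (v : Place k (modularFunctionFieldFullC k N)), v ∈ S → v ≠ w.1 →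
      h w ∈ FF.ordGE v 1 := fun w v hv hne => by simpa using (hh w).2 v hv hne
  have hli : LinearIndependent k⟮H.t⟯ h := by
    rw [Fintype.linearIndependent_iff]
    intro c hc w
    refine congrFun ((H.comb_regular ι hP hB hQ S hmemS h hh1 hh0 c 0 ?_).1 rfl) w
    rw [← hc]
    refine Finset.sum_congr rfl fun i _ => ?_
    rw [Algebra.smul_def]
    rfl
  have : Nonempty S := by
    have hd0 : 0 < S.card := by
      rw [← hfin, ← (H.card_fibre_and_trace π hπ).1]
      exact Finset.card_pos.mpr ⟨_, H.cst0_mem_fibre π hπ⟩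
    exact (Finset.card_pos.mp hd0).to_subtype
  let B := basisOfLinearIndependentOfCardEqFinrank hli (by rw [Fintype.card_coe, hfin])
  -- values on the fibre
  have hval : ∀ x : modularFunctionFieldFullC k N, RegFin x → ∀ w : S,
      ∃ a : k, x - algebraMap k _ a ∈ FF.ordGE w.1 1 := by
    intro x hx w
    refine FF.exists_sub_algebraMap_mem w.1 ?_
    have hjm : jC k N ∈ w.1.toValuationSubring := by
      have hv := (hmemS _).mp w.2
      refine (FF.mem_toValuationSubring_iff_ord _ fun h0 : jC k N = 0 =>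
        jC_notMem_cuspPlace π hπ cst0 (h0 ▸ zero_mem _)).mpr ?_
      rw [H.jC_eq]
      rcases eq_or_ne (aeval H.t H.P) 0 with h0 | h0
      · rw [h0, zero_div, w.1.ord_zero]
      · rw [FF.ord_div _ h0 H.Q_ne_zero, H.ord_aeval_over _ hv H.monicP.ne_zero,
          H.ord_aeval_over _ hv H.monicQ.ne_zero, Polynomial.rootMultiplicity_eq_zero hQ,
          hone _ w.2]
        simp
    have hxm := hx.mem_place w.1 hjm
    rcases eq_or_ne x 0 with rfl | hx0
    · exact zero_mem _
    · exact FF.mem_ordGE_of_le_ord _ (FF.ord_nonneg_of_mem _ hxm)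
  choose W hW using fun j => hval (b j) (hb j)
  have hGram : p.map (Polynomial.eval α) =
      (H.Q.eval α ^ m) •
        ((Matrix.of fun j w => W j w) * (Matrix.of fun j w => W j w).transpose) := by
    refine Matrix.ext fun i j => ?_
    have hq : ((Algebra.trace k⟮H.t⟯ (modularFunctionFieldFullC k N) (b i * b j) : k⟮H.t⟯) :
        modularFunctionFieldFullC k N) * aeval H.t H.Q ^ m = aeval H.t (p i j) :=
      (sig π hπ cst0).injective (by rw [map_mul, map_pow, H.trace_fibre π hπ]; exact hp i j)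
    rw [Matrix.map_apply, H.eval_trace ι hP hB hQ S hmemS h hh1 hh0 B
      (fun w => by simp [B]) (b i * b j) (p i j) m hq (fun w => W i w * W j w) fun w => ?_,
      Matrix.smul_apply, Matrix.mul_apply, smul_eq_mul, mul_comm]
    · rfl
    · have e : b i * b j - algebraMap k _ (W i w * W j w) = (b i - algebraMap k _ (W i w)) * b j +
          algebraMap k _ (W i w) * (b j - algebraMap k _ (W j w)) := by rw [map_mul]; ring
      rw [e]
      have hbj : b j ∈ FF.ordGE w.1 0 := by
        have := add_mem (FF.ordGE_antitone _ zero_le_one (hW j w))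
          (FF.algebraMap_mem_ordGE_zero w.1 (W j w))
        simpa using this
      exact add_mem (by simpa using FF.mul_mem_ordGE _ (hW i w) hbj)
        (by simpa using FF.mul_mem_ordGE _ (FF.algebraMap_mem_ordGE_zero w.1 (W i w)) (hW j w))
  let eS : Fin d ≃ S := (Fintype.equivFinOfCardEq (by
    rw [Fintype.card_coe, ← hfin, ← (H.card_fibre_and_trace π hπ).1, hd])).symm
  set W' : Matrix (Fin d) (Fin d) k := Matrix.of fun j w => W j (eS w) with hW'
  have hW'' : (Matrix.of fun j w => W j w) * (Matrix.of fun j w => W j w).transpose =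
      W' * W'.transpose := by
    refine Matrix.ext fun i j => ?_
    rw [Matrix.mul_apply, Matrix.mul_apply]
    exact (Equiv.sum_comp eS fun w => W i w * W j w).symm
  rw [hGram, hW'', Matrix.det_smul, Matrix.det_mul, Matrix.det_transpose, mul_eq_zero,
    mul_self_eq_zero] at hsing
  have hdet := hsing.resolve_left (pow_ne_zero _ (pow_ne_zero _ hQ))
  obtain ⟨c, hc, hcW⟩ := Matrix.exists_vecMul_eq_zero_iff.mpr hdet
  refine ⟨c, hc, fun v hv => ?_⟩
  set w := eS.symm ⟨v, (hmemS v).mpr hv⟩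
  have hvw : (eS w).1 = v := by simp [w]
  have h0 : ∑ j, c j * W j (eS w) = 0 := congrFun hcW w
  have e : ∑ j, algebraMap k (modularFunctionFieldFullC k N) (c j) * b j =
      ∑ j, algebraMap k _ (c j) * (b j - algebraMap k _ (W j (eS w))) := by
    simp only [mul_sub, Finset.sum_sub_distrib, ← map_mul, ← map_sum, h0, map_zero, sub_zero]
  rw [e, ← hvw]
  exact sum_mem fun j _ => by
    simpa using FF.mul_mem_ordGE _ (FF.algebraMap_mem_ordGE_zero _ (c j)) (hW j (eS w))

end HData

end Fermat.Agent.Reduction.Level
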