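import Fermat.Agent.Reduction.Level.Emb

/-!
# Elements integral over `k[j]`

`RegFin x` says that `x` is integral over `k[j]`. The minimal polynomial over `k(j)` of any
element splits over the series in `q^(1/N)` with roots among the conjugates `sig i x`.
-/

set_option autoImplicit false

noncomputable section

open scoped MatrixGroups
open Polynomial ModularCurve IntermediateField Fermat.Agent.Igusa

namespace Fermat.Agent.Reduction.Level

variable (k : Type*) [Field k] (N : ℕ)

/-- `k[j] → k(X₀(N))`. -/
def evC : k[X] →+* modularFunctionFieldFullC k N :=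
  (aeval (jC k N) : k[X] →ₐ[k] modularFunctionFieldFullC k N).toRingHom

theorem evC_apply (p : k[X]) : evC k N p = aeval (jC k N) p := rfl

theorem coe_evC (p : k[X]) :
    ((evC k N p : modularFunctionFieldFullC k N) : LaurentSeries k) = evq k p := by
  rw [evC_apply, evq, Polynomial.coe_eval₂RingHom, aeval_def]
  refine (Polynomial.hom_eval₂ p _ (modularFunctionFieldFullC k N).val.toRingHom (jC k N)).trans ?_
  congr 1
  refine RingHom.ext fun c => ?_
  rw [HahnSeries.C_apply, ← algebraMap_laurentSeries_eq_single]
  rfl

theorem evC_injective : Function.Injective (evC k N) := fun p q h =>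
  evq_injective k (by rw [← coe_evC k N, ← coe_evC k N, h])

variable {k N}

/-- `x` is regular where `j` is finite. -/
def RegFin (x : modularFunctionFieldFullC k N) : Prop := (evC k N).IsIntegralElem x

theorem regFin_evC (p : k[X]) : RegFin (evC k N p) := (evC k N).isIntegralElem_map

theorem RegFin.add {x y : modularFunctionFieldFullC k N} (hx : RegFin x) (hy : RegFin y) :
    RegFin (x + y) := RingHom.IsIntegralElem.add _ hx hy

theorem RegFin.mul {x y : modularFunctionFieldFullC k N} (hx : RegFin x) (hy : RegFin y) :
    RegFin (x * y) := RingHom.IsIntegralElem.mul _ hx hy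

theorem RegFin.sub {x y : modularFunctionFieldFullC k N} (hx : RegFin x) (hy : RegFin y) :
    RegFin (x - y) := RingHom.IsIntegralElem.sub _ hx hy

theorem RegFin.pow {x : modularFunctionFieldFullC k N} (hx : RegFin x) (n : ℕ) :
    RegFin (x ^ n) := by
  induction n with
  | zero => simpa using regFin_evC (k := k) (N := N) 1
  | succ n ih => rw [pow_succ]; exact ih.mul hx

theorem regFin_algebraMap (c : k) :
    RegFin (algebraMap k (modularFunctionFieldFullC k N) c) := by
  simpa [evC_apply] using regFin_evC (k := k) (N := N) (C c)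

theorem regFin_jC : RegFin (jC k N) := by
  simpa [evC_apply] using regFin_evC (k := k) (N := N) X

variable [NeZero N] [IsAlgClosed k] (π : Rz N →+* k) (hπ : IsPrimitiveRoot (π (zetaR N)) N)

include hπ

theorem sig_evC (i : Cst N) (p : k[X]) : sig π hπ i (evC k N p) = evJ k N p :=
  sig_aeval_jC π hπ i p

theorem RegFin.isIntegralElem_sig {x : modularFunctionFieldFullC k N} (hx : RegFin x) (i : Cst N) :
    (evJ k N).IsIntegralElem (sig π hπ i x) :=
  Level.isIntegralElem_sig π hπ hx i

/-- The minimal polynomial over `k(j)` splits in the conjugates. -/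
theorem exists_minpoly_eq_prod (x : modularFunctionFieldFullC k N) :
    ∃ s : Multiset (Cst N), (minpoly (baseC k N) x).map (baseHom k N) =
      (s.map fun i => X - C (sig π hπ i x)).prod := by
  have := finiteDimensional_fullC N (natCast_level_ne_zero π hπ) (k := k)
  have hint : IsIntegral (baseC k N) x := IsIntegral.of_finite _ x
  let Ω := AlgebraicClosure (LaurentSeries k)
  let ι : LaurentSeries k →+* Ω := algebraMap _ _
  let : Algebra (baseC k N) Ω := (ι.comp (baseHom k N)).toAlgebra
  set m := (minpoly (baseC k N) x).map (baseHom k N) with hm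
  have hmm : m.Monic := (minpoly.monic hint).map _
  have hroots : ∀ r ∈ (m.map ι).roots, ∃ i, ι (sig π hπ i x) = r := by
    intro r hr
    have hr' : r ∈ (minpoly (baseC k N) x).rootSet Ω := by
      rw [Polynomial.mem_rootSet_of_ne (minpoly.ne_zero hint)]
      have h := Polynomial.isRoot_of_mem_roots hr
      rw [Polynomial.IsRoot.def, hm, Polynomial.map_map, Polynomial.eval_map] at h
      rw [aeval_def, RingHom.algebraMap_toAlgebra]
      exact h
    rw [← Algebra.IsAlgebraic.range_eval_eq_rootSet_minpoly Ω x] at hr'
    obtain ⟨ψ, hψ⟩ := hr'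
    obtain ⟨i, hi⟩ := exists_sig_of_hom π hπ ι ψ.toRingHom fun b => by
      show ψ (algebraMap (baseC k N) _ b) = _
      rw [ψ.commutes, RingHom.algebraMap_toAlgebra]
      rfl
    exact ⟨i, by rw [← hψ, ← RingHom.comp_apply, ← hi]; rfl⟩
  choose! f hf using hroots
  refine ⟨(m.map ι).roots.map f, Polynomial.map_injective ι ι.injective ?_⟩
  conv_lhs => rw [(IsAlgClosed.splits (m.map ι)).eq_prod_roots_of_monic (hmm.map ι)]
  rw [Polynomial.map_multiset_prod, Multiset.map_map, Multiset.map_map]
  congr 1
  refine Multiset.map_congr rfl fun r hr => ?_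
  simp [hf r hr]

/-- Coefficients of the minimal polynomial lie in any ring containing all conjugates. -/
theorem baseHom_coeff_minpoly_mem {x : modularFunctionFieldFullC k N}
    (S : Subring (LaurentSeries k)) (h : ∀ i, sig π hπ i x ∈ S) (n : ℕ) :
    baseHom k N ((minpoly (baseC k N) x).coeff n) ∈ S := by
  obtain ⟨s, hs⟩ := exists_minpoly_eq_prod π hπ x
  have : ((s.map fun i => X - C (⟨_, h i⟩ : S)).prod.map S.subtype) =
      (minpoly (baseC k N) x).map (baseHom k N) := by
    rw [hs, Polynomial.map_multiset_prod, Multiset.map_map]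
    congr 1
    refine Multiset.map_congr rfl fun i _ => ?_
    simp
  rw [← Polynomial.coeff_map, ← this, Polynomial.coeff_map]
  exact Subtype.prop _

/-- A regular element is killed by a monic polynomial over `k[j]` whose coefficients lie in any
ring containing its conjugates. -/
theorem RegFin.exists_monic {x : modularFunctionFieldFullC k N} (hx : RegFin x) :
    ∃ m : (k[X])[X], m.Monic ∧ m.eval₂ (evC k N) x = 0 ∧
      ∀ S : Subring (LaurentSeries k), (∀ i, sig π hπ i x ∈ S) → ∀ n, evJ k N (m.coeff n) ∈ S := by
  have := finiteDimensional_fullC N (natCast_level_ne_zero π hπ) (k := k)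
  have hint : IsIntegral (baseC k N) x := IsIntegral.of_finite _ x
  let T : Subring (LaurentSeries k) :=
    letI := (evJ k N).toAlgebra
    (integralClosure k[X] (LaurentSeries k)).toSubring
  have hT : ∀ n, ∃ p : k[X], toBase k N (algebraMap _ _ p) = (minpoly (baseC k N) x).coeff n := by
    intro n
    obtain ⟨z, hz⟩ := toBase_surjective k N ((minpoly (baseC k N) x).coeff n)
    have h1 : baseHom k N ((minpoly (baseC k N) x).coeff n) ∈ T :=
      baseHom_coeff_minpoly_mem π hπ T (fun i => hx.isIntegralElem_sig π hπ i) n
    rw [← hz, baseHom_toBase_apply] at h1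
    obtain ⟨p, hp⟩ := exists_polynomial_of_isIntegral (N := N) (z := z) h1
    exact ⟨p, by rw [hp, hz]⟩
  have hlift : minpoly (baseC k N) x ∈ Polynomial.lifts
      ((toBase k N).comp (algebraMap k[X] (Kj k))) :=
    (Polynomial.lifts_iff_coeff_lifts _).mpr fun n => (hT n).imp fun p hp => hp
  obtain ⟨m, hm, -, hmm⟩ := Polynomial.lifts_and_natDegree_eq_and_monic hlift (minpoly.monic hint)
  have hev : (algebraMap (baseC k N) (modularFunctionFieldFullC k N)).comp
      ((toBase k N).comp (algebraMap k[X] (Kj k))) = evC k N := by
    refine RingHom.ext fun p => inclN_injective k N ?_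
    rw [show inclN k N (evC k N p) = evJ k N p by rw [← sig_cst0 π hπ, sig_evC],
      ← phiJ_algebraMap, ← baseHom_toBase_apply]
    rfl
  refine ⟨m, hmm, ?_, fun S hS n => ?_⟩
  · rw [← hev, ← Polynomial.eval₂_map, hm]
    exact minpoly.aeval _ _
  · rw [show evJ k N (m.coeff n) = baseHom k N ((minpoly (baseC k N) x).coeff n) by
      rw [← hm, Polynomial.coeff_map, RingHom.comp_apply, baseHom_toBase_apply, phiJ_algebraMap]]
    exact baseHom_coeff_minpoly_mem π hπ S hS n

end Fermat.Agent.Reduction.Level
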