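import Fermat.Agent.Reduction.Level.Places

/-!
# The level `N` field over the line of a function `t` with `j = P(t)/Q(t)`

`fibre` is the set of conjugate embeddings extending the identity of `k(t)`; sums over it are
traces to `k(t)`, and of elements integral over `k[j]` they are `p(t)/Q(t)^m`.
-/

set_option autoImplicit false

noncomputable section

open Polynomial ModularCurve IntermediateField AlgebraicCurve Fermat.Agent.Igusa

attribute [-instance] IsScalarTower.of_algHom

namespace Fermat.Agent.Reduction.Level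

theorem ord_aeval_of_neg {k F : Type*} [Field k] [Field F] [Algebra k F] (v : Place k F) {x : F}
    (hv : v.ord x < 0) {p : k[X]} (hp : p ≠ 0) : v.ord (aeval x p) = p.natDegree * v.ord x := by
  induction hd : p.natDegree using Nat.strong_induction_on generalizing p with
  | _ d ih =>
    have hx0 : x ≠ 0 := fun h => by rw [h, v.ord_zero] at hv; exact lt_irrefl _ hv
    have hsplit : aeval x p = aeval x p.eraseLead +
        algebraMap k F p.leadingCoeff * x ^ p.natDegree := by
      conv_lhs => rw [← Polynomial.eraseLead_add_C_mul_X_pow p]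
      rw [map_add, map_mul, map_pow, aeval_C, aeval_X]
    have hc : algebraMap k F p.leadingCoeff ≠ 0 :=
      (_root_.map_ne_zero _).mpr (leadingCoeff_ne_zero.mpr hp)
    have htop : v.ord (algebraMap k F p.leadingCoeff * x ^ p.natDegree) = d * v.ord x := by
      rw [v.ord_mul hc (pow_ne_zero _ hx0), FF.ord_algebraMap, FF.ord_pow, zero_add, hd]
    rw [hsplit, FF.ord_add_eq_right v (mul_ne_zero hc (pow_ne_zero _ hx0)) ?_, htop]
    rcases eq_or_ne p.eraseLead 0 with h0 | h0
    · exact Or.inl (by rw [h0, map_zero])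
    · refine Or.inr ?_
      have hlt : p.eraseLead.natDegree < d :=
        hd ▸ (Polynomial.eraseLead_natDegree_lt_or_eraseLead_eq_zero p).resolve_right h0
      rw [htop, ih _ hlt h0 rfl]
      exact mul_lt_mul_of_neg_right (by exact_mod_cast hlt) hv

variable (k : Type*) [Field k] (N : ℕ) [NeZero N]

/-- A shortcut: instance search for the action of the constants on series is slow. -/
local instance mulActionConstSeries : MulAction k (LaurentSeries k) := inferInstance

/-- A function `t` with `j = P(t)/Q(t)`. -/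
structure HData where
  /-- the function -/
  t : modularFunctionFieldFullC k N
  /-- the numerator of `j` -/
  P : k[X]
  /-- the denominator of `j` -/
  Q : k[X]
  /-- Bezout coefficient of `P` -/
  a : k[X]
  /-- Bezout coefficient of `Q` -/
  b : k[X]
  /-- the Bezout constant -/
  c : k
  hc : c ≠ 0
  hrel : jC k N * aeval t Q = aeval t P
  hab : a * P + b * Q = C c
  monicP : P.Monic
  monicQ : Q.Monic
  deg_lt : Q.natDegree < P.natDegree

variable {k N}

/-- Intermediate fields `E ≤ F` of `L` form a tower under `L`. Stated for abstract fields: the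
kernel is slow to check this on the function field itself. -/
private theorem inclusion_tower {K L : Type*} [Field K] [Field L] [Algebra K L]
    {E F : IntermediateField K L} (h : E ≤ F) :
    letI := (IntermediateField.inclusion h).toRingHom.toAlgebra
    IsScalarTower E F L :=
  let := (IntermediateField.inclusion h).toRingHom.toAlgebra
  IsScalarTower.of_algebraMap_eq fun _ => rfl

namespace HData

variable (H : HData k N)

omit [NeZero N] in
theorem Q_ne_zero : aeval H.t H.Q ≠ 0 := fun h => H.hc (by
  have h1 := congrArg (aeval H.t) H.hab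
  rw [map_add, map_mul, map_mul, ← H.hrel, h] at h1
  simpa using h1.symm)

omit [NeZero N] in
theorem jC_eq : jC k N = aeval H.t H.P / aeval H.t H.Q := by
  rw [eq_div_iff H.Q_ne_zero, H.hrel]

omit [NeZero N] in
theorem inv_Q_eq : (aeval H.t H.Q)⁻¹ =
    algebraMap k _ H.c⁻¹ * (aeval H.t H.a * jC k N + aeval H.t H.b) := by
  have h1 := congrArg (aeval H.t) H.hab
  rw [map_add, map_mul, map_mul, ← H.hrel, aeval_C] at h1
  refine inv_eq_of_mul_eq_one_right ?_
  have h2 : algebraMap k (modularFunctionFieldFullC k N) H.c⁻¹ *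
      algebraMap k (modularFunctionFieldFullC k N) H.c = 1 := by
    rw [← map_mul, inv_mul_cancel₀ H.hc, map_one]
  linear_combination algebraMap k (modularFunctionFieldFullC k N) H.c⁻¹ * h1 + h2

omit [NeZero N] in
theorem regFin_t : RegFin H.t := by
  refine ⟨H.P.map C - C (X : k[X]) * H.Q.map C, (H.monicP.map _).sub_of_left ?_, ?_⟩
  · rw [Polynomial.degree_map_eq_of_injective C_injective]
    refine lt_of_le_of_lt (Polynomial.degree_mul_le _ _) ?_
    rw [Polynomial.degree_C X_ne_zero, zero_add,
      Polynomial.degree_map_eq_of_injective C_injective]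
    exact Polynomial.degree_lt_degree H.deg_lt
  · have hev : ∀ p : k[X], (p.map C).eval₂ (evC k N) H.t = aeval H.t p := fun p => by
      rw [Polynomial.eval₂_map, aeval_def]
      refine congrArg (fun f => p.eval₂ f H.t) (RingHom.ext fun c => ?_)
      rw [RingHom.comp_apply, evC_apply, aeval_C]
    rw [Polynomial.eval₂_sub, Polynomial.eval₂_mul, Polynomial.eval₂_C, hev, hev, evC_apply,
      aeval_X, H.hrel, sub_self]

omit [NeZero N] in
theorem regFin_aeval (p : k[X]) : RegFin (aeval H.t p) := by
  induction p using Polynomial.induction_on' with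
  | add p q hp hq => rw [map_add]; exact hp.add hq
  | monomial n c =>
    rw [aeval_monomial]
    exact (regFin_algebraMap c).mul (H.regFin_t.pow n)

omit [NeZero N] in
theorem regFin_inv_Q : RegFin (aeval H.t H.Q)⁻¹ := by
  rw [H.inv_Q_eq]
  exact (regFin_algebraMap _).mul (((H.regFin_aeval _).mul regFin_jC).add (H.regFin_aeval _))

variable [IsAlgClosed k] (π : Rz N →+* k) (hπ : IsPrimitiveRoot (π (zetaR N)) N)

include π hπ in
theorem transcendental_t : Transcendental k H.t := by
  intro h
  have hint := h.isIntegral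
  obtain ⟨c, hc⟩ : ∃ c : k, algebraMap k _ c = H.t := by
    have h1 : (minpoly k H.t).natDegree = 1 :=
      Polynomial.natDegree_eq_of_degree_eq_some
        (IsAlgClosed.degree_eq_one_of_irreducible k (minpoly.irreducible hint))
    exact (minpoly.natDegree_eq_one_iff.mp h1)
  apply jC_notMem_cuspPlace π hπ cst0
  rw [H.jC_eq, ← hc, aeval_algebraMap_apply, aeval_algebraMap_apply, ← map_div₀]
  exact (cuspPlace π hπ cst0).algebraMap_mem' _

omit [IsAlgClosed k] [NeZero N] in
/-- The pole divisor of `j = P(t)/Q(t)`: `deg P` times that of `t` plus the divisor of `Q(t)`. -/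
theorem poleDiv_jC [FF.IsFunctionField k (modularFunctionFieldFullC k N)] :
    FF.poleDiv k (jC k N) = (H.P.natDegree : ℤ) • FF.poleDiv k H.t +
      FF.divOf k (aeval H.t H.Q) := by
  ext v
  rw [Finsupp.add_apply, Finsupp.smul_apply, FF.poleDiv_apply, FF.poleDiv_apply, FF.divOf_apply,
    smul_eq_mul]
  have hq := H.Q_ne_zero
  rcases lt_or_ge (v.ord H.t) 0 with ht | ht
  · have hP : aeval H.t H.P ≠ 0 := fun h => by
      have := ord_aeval_of_neg v ht H.monicP.ne_zero
      rw [h, v.ord_zero] at this
      have hpos : (0 : ℤ) < H.P.natDegree := by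
        exact_mod_cast lt_of_le_of_lt (Nat.zero_le _) H.deg_lt
      nlinarith
    rw [H.jC_eq, FF.ord_div v hP hq, ord_aeval_of_neg v ht H.monicP.ne_zero,
      ord_aeval_of_neg v ht H.monicQ.ne_zero]
    have hlt : (H.Q.natDegree : ℤ) < H.P.natDegree := by exact_mod_cast H.deg_lt
    rw [max_eq_left (a := -v.ord H.t) (by omega), max_eq_left (by nlinarith)]
    ring
  · rw [max_eq_right (a := -v.ord H.t) (by omega), mul_zero, zero_add]
    have hmem : H.t ∈ v.toValuationSubring := by
      rcases eq_or_ne H.t 0 with h0 | h0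
      · rw [h0]; exact zero_mem _
      · exact (FF.mem_toValuationSubring_iff_ord v h0).mpr ht
    have hev := fun p => FF.aeval_mem_of_mem v.algebraMap_mem' hmem p
    have hQn : 0 ≤ v.ord (aeval H.t H.Q) := FF.ord_nonneg_of_mem v (hev _)
    rcases eq_or_ne (aeval H.t H.P) 0 with hP | hP
    · rw [H.jC_eq, hP, zero_div, v.ord_zero, neg_zero, max_self]
      have h1 := congrArg (aeval H.t) H.hab
      rw [map_add, map_mul, map_mul, hP, mul_zero, zero_add, aeval_C] at h1
      have hb : aeval H.t H.b ≠ 0 := fun h0 => by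
        rw [h0, zero_mul] at h1
        exact H.hc ((_root_.map_eq_zero _).mp h1.symm)
      have h2 := congrArg v.ord h1
      rw [v.ord_mul hb hq, FF.ord_algebraMap] at h2
      have := FF.ord_nonneg_of_mem v (hev H.b)
      omega
    rw [H.jC_eq, FF.ord_div v hP hq]
    have hPn : 0 ≤ v.ord (aeval H.t H.P) := FF.ord_nonneg_of_mem v (hev _)
    by_contra hne
    have hmin : 1 ≤ v.ord (aeval H.t H.P) ∧ 1 ≤ v.ord (aeval H.t H.Q) := by omega
    have h1 := congrArg (aeval H.t) H.hab
    rw [map_add, map_mul, map_mul, aeval_C] at h1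
    have hsum : algebraMap k (modularFunctionFieldFullC k N) H.c ∈ FF.ordGE v 1 := by
      rw [← h1]
      have hA := FF.mem_ordGE_of_le_ord v (FF.ord_nonneg_of_mem v (hev H.a))
      have hB := FF.mem_ordGE_of_le_ord v (FF.ord_nonneg_of_mem v (hev H.b))
      refine add_mem ?_ ?_
      · simpa using FF.mul_mem_ordGE v hA (FF.mem_ordGE_of_le_ord v hmin.1)
      · simpa using FF.mul_mem_ordGE v hB (FF.mem_ordGE_of_le_ord v hmin.2)
    rw [FF.mem_ordGE_of_ne_zero v ((_root_.map_ne_zero _).mpr H.hc), FF.ord_algebraMap] at hsum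
    omega

include π hπ in
theorem natDegree_mul_finrank :
    (H.P.natDegree : ℤ) * Module.finrank k⟮H.t⟯ (modularFunctionFieldFullC k N) = idx N := by
  have := isFunctionField_level (k := k) (natCast_level_ne_zero π hπ)
  have h1 := congrArg Divisor.degree H.poleDiv_jC
  rw [FF.degree_poleDiv (FF.transcendental_jC k N), map_add, map_zsmul, FF.degree_divOf, add_zero,
    FF.degree_poleDiv (H.transcendental_t π hπ), smul_eq_mul] at h1
  rw [← h1, finrank_fullC N (natCast_level_ne_zero π hπ)]

open Classical in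
/-- The conjugates over the identity of `k(t)`. -/
def fibre : Finset (Cst N) :=
  Finset.univ.filter fun i => sig π hπ i H.t = sig π hπ cst0 H.t

theorem mem_fibre {i : Cst N} : i ∈ H.fibre π hπ ↔ sig π hπ i H.t = sig π hπ cst0 H.t := by
  classical
  simp [fibre]

theorem cst0_mem_fibre : cst0 ∈ H.fibre π hπ := (H.mem_fibre π hπ).mpr rfl

theorem sig_eq_on_line {i : Cst N} (hi : i ∈ H.fibre π hπ)
    {x : modularFunctionFieldFullC k N} (hx : x ∈ k⟮H.t⟯) :
    sig π hπ i x = sig π hπ cst0 x := by
  induction hx using IntermediateField.adjoin_induction with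
  | mem y hy =>
    obtain rfl : y = H.t := hy
    exact (H.mem_fibre π hπ).mp hi
  | algebraMap c => rw [sig_algebraMap, sig_algebraMap]
  | add y z _ _ hy hz => rw [map_add, map_add, hy, hz]
  | inv y _ hy => rw [map_inv₀, map_inv₀, hy]
  | mul y z _ _ hy hz => rw [map_mul, map_mul, hy, hz]

omit [IsAlgClosed k] [NeZero N] in
theorem jC_mem_line : jC k N ∈ k⟮H.t⟯ := by
  rw [H.jC_eq]
  have h : ∀ p : k[X], aeval H.t p ∈ k⟮H.t⟯ := fun p =>
    IntermediateField.algebra_adjoin_le_adjoin k _ (aeval_mem_adjoin_singleton k H.t)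
  exact div_mem (h _) (h _)

/-- The fibre has the degree of the field over `k(t)`, and sums over it are traces. -/
theorem card_fibre_and_trace :
    (H.fibre π hπ).card = Module.finrank k⟮H.t⟯ (modularFunctionFieldFullC k N) ∧
      ∀ x : modularFunctionFieldFullC k N,
        sig π hπ cst0 (Algebra.trace k⟮H.t⟯ (modularFunctionFieldFullC k N) x :
          modularFunctionFieldFullC k N) = ∑ i ∈ H.fibre π hπ, sig π hπ i x := by
  classical
  have hN := natCast_level_ne_zero π hπ
  have := finiteDimensional_fullC N hN (k := k)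
  have := isSeparable_fullC N hN (k := k)
  have hle : baseC k N ≤ k⟮H.t⟯ := IntermediateField.adjoin_simple_le_iff.mpr H.jC_mem_line
  let : Algebra (baseC k N) k⟮H.t⟯ := (IntermediateField.inclusion hle).toRingHom.toAlgebra
  have : IsScalarTower (baseC k N) k⟮H.t⟯ (modularFunctionFieldFullC k N) :=
    inclusion_tower hle
  have : FiniteDimensional k⟮H.t⟯ (modularFunctionFieldFullC k N) :=
    FiniteDimensional.right (baseC k N) k⟮H.t⟯ _
  have : Algebra.IsSeparable k⟮H.t⟯ (modularFunctionFieldFullC k N) :=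
    Algebra.isSeparable_tower_top_of_isSeparable (baseC k N) k⟮H.t⟯ _
  let Ω := AlgebraicClosure (LaurentSeries k)
  let ι : LaurentSeries k →+* Ω := algebraMap _ Ω
  let : Algebra k⟮H.t⟯ Ω :=
    (ι.comp ((sig π hπ cst0).comp (algebraMap k⟮H.t⟯ (modularFunctionFieldFullC k N)))).toAlgebra
  let Φ : {i // i ∈ H.fibre π hπ} → (modularFunctionFieldFullC k N →ₐ[k⟮H.t⟯] Ω) := fun i =>
    { toRingHom := ι.comp (sig π hπ i.1)
      commutes' := fun e => congrArg ι (H.sig_eq_on_line π hπ i.2 e.2) }
  have hΦ : Function.Bijective Φ := by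
    refine ⟨fun i j h => Subtype.ext (sig_injective π hπ (RingHom.ext fun x => ι.injective
      (AlgHom.congr_fun h x))), fun σ => ?_⟩
    obtain ⟨i, hi⟩ := exists_sig_of_hom π hπ ι σ.toRingHom fun b => by
      have h1 := σ.commutes (⟨_, hle b.2⟩ : k⟮H.t⟯)
      refine h1.trans (congrArg ι ?_)
      rw [← sig_algebraMap_base π hπ cst0]
      rfl
    refine ⟨⟨i, (H.mem_fibre π hπ).mpr (ι.injective ?_)⟩, AlgHom.ext fun x =>
      (RingHom.congr_fun hi x).symm⟩
    have h1 := σ.commutes (⟨H.t, mem_adjoin_simple_self k H.t⟩ : k⟮H.t⟯)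
    exact ((RingHom.congr_fun hi H.t).symm.trans h1)
  refine ⟨?_, fun x => ?_⟩
  · rw [← AlgHom.card k⟮H.t⟯ (modularFunctionFieldFullC k N) Ω, ← Fintype.card_coe]
    exact Fintype.card_of_bijective hΦ
  · refine (ι.injective ?_).symm
    rw [map_sum, ← Finset.sum_coe_sort]
    refine ((Fintype.sum_bijective Φ hΦ _ (fun σ => σ x) fun i => rfl).trans ?_)
    exact (trace_eq_sum_embeddings Ω).symm

theorem trace_fibre (x : modularFunctionFieldFullC k N) :
    sig π hπ cst0 (Algebra.trace k⟮H.t⟯ (modularFunctionFieldFullC k N) x :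
      modularFunctionFieldFullC k N) = ∑ i ∈ H.fibre π hπ, sig π hπ i x :=
  (H.card_fibre_and_trace π hπ).2 x

theorem natDegree_mul_card_fibre :
    (H.P.natDegree : ℤ) * (H.fibre π hπ).card = idx N := by
  rw [(H.card_fibre_and_trace π hπ).1]
  exact H.natDegree_mul_finrank π hπ

include π hπ in
/-- An element of `k(t)` integral over `k[j]` is `p(t)/Q(t)^m`. -/
theorem exists_rep_of_mem_line {r : modularFunctionFieldFullC k N} (hr : r ∈ k⟮H.t⟯)
    (hreg : RegFin r) : ∃ (p : k[X]) (m : ℕ), r * aeval H.t H.Q ^ m = aeval H.t p := by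
  classical
  have := isFunctionField_level (k := k) (natCast_level_ne_zero π hπ)
  obtain ⟨g, h, rfl⟩ := (IntermediateField.mem_adjoin_simple_iff k r).mp hr
  have htr := H.transcendental_t π hπ
  induction hd : h.natDegree using Nat.strong_induction_on generalizing g h with
  | _ d ih =>
    rcases eq_or_ne h 0 with rfl | hh
    · exact ⟨0, 0, by simp⟩
    rcases Nat.eq_zero_or_pos d with rfl | hpos
    · obtain ⟨e, rfl⟩ : ∃ e, h = C e := ⟨h.coeff 0, Polynomial.eq_C_of_natDegree_eq_zero hd⟩
      refine ⟨C e⁻¹ * g, 0, ?_⟩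
      rw [map_mul, aeval_C, aeval_C, map_inv₀, pow_zero, mul_one, div_eq_inv_mul]
    obtain ⟨α, hα⟩ := IsAlgClosed.exists_root h
      (fun h0 => by rw [Polynomial.degree_eq_natDegree hh, hd] at h0; simp at h0; omega)
    obtain ⟨h', rfl⟩ := dvd_iff_isRoot.mpr hα
    have hh' : h' ≠ 0 := right_ne_zero_of_mul hh
    have hlt : h'.natDegree < d := by
      rw [← hd, natDegree_mul (X_sub_C_ne_zero α) hh', natDegree_X_sub_C]
      omega
    have hne : ∀ p : k[X], p ≠ 0 → aeval H.t p ≠ 0 := fun p hp h0 =>
      hp (transcendental_iff.mp htr p h0)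
    by_cases hQ : H.Q.eval α = 0
    · obtain ⟨Q', hQ'⟩ := dvd_iff_isRoot.mpr (show H.Q.IsRoot α from hQ)
      have hstep : aeval H.t g / aeval H.t ((X - C α) * h') * aeval H.t H.Q =
          aeval H.t (g * Q') / aeval H.t h' := by
        rw [map_mul, map_mul, hQ', map_mul]
        rw [div_mul_eq_mul_div, mul_left_comm, mul_div_mul_left _ _ (hne _ (X_sub_C_ne_zero α))]
      obtain ⟨p, m, hpm⟩ := ih _ hlt (g * Q') h'
        (div_mem (IntermediateField.algebra_adjoin_le_adjoin k _ (aeval_mem_adjoin_singleton k _))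
          (IntermediateField.algebra_adjoin_le_adjoin k _ (aeval_mem_adjoin_singleton k _)))
        (hstep ▸ hreg.mul (H.regFin_aeval _)) rfl
      exact ⟨p, m + 1, by rw [pow_succ', ← mul_assoc, hstep, hpm]⟩
    by_cases hg : g.IsRoot α
    · obtain ⟨g', rfl⟩ := dvd_iff_isRoot.mpr hg
      have hstep : aeval H.t ((X - C α) * g') / aeval H.t ((X - C α) * h') =
          aeval H.t g' / aeval H.t h' := by
        rw [map_mul, map_mul, mul_div_mul_left _ _ (hne _ (X_sub_C_ne_zero α))]
      rw [hstep] at hreg hr ⊢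
      exact ih _ hlt g' h' hr hreg rfl
    exfalso
    -- a place over `t = α` at which `j` is finite
    set f := H.t - algebraMap k _ α
    have hf0 : f ≠ 0 := by simpa [f] using hne _ (X_sub_C_ne_zero α)
    obtain ⟨v, hv⟩ : ∃ v : Place k (modularFunctionFieldFullC k N), 0 < v.ord f := by
      by_contra hall
      push Not at hall
      have htrf : Transcendental k f⁻¹ := fun hf => by
        have h1 := hf.inv
        rw [inv_inv] at h1
        exact htr (by simpa [f] using h1.add (isAlgebraic_algebraMap α))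
      have h1 := FF.degree_poleDiv htrf
      rw [show FF.poleDiv k f⁻¹ = 0 from Finsupp.ext fun v => by
        rw [FF.poleDiv_apply, v.ord_inv, neg_neg, max_eq_right (hall v), Finsupp.zero_apply],
        map_zero] at h1
      have := FF.finite_adjoin_simple htrf
      exact absurd (Module.finrank_pos (R := k⟮f⁻¹⟯) (M := modularFunctionFieldFullC k N))
        (by omega)
    have hfm : f ∈ v.toValuationSubring := (FF.mem_toValuationSubring_iff_ord v hf0).mpr hv.le
    have htm : H.t ∈ v.toValuationSubring := by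
      have := add_mem hfm (v.algebraMap_mem' α)
      simpa [f] using this
    have hval : ∀ p : k[X], p.eval α ≠ 0 → v.ord (aeval H.t p) = 0 := by
      intro p hp
      obtain ⟨p', hp'⟩ := Polynomial.X_sub_C_dvd_sub_C_eval (a := α) (p := p)
      have e : aeval H.t p = algebraMap k _ (p.eval α) + f * aeval H.t p' := by
        have h1 := congrArg (aeval H.t) hp'
        rw [map_sub, aeval_C, map_mul, map_sub, aeval_X, aeval_C] at h1
        rw [← h1]
        ring
      have hc0 : algebraMap k (modularFunctionFieldFullC k N) (p.eval α) ≠ 0 :=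
        (_root_.map_ne_zero _).mpr hp
      rw [e, FF.ord_add_eq_left v hc0, FF.ord_algebraMap]
      rcases eq_or_ne (f * aeval H.t p') 0 with h0 | h0
      · exact Or.inl h0
      · refine Or.inr ?_
        rw [FF.ord_algebraMap, v.ord_mul hf0 (right_ne_zero_of_mul h0)]
        have := FF.ord_nonneg_of_mem v (FF.aeval_mem_of_mem v.algebraMap_mem' htm p')
        omega
    have hjm : jC k N ∈ v.toValuationSubring := by
      rw [H.jC_eq, div_eq_mul_inv]
      refine mul_mem (FF.aeval_mem_of_mem v.algebraMap_mem' htm _) ?_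
      refine (FF.mem_toValuationSubring_iff_ord v (inv_ne_zero H.Q_ne_zero)).mpr ?_
      rw [v.ord_inv, hval _ hQ, neg_zero]
    have h1 := FF.ord_nonneg_of_mem v (hreg.mem_place v hjm)
    have hg0 : g ≠ 0 := fun h0 => hg (by simp [h0])
    rw [FF.ord_div v (hne g hg0) (hne _ hh), hval g hg, map_mul,
      v.ord_mul (hne _ (X_sub_C_ne_zero α)) (hne _ hh')] at h1
    have h2 := FF.ord_nonneg_of_mem v (FF.aeval_mem_of_mem v.algebraMap_mem' htm h')
    rw [show aeval H.t (X - C α) = f by simp [f]] at h1
    omega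

/-- Fibre sums of elements integral over `k[j]`. -/
theorem exists_rep {x : modularFunctionFieldFullC k N} (hx : RegFin x) :
    ∃ (p : k[X]) (m : ℕ), (∑ i ∈ H.fibre π hπ, sig π hπ i x) *
      sig π hπ cst0 (aeval H.t H.Q) ^ m = sig π hπ cst0 (aeval H.t p) := by
  obtain ⟨r, hr, hsum⟩ : ∃ r ∈ k⟮H.t⟯, ∑ i ∈ H.fibre π hπ, sig π hπ i x = sig π hπ cst0 r :=
    ⟨_, (Algebra.trace k⟮H.t⟯ (modularFunctionFieldFullC k N) x).2, (H.trace_fibre π hπ x).symm⟩
  have hreg : RegFin r := by
    have hint : (evJ k N).IsIntegralElem (sig π hπ cst0 r) := by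
      rw [← hsum]
      exact Finset.sum_induction _ (evJ k N).IsIntegralElem
        (fun a b => RingHom.IsIntegralElem.add _)
        (RingHom.isIntegralElem_zero _) fun i _ => hx.isIntegralElem_sig π hπ i
    obtain ⟨p, hp, hpr⟩ := hint
    refine ⟨p, hp, (sig π hπ cst0).injective ?_⟩
    rw [map_zero, Polynomial.hom_eval₂,
      show (sig π hπ cst0).comp (evC k N) = evJ k N from RingHom.ext (sig_evC π hπ cst0)]
    exact hpr
  obtain ⟨p, m, hpm⟩ := H.exists_rep_of_mem_line π hπ hr hreg
  exact ⟨p, m, by rw [hsum, ← map_pow, ← map_mul, hpm]⟩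

end HData

end Fermat.Agent.Reduction.Level
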