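import Fermat.Agent.Reduction.Level.Finite
import Fermat.Agent.Reduction.Roots
import Fermat.Agent.Reduction.Valued

/-!
# The `q`-expansion principle at level `N`

An element integral over `K[j]` is `P(G)/Φ'(G)` with `P` over `K[j]`; the differences of the
conjugates of `j(Nτ)` have unit leading coefficients, so scaling `P` normalises all conjugates at
once and the reduction is again integral over `k[j]`.
-/

set_option autoImplicit false

noncomputable section

open scoped MatrixGroups
open Polynomial ModularCurve Fermat.Agent.Igusa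

namespace Fermat.Agent.Reduction.Level

section Leading

variable {k : Type*} [Field k] {N : ℕ} [NeZero N]

theorem coeff_Gk_of_lt (π : Rz N →+* k) {m : ℕ} [NeZero m] (hm : m ∣ N) (i : Cst N) {n : ℤ}
    (hn : n < -(expo N m (repg i) : ℤ)) : (Gk π hm i).coeff n = 0 :=
  HahnSeries.coeff_eq_zero_of_lt_order (by rw [order_Gk]; exact hn)

theorem coeff_Gk_top (π : Rz N →+* k) {m : ℕ} [NeZero m] (hm : m ∣ N) (i : Cst N) :
    (Gk π hm i).coeff (-(expo N m (repg i) : ℤ)) =
      (((Units.map (π : Rz N →* k) (tw N m (repg i))) ^ (-1 : ℤ) : kˣ) : k) := by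
  have := neZero_expo hm (repg i)
  rw [Gk_eq, ← mul_neg_one (expo N m (repg i) : ℤ), qExpand_coeff_mul, twist_coeff,
    coeff_jqModC_neg_one, mul_one]

/-- Differences of conjugates have no cancellation in top degree. -/
theorem order_Gk_sub (π : Rz N →+* k) (hπ : IsPrimitiveRoot (π (zetaR N)) N) {i i' : Cst N}
    (hne : i ≠ i') :
    (Gk π (dvd_refl N) i - Gk π (dvd_refl N) i').order =
      -(max (expo N N (repg i)) (expo N N (repg i')) : ℤ) := by
  refine order_eq_of_coeff ?_ fun n hn => ?_
  · rw [HahnSeries.coeff_sub]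
    rcases lt_trichotomy (expo N N (repg i)) (expo N N (repg i')) with h | h | h
    · rw [max_eq_right (by omega), coeff_Gk_of_lt π (dvd_refl N) i (by omega), zero_sub,
        neg_ne_zero, coeff_Gk_top]
      exact Units.ne_zero _
    · rw [← h, max_self, coeff_Gk_top, h, coeff_Gk_top, sub_ne_zero]
      intro heq
      refine hne (Gk_injective π hπ ?_)
      have := neZero_expo (dvd_refl N) (repg i)
      have := neZero_expo (dvd_refl N) (repg i')
      have h2 : Units.map (π : Rz N →* k) (tw N N (repg i)) =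
          Units.map (π : Rz N →* k) (tw N N (repg i')) :=
        inv_injective ((zpow_neg_one _).symm.trans ((Units.ext heq).trans (zpow_neg_one _)))
      rw [Gk_eq, Gk_eq, qExpand_congr h, h2]
    · rw [max_eq_left (by omega), coeff_Gk_of_lt π (dvd_refl N) i' (by omega), sub_zero,
        coeff_Gk_top]
      exact Units.ne_zero _
  · rw [HahnSeries.coeff_sub, coeff_Gk_of_lt π (dvd_refl N) i (by omega),
      coeff_Gk_of_lt π (dvd_refl N) i' (by omega), sub_zero]

open Classical in
theorem order_dPhi (π : Rz N →+* k) (hπ : IsPrimitiveRoot (π (zetaR N)) N) (i : Cst N) :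
    (dPhi π i).order = ∑ i' ∈ Finset.univ.erase i,
      -(max (expo N N (repg i)) (expo N N (repg i')) : ℤ) := by
  rw [dPhi, order_prod _ _ fun i' hi' => sub_ne_zero.mpr fun h =>
    (Finset.mem_erase.mp hi').1 (Gk_injective π hπ h).symm]
  exact Finset.sum_congr rfl fun i' hi' => order_Gk_sub π hπ (Finset.mem_erase.mp hi').1.symm

theorem coeffMap_evJ {R S : Type*} [CommRing R] [CommRing S] (f : R →+* S) (p : R[X]) :
    coeffMap f (evJ R N p) = evJ S N (p.map f) := by
  simp only [evJ, Polynomial.coe_eval₂RingHom, Polynomial.eval₂_map, Polynomial.hom_eval₂,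
    coeffMap_jW]
  congr 1
  ext a : 1
  simp [HahnSeries.C_apply]

end Leading

variable {K k : Type*} [Field K] [Field k] {A : ValuationSubring K} {π : A →+* k}
variable {N : ℕ} [NeZero N]

omit [NeZero N] in
theorem red_red (πR : Rz N →+* A) (x : AQ N) :
    Red A π (Igusa.red (A.subtype.comp πR) x) (Igusa.red (π.comp πR) x) := fun n =>
  ⟨(πR ((serHom x).coeff n)).2, rfl⟩

theorem red_Gk (πR : Rz N →+* A) {m : ℕ} [NeZero m] (hm : m ∣ N) (i : Cst N) :
    Red A π (Gk (A.subtype.comp πR) hm i) (Gk (π.comp πR) hm i) :=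
  red_red πR _

theorem red_evJ (p : A[X]) : Red A π (evJ K N (p.map A.subtype)) (evJ k N (p.map π)) :=
  red_iff_exists.mpr ⟨evJ A N p, coeffMap_evJ _ p, coeffMap_evJ _ p⟩

/-- A polynomial whose value at `j` is integral has integral coefficients. -/
theorem exists_map_subtype_eq {p : K[X]} (h : ∀ n, (evJ K N p).coeff n ∈ A) :
    ∃ q : A[X], q.map A.subtype = p := by
  induction hd : p.natDegree using Nat.strong_induction_on generalizing p with
  | _ d ih =>
    rcases eq_or_ne p 0 with rfl | hp0
    · exact ⟨0, Polynomial.map_zero _⟩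
    have hlead : p.leadingCoeff ∈ A := by
      have := h (-((N : ℤ) * p.natDegree))
      rwa [coeff_evJ_natDegree] at this
    set t : A[X] := C ⟨p.leadingCoeff, hlead⟩ * X ^ p.natDegree with ht
    have htm : t.map A.subtype = C p.leadingCoeff * X ^ p.natDegree := by simp [ht]
    have hrest : ∀ n, (evJ K N (p - t.map A.subtype)).coeff n ∈ A := fun n => by
      rw [map_sub, HahnSeries.coeff_sub, ← coeffMap_evJ (N := N) A.subtype t, coeffMap_coeff]
      exact sub_mem (h n) (Subtype.prop _)
    have herase : p - t.map A.subtype = p.eraseLead := by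
      rw [htm, Polynomial.self_sub_C_mul_X_pow]
    rcases Polynomial.eraseLead_natDegree_lt_or_eraseLead_eq_zero p with hlt | hz
    · obtain ⟨q, hq⟩ := ih _ (hd ▸ (herase ▸ hlt)) hrest rfl
      exact ⟨q + t, by rw [Polynomial.map_add, hq, sub_add_cancel]⟩
    · exact ⟨t, by rw [eq_comm, ← sub_eq_zero, herase, hz]⟩

variable (A) (π) in
/-- A family of polynomials can be scaled to integral ones with nonzero reduction. -/
theorem exists_scale {ι : Type*} [Fintype ι] {f : ι → K[X]}
    (hf : f ≠ 0) :
    ∃ c : K, c ≠ 0 ∧ ∃ q : ι → A[X],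
      (∀ l, (q l).map A.subtype = C c * f l) ∧ ∃ l, (q l).map π ≠ 0 := by
  classical
  obtain ⟨l₀, hl₀⟩ := Function.ne_iff.mp hf
  let S : Finset (Σ _ : ι, ℕ) := Finset.univ.sigma fun l => (f l).support
  have hS : ⟨l₀, (f l₀).natDegree⟩ ∈ S :=
    Finset.mem_sigma.mpr ⟨Finset.mem_univ _, Polynomial.natDegree_mem_support_of_nonzero hl₀⟩
  have : Nonempty S := ⟨⟨_, hS⟩⟩
  obtain ⟨⟨⟨l₁, n₁⟩, h₁⟩, hmax⟩ :=
    exists_max_valuation (A := A) fun s : S => (f s.1.1).coeff s.1.2
  set a := (f l₁).coeff n₁ with ha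
  have ha0 : a ≠ 0 := Polynomial.mem_support_iff.mp (Finset.mem_sigma.mp h₁).2
  have hmem : ∀ l n, a⁻¹ * (f l).coeff n ∈ A := by
    intro l n
    rw [← ValuationSubring.valuation_le_one_iff, map_mul, map_inv₀]
    rcases eq_or_ne ((f l).coeff n) 0 with h0 | h0
    · simp [h0]
    calc (A.valuation a)⁻¹ * A.valuation ((f l).coeff n)
        ≤ (A.valuation a)⁻¹ * A.valuation a := by
          gcongr
          exact hmax ⟨⟨l, n⟩, Finset.mem_sigma.mpr
            ⟨Finset.mem_univ _, Polynomial.mem_support_iff.mpr h0⟩⟩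
      _ = 1 := inv_mul_cancel₀ ((Valuation.ne_zero_iff _).mpr ha0)
  have hq : ∀ l, ∃ q : A[X], q.map A.subtype = C a⁻¹ * f l := fun l => by
    refine (Polynomial.mem_lifts _).mp ((Polynomial.lifts_iff_coeff_lifts _).mpr fun n => ?_)
    rw [Polynomial.coeff_C_mul]
    exact ⟨⟨_, hmem l n⟩, rfl⟩
  choose q hq using hq
  refine ⟨a⁻¹, inv_ne_zero ha0, q, hq, l₁, fun h0 => ?_⟩
  have h1 : ((q l₁).coeff n₁ : K) = 1 := by
    have := congrArg (fun p : K[X] => p.coeff n₁) (hq l₁)
    simp only [Polynomial.coeff_map, Polynomial.coeff_C_mul] at this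
    rw [ValuationSubring.coe_subtype] at this
    rw [this, ← ha, inv_mul_cancel₀ ha0]
  have h2 : π ((q l₁).coeff n₁) = 1 := by
    rw [show (q l₁).coeff n₁ = 1 from Subtype.ext h1, map_one]
  rw [← Polynomial.coeff_map, h0, Polynomial.coeff_zero] at h2
  exact zero_ne_one h2

variable [IsAlgClosed K] [IsAlgClosed k] (hπs : Function.Surjective π) (πR : Rz N →+* A)
  (hK : IsPrimitiveRoot (A.subtype.comp πR (zetaR N)) N)
  (hk : IsPrimitiveRoot (π.comp πR (zetaR N)) N)

include hπs hK hk

omit [IsAlgClosed k] in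
theorem red_dPhi_inv (i : Cst N) :
    Red A π (dPhi (A.subtype.comp πR) i)⁻¹ (dPhi (π.comp πR) i)⁻¹ := by
  classical
  have hr : Red A π (dPhi (A.subtype.comp πR) i) (dPhi (π.comp πR) i) :=
    Red.prod _ fun i' _ => (red_Gk πR _ i).sub (red_Gk πR _ i')
  have ho : (dPhi (A.subtype.comp πR) i).order = (dPhi (π.comp πR) i).order := by
    rw [order_dPhi _ hK, order_dPhi _ hk]
  have h1 : ((1 : ℕ) : k) ≠ 0 := by simp
  obtain ⟨G, hG, -, -, -, hinv⟩ := exists_pow_eq_of_red hπs h1 (dPhi_ne_zero _ hk i)
    (f := dPhi (A.subtype.comp πR) i) (by rwa [pow_one]) fun n hn => by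
      rw [Nat.cast_one, one_mul, ← ho] at hn
      exact HahnSeries.coeff_eq_zero_of_lt_order hn
  rw [pow_one] at hG
  exact hG ▸ hinv

/-- **The `q`-expansion principle**: a nonzero regular element can be scaled so that all its
conjugates are integral and reduce to the conjugates of a nonzero regular element. -/
theorem exists_normalized {x : modularFunctionFieldFullC K N} (hx : RegFin x) (hx0 : x ≠ 0) :
    ∃ c : K, c ≠ 0 ∧ ∃ w : modularFunctionFieldFullC k N, w ≠ 0 ∧ RegFin w ∧
      ∀ i, Red A π (sig _ hK i (algebraMap K _ c * x)) (sig _ hk i w) := by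
  classical
  obtain ⟨P, hP⟩ := exists_interp_of_integral _ hK hx
  have hP0 : P ≠ 0 := fun h0 => by
    have := hP cst0
    rw [h0] at this
    simp only [Pi.zero_apply, map_zero, zero_mul, Finset.sum_const_zero, mul_eq_zero] at this
    exact this.elim (fun h => hx0 ((map_eq_zero _).mp h)) (dPhi_ne_zero _ hK cst0)
  obtain ⟨c, hc, q, hq, l₀, hl₀⟩ := exists_scale A π hP0
  set num : modularFunctionFieldFullC k N :=
    ∑ l : Fin (idx N), evC k N ((q l).map π) * jNC k N ^ (l : ℕ) with hnum
  set den := aeval (jNC k N) (minpoly (baseC k N) (jNC k N)).derivative with hden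
  have hsn : ∀ i, sig _ hk i num =
      ∑ l : Fin (idx N), evJ k N ((q l).map π) * Gk (π.comp πR) (dvd_refl N) i ^ (l : ℕ) := by
    intro i
    simp only [hnum, map_sum, map_mul, map_pow, sig_evC, sig_jNC]
  set w := num / den
  have hsw : ∀ i, sig _ hk i w = (∑ l : Fin (idx N), evJ k N ((q l).map π) *
      Gk (π.comp πR) (dvd_refl N) i ^ (l : ℕ)) * (dPhi (π.comp πR) i)⁻¹ := fun i => by
    rw [map_div₀, hsn, sig_derivative, div_eq_mul_inv]
  have hred : ∀ i, Red A π (sig _ hK i (algebraMap K _ c * x)) (sig _ hk i w) := by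
    intro i
    have h1 : sig _ hK i (algebraMap K _ c * x) =
        (∑ l : Fin (idx N), evJ K N ((q l).map A.subtype) *
          Gk (A.subtype.comp πR) (dvd_refl N) i ^ (l : ℕ)) * (dPhi (A.subtype.comp πR) i)⁻¹ := by
      have hd := dPhi_ne_zero _ hK i
      rw [eq_mul_inv_iff_mul_eq₀ hd, map_mul, sig_algebraMap, mul_assoc, hP i, Finset.mul_sum]
      refine Finset.sum_congr rfl fun l _ => ?_
      rw [hq l, map_mul, ← mul_assoc]
      congr 2
      rw [evJ, Polynomial.coe_eval₂RingHom, Polynomial.eval₂_C,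
        algebraMap_laurentSeries_eq_single, HahnSeries.C_apply]
    rw [h1, hsw]
    exact (Red.sum _ fun l _ => (red_evJ _).mul ((red_Gk πR _ i).pow _)).mul
      (red_dPhi_inv hπs πR hK hk i)
  have hw0 : w ≠ 0 := by
    intro h0
    have h1 := hsw cst0
    rw [h0, map_zero, eq_comm, mul_eq_zero] at h1
    rcases h1 with h1 | h1
    · exact hl₀ (congrFun (pow_independent _ hk _ h1) l₀)
    · exact dPhi_ne_zero _ hk cst0 (inv_eq_zero.mp h1)
  refine ⟨c, hc, w, hw0, ?_, hred⟩
  -- reduce a monic equation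
  set y := algebraMap K (modularFunctionFieldFullC K N) c * x
  obtain ⟨m, hm, hmy, hmS⟩ := ((regFin_algebraMap c).mul hx : RegFin y).exists_monic _ hK
  let S : Subring (LaurentSeries K) :=
    { carrier := {z | ∀ n, z.coeff n ∈ A}
      zero_mem' := fun n => red_zero (π := π).coeff_mem n
      one_mem' := fun n => red_one (π := π).coeff_mem n
      add_mem' := fun {a b} ha hb n => by
        rw [HahnSeries.coeff_add]
        exact add_mem (ha n) (hb n)
      neg_mem' := fun {a} ha n => by
        rw [HahnSeries.coeff_neg]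
        exact neg_mem (ha n)
      mul_mem' := fun {a b} ha hb n => by
        obtain ⟨a', ha'⟩ := exists_red_of_coeff_mem π ha
        obtain ⟨b', hb'⟩ := exists_red_of_coeff_mem π hb
        exact (ha'.mul hb').coeff_mem n }
  choose r hr using fun n => exists_map_subtype_eq
    (hmS S (fun i n => (hred i).coeff_mem n) n)
  have hlift : m ∈ Polynomial.lifts (Polynomial.mapRingHom A.subtype) :=
    (Polynomial.lifts_iff_coeff_lifts _).mpr fun n => ⟨r n, hr n⟩
  obtain ⟨M, hM, -, hMm⟩ := Polynomial.lifts_and_natDegree_eq_and_monic hlift hm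
  refine ⟨M.map (Polynomial.mapRingHom π), hMm.map _, (sig _ hk cst0).injective ?_⟩
  rw [Polynomial.eval₂_map, Polynomial.hom_eval₂, map_zero]
  have h2 : Red A π (sig _ hK cst0 (m.eval₂ (evC K N) y))
      (M.eval₂ ((sig _ hk cst0).comp ((evC k N).comp (Polynomial.mapRingHom π)))
        (sig _ hk cst0 w)) := by
    rw [← hM, Polynomial.eval₂_map, Polynomial.hom_eval₂, Polynomial.eval₂_eq_sum_range,
      Polynomial.eval₂_eq_sum_range]
    refine Red.sum _ fun n _ => ?_
    simp only [RingHom.comp_apply, sig_evC, Polynomial.coe_mapRingHom]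
    exact (red_evJ _).mul ((hred cst0).pow n)
  rw [hmy, map_zero] at h2
  exact h2.unique red_zero

omit hπs hK hk in
variable (A π N) in
/-- Every reduced element integral over `k[j]` lifts to an integral element integral over
`K[j]`. -/
def NormalLift : Prop :=
  ∀ w : modularFunctionFieldFullC k N, RegFin w → ∃ y : modularFunctionFieldFullC K N,
    RegFin y ∧ Red A π (y : LaurentSeries K) (w : LaurentSeries k)

end Fermat.Agent.Reduction.Level
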