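import Fermat.Agent.Reduction.Level.Fibre

/-!
# Normal lifting over the line of a Hauptmodul

Let `j = P(t)/Q(t)` with the same integral data in both characteristics. Among families of
liftable elements whose conjugates over `k(t)` are independent take one with the fewest zeros of
the discriminant away from `Q = 0`. A zero would lift to a point of the line with unramified
fibre on which a combination vanishes, and dividing that combination decreases the count. Hence
every normal element is a combination with coefficients in `k[t, 1/Q]`, and lifts.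
-/

set_option autoImplicit false

noncomputable section

open Polynomial ModularCurve IntermediateField AlgebraicCurve Fermat.Agent.Igusa
open scoped MatrixGroups

attribute [-instance] IsScalarTower.of_algHom

namespace Fermat.Agent.Reduction.Level

variable {K k : Type*} [Field K] [Field k] {A : ValuationSubring K} {π : A →+* k}

/-- Inverting a series keeps reductions if the order is kept. -/
theorem red_inv_of_order_eq [IsAlgClosed K] (hπs : Function.Surjective π) {f : LaurentSeries K}
    {g : LaurentSeries k} (hr : Red A π f g) (hg : g ≠ 0) (ho : f.order = g.order) :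
    Red A π f⁻¹ g⁻¹ := by
  have h1 : ((1 : ℕ) : k) ≠ 0 := by simp
  obtain ⟨G, hG, -, -, -, hinv⟩ := exists_pow_eq_of_red hπs h1 hg (f := f) (by rwa [pow_one])
    fun n hn => by
      rw [Nat.cast_one, one_mul, ← ho] at hn
      exact HahnSeries.coeff_eq_zero_of_lt_order hn
  rw [pow_one] at hG
  exact hG ▸ hinv

/-- A root of the reduction of an integral polynomial lifts to a root. -/
theorem exists_root_lift [IsAlgClosed K] (hπs : Function.Surjective π) {p : A[X]}
    (hp : p.map π ≠ 0) {β : k} (hβ : (p.map π).IsRoot β) :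
    ∃ α : A, p.IsRoot α ∧ π α = β := by
  induction hd : p.natDegree using Nat.strong_induction_on generalizing p with
  | _ d ih =>
    have hp0 : p ≠ 0 := fun h => hp (by rw [h, Polynomial.map_zero])
    have hpos : 0 < d := by
      by_contra h
      rw [Nat.eq_zero_of_not_pos h] at hd
      obtain ⟨e, he⟩ : ∃ e, p = C e := ⟨p.coeff 0, eq_C_of_natDegree_eq_zero hd⟩
      rw [he, Polynomial.map_C, IsRoot, eval_C] at hβ
      exact hp (by rw [he, Polynomial.map_C, hβ, map_zero])
    have hdeg : (p.map A.subtype).degree ≠ 0 := by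
      rw [degree_map_eq_of_injective A.subtype_injective, degree_eq_natDegree hp0, hd]
      exact_mod_cast hpos.ne'
    obtain ⟨r, hr⟩ := IsAlgClosed.exists_root _ hdeg
    by_cases hrA : r ∈ A
    · have hroot : p.IsRoot ⟨r, hrA⟩ := A.subtype_injective (by
        rw [map_zero, ← eval₂_at_apply, ← eval_map]
        exact hr)
      by_cases hπr : π ⟨r, hrA⟩ = β
      · exact ⟨_, hroot, hπr⟩
      obtain ⟨p', hp'⟩ := dvd_iff_isRoot.mpr hroot
      have h0 : p' ≠ 0 := fun h => hp0 (by rw [hp', h, mul_zero])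
      rw [hp', Polynomial.map_mul, Polynomial.map_sub, Polynomial.map_X, Polynomial.map_C] at hp hβ
      have hlt : p'.natDegree < d := by
        rw [← hd, hp', natDegree_mul (X_sub_C_ne_zero _) h0, natDegree_X_sub_C]
        omega
      have hβ' : (p'.map π).IsRoot β := by
        rw [IsRoot, eval_mul, eval_sub, eval_X, eval_C, mul_eq_zero, sub_eq_zero] at hβ
        exact hβ.resolve_left (Ne.symm hπr)
      obtain ⟨α, hα, hαβ⟩ := ih _ hlt (right_ne_zero_of_mul hp) hβ' rfl
      exact ⟨α, by rw [hp']; exact root_mul.mpr (Or.inr hα), hαβ⟩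
    · have hr0 : r ≠ 0 := fun h => hrA (h ▸ A.zero_mem)
      have hinv : r⁻¹ ∈ A := (A.mem_or_inv_mem r).resolve_left hrA
      have hπinv : π ⟨r⁻¹, hinv⟩ = 0 := by
        refine (residue_eq_zero_iff hπs _).mpr ?_
        have h1 : 1 < A.valuation r := not_le.mp fun h =>
          hrA ((ValuationSubring.valuation_le_one_iff _ _).mp h)
        show A.valuation r⁻¹ < 1
        rw [map_inv₀]
        exact inv_lt_one_of_one_lt₀ h1
      obtain ⟨q, hq⟩ := dvd_iff_isRoot.mpr hr
      set s := C r * q with hs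
      have hps : p.map A.subtype = (C r⁻¹ * X - 1) * s := by
        rw [hq, hs, show (C r⁻¹ * X - 1 : K[X]) * (C r * q) = (C r⁻¹ * C r * X - C r) * q by ring,
          ← map_mul, inv_mul_cancel₀ hr0, map_one, one_mul]
      have hs_mem : ∀ n, s.coeff n ∈ A := by
        intro n
        induction n with
        | zero =>
          have h1 := congrArg (fun P : K[X] => P.coeff 0) hps
          simp only [coeff_map, mul_coeff_zero, coeff_sub, coeff_C_zero, coeff_X_zero,
            coeff_one_zero, mul_zero, zero_sub, neg_mul, one_mul] at h1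
          rw [← neg_neg (s.coeff 0), ← h1]
          exact neg_mem (Subtype.prop _)
        | succ n ihn =>
          have h1 := congrArg (fun P : K[X] => P.coeff (n + 1)) hps
          simp only [coeff_map, sub_mul, one_mul, coeff_sub, mul_assoc, coeff_C_mul,
            coeff_X_mul] at h1
          rw [show s.coeff (n + 1) = r⁻¹ * s.coeff n - A.subtype (p.coeff (n + 1)) by
            linear_combination h1]
          exact sub_mem (mul_mem hinv ihn) (Subtype.prop _)
      obtain ⟨sA, hsA⟩ : s ∈ Polynomial.lifts A.subtype :=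
        (Polynomial.lifts_iff_coeff_lifts _).mpr fun n => ⟨⟨_, hs_mem n⟩, rfl⟩
      rw [Polynomial.coe_mapRingHom] at hsA
      have hpA : p = (C (⟨r⁻¹, hinv⟩ : A) * X - 1) * sA := Polynomial.map_injective A.subtype
        A.subtype_injective (by
          rw [Polynomial.map_mul, Polynomial.map_sub, Polynomial.map_mul, Polynomial.map_C,
            Polynomial.map_X, Polynomial.map_one, hsA]
          exact hps)
      have hπp : p.map π = -(sA.map π) := by
        rw [hpA, Polynomial.map_mul, Polynomial.map_sub, Polynomial.map_mul, Polynomial.map_C,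
          hπinv, map_zero, zero_mul, Polynomial.map_one, zero_sub, neg_one_mul]
      have hs0 : sA ≠ 0 := fun h => hp0 (by rw [hpA, h, mul_zero])
      have hc0 : (⟨r⁻¹, hinv⟩ : A) ≠ 0 := fun h => inv_ne_zero hr0 (congrArg Subtype.val h)
      have hlin : (C (⟨r⁻¹, hinv⟩ : A) * X - 1).natDegree = 1 := by
        rw [sub_eq_add_neg, ← map_one (C : A →+* A[X]), ← map_neg]
        exact natDegree_linear hc0
      have hlin0 : (C (⟨r⁻¹, hinv⟩ : A) * X - 1 : A[X]) ≠ 0 := fun h => by
        rw [h] at hlin; simp at hlin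
      have hlt : sA.natDegree < d := by
        rw [← hd, hpA, natDegree_mul hlin0 hs0, hlin]
        omega
      obtain ⟨α, hα, hαβ⟩ := ih _ hlt (fun h => hp (by rw [hπp, h, neg_zero]))
        (by rw [hπp, IsRoot, eval_neg, neg_eq_zero] at hβ; exact hβ) rfl
      exact ⟨α, by rw [hpA]; exact root_mul.mpr (Or.inr hα), hαβ⟩

theorem exists_dvd_pow_of_roots [IsAlgClosed k] {D Q : k[X]} (hD : D ≠ 0)
    (h : ∀ x ∈ D.roots, Q.eval x = 0) : ∃ n, D ∣ Q ^ n := by
  refine ⟨Multiset.card D.roots, ?_⟩
  have key : ∀ m : Multiset k, (∀ x ∈ m, Q.eval x = 0) →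
      (m.map fun x => X - C x).prod ∣ Q ^ Multiset.card m := by
    intro m
    induction m using Multiset.induction with
    | empty => simp
    | cons a m ih =>
      intro hm
      rw [Multiset.map_cons, Multiset.prod_cons, Multiset.card_cons, pow_succ']
      exact mul_dvd_mul (dvd_iff_isRoot.mpr (hm a (Multiset.mem_cons_self a m)))
        (ih fun x hx => hm x (Multiset.mem_cons_of_mem hx))
  exact (dvd_of_eq (IsAlgClosed.splits D).eq_prod_roots).trans
    ((IsUnit.mul_left_dvd (isUnit_C.mpr
      (isUnit_iff_ne_zero.mpr (leadingCoeff_ne_zero.mpr hD)))).mpr (key _ h))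

variable {N : ℕ} [NeZero N]

theorem regFin_jNC [IsAlgClosed k] (ρ : Rz N →+* k) (hρ : IsPrimitiveRoot (ρ (zetaR N)) N) :
    RegFin (jNC k N) := by
  obtain ⟨P, hPm, -, hP⟩ := exists_charPoly_red ρ (jFam (N := N) dvd_rfl) (equivariant_jFam _)
  refine ⟨P, hPm, inclN_injective k N ?_⟩
  rw [map_zero, Polynomial.hom_eval₂,
    show (inclN k N).comp (evC k N) = (phiJ N k).comp (algebraMap k[X] (Kj k)) from
      RingHom.ext fun p => by
        rw [RingHom.comp_apply, RingHom.comp_apply, phiJ_algebraMap, ← sig_cst0 ρ hρ, sig_evC],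
    inclN_jNC N ρ, ← Polynomial.eval₂_map, ← Polynomial.eval_map, hP, Polynomial.eval_prod]
  exact Finset.prod_eq_zero (Finset.mem_univ cst0) (by simp [Gk])

variable (A π N) in
/-- The same data `j = P(t)/Q(t)` in both characteristics, with `t = q⁻¹ + ⋯` integral. -/
structure HPair where
  /-- the data in characteristic zero -/
  HK : HData K N
  /-- the reduced data -/
  Hk : HData k N
  /-- the integral denominator -/
  Qp : A[X]
  hQK : HK.Q = Qp.map A.subtype
  hQk : Hk.Q = Qp.map π
  hdeg : HK.P.natDegree = Hk.P.natDegree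
  red_t : Red A π (HK.t : LaurentSeries K) (Hk.t : LaurentSeries k)
  order_t : (HK.t : LaurentSeries K).order = -1
  lead_t : (HK.t : LaurentSeries K).coeff (-1) = 1

variable [IsAlgClosed K] [IsAlgClosed k] (hπs : Function.Surjective π) (πR : Rz N →+* A)
  (hK : IsPrimitiveRoot (A.subtype.comp πR (zetaR N)) N)
  (hk : IsPrimitiveRoot (π.comp πR (zetaR N)) N)

namespace HPair

variable (H : HPair A π N)

local notation "σK" => sig (A.subtype.comp πR) hK
local notation "σk" => sig (π.comp πR) hk

theorem red_sig_cst0 {y : modularFunctionFieldFullC K N} {x : modularFunctionFieldFullC k N}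
    (h : Red A π (y : LaurentSeries K) (x : LaurentSeries k)) :
    Red A π (σK cst0 y) (σk cst0 x) := by
  rw [sig_cst0_apply, sig_cst0_apply]
  exact red_qExpand h

omit [NeZero N] [IsAlgClosed K] [IsAlgClosed k] in
theorem red_aeval (p : A[X]) :
    Red A π ((aeval H.HK.t (p.map A.subtype) : modularFunctionFieldFullC K N) : LaurentSeries K)
      ((aeval H.Hk.t (p.map π) : modularFunctionFieldFullC k N) : LaurentSeries k) := by
  induction p using Polynomial.induction_on' with
  | add p q hp hq =>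
    rw [Polynomial.map_add, Polynomial.map_add, map_add, map_add]
    exact hp.add hq
  | monomial n c =>
    rw [map_monomial, map_monomial, aeval_monomial, aeval_monomial]
    exact (red_algebraMap c).mul (H.red_t.pow n)

omit [NeZero N] [IsAlgClosed K] [IsAlgClosed k] in
theorem order_tk : (H.Hk.t : LaurentSeries k).order = -1 := by
  obtain ⟨hm, hπ1⟩ := H.red_t (-1)
  refine order_eq_of_coeff ?_ fun n hn => ?_
  · rw [← hπ1, show (⟨_, hm⟩ : A) = 1 from Subtype.ext H.lead_t, map_one]
    exact one_ne_zero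
  · obtain ⟨hm', hπn⟩ := H.red_t n
    rw [← hπn, show (⟨_, hm'⟩ : A) = 0 from Subtype.ext
      (HahnSeries.coeff_eq_zero_of_lt_order (by rw [H.order_t]; exact hn)), map_zero]

theorem coeff_aeval {F : Type*} [Field F] {s : LaurentSeries F} (hs : s.order = -1)
    (hl : s.coeff (-1) = 1) (p : F[X]) :
    (aeval s p).coeff (-(p.natDegree : ℤ)) = p.leadingCoeff ∧
      ∀ n : ℤ, n < -(p.natDegree : ℤ) → (aeval s p).coeff n = 0 := by
  have hs0 : s ≠ 0 := fun h => by rw [h, HahnSeries.order_zero] at hs; omega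
  have hpow : ∀ i : ℕ, (s ^ i).order = -(i : ℤ) := fun i => by
    rw [HahnSeries.order_pow, hs, nsmul_eq_mul, mul_neg_one]
  have hcoeff : ∀ i : ℕ, (s ^ i).coeff (-(i : ℤ)) = 1 := fun i => by
    rw [← hpow i, ← HahnSeries.leadingCoeff_eq]
    induction i with
    | zero => simp
    | succ i ih =>
      rw [pow_succ, HahnSeries.leadingCoeff_mul, ih, one_mul, HahnSeries.leadingCoeff_eq, hs, hl]
  constructor
  · rw [aeval_eq_sum_range, HahnSeries.coeff_sum, Finset.sum_eq_single p.natDegree]
    · rw [Algebra.smul_def, coeff_algebraMap_mul, hcoeff, mul_one]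
      rfl
    · intro i hi hne
      rw [Finset.mem_range] at hi
      rw [Algebra.smul_def, coeff_algebraMap_mul,
        HahnSeries.coeff_eq_zero_of_lt_order (by rw [hpow]; omega), mul_zero]
    · simp
  · intro n hn
    rw [aeval_eq_sum_range, HahnSeries.coeff_sum]
    refine Finset.sum_eq_zero fun i hi => ?_
    rw [Finset.mem_range] at hi
    rw [Algebra.smul_def, coeff_algebraMap_mul,
      HahnSeries.coeff_eq_zero_of_lt_order (by rw [hpow]; omega), mul_zero]

omit [NeZero N] in
theorem coe_aeval {F : Type*} [Field F] (t : modularFunctionFieldFullC F N) (p : F[X]) :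
    ((aeval t p : modularFunctionFieldFullC F N) : LaurentSeries F) =
      aeval (t : LaurentSeries F) p :=
  (aeval_algHom_apply (modularFunctionFieldFullC F N).val t p).symm

omit [NeZero N] [IsAlgClosed K] [IsAlgClosed k] in
theorem exists_map_eq {p : K[X]}
    (h : ∀ n, ((aeval H.HK.t p : modularFunctionFieldFullC K N) : LaurentSeries K).coeff n ∈ A) :
    ∃ q : A[X], q.map A.subtype = p := by
  induction hd : p.natDegree using Nat.strong_induction_on generalizing p with
  | _ d ih =>
    rcases eq_or_ne p 0 with rfl | hp0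
    · exact ⟨0, Polynomial.map_zero _⟩
    have hlead : p.leadingCoeff ∈ A := by
      have := h (-(p.natDegree : ℤ))
      rwa [coe_aeval, (coeff_aeval H.order_t H.lead_t p).1] at this
    set t : A[X] := C ⟨p.leadingCoeff, hlead⟩ * X ^ p.natDegree with ht
    have htm : t.map A.subtype = C p.leadingCoeff * X ^ p.natDegree := by simp [ht]
    have herase : p - t.map A.subtype = p.eraseLead := by
      rw [htm, Polynomial.self_sub_C_mul_X_pow]
    have hrest : ∀ n, ((aeval H.HK.t (p - t.map A.subtype) : modularFunctionFieldFullC K N) :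
        LaurentSeries K).coeff n ∈ A := fun n => by
      rw [map_sub, AddSubgroupClass.coe_sub, HahnSeries.coeff_sub]
      exact sub_mem (h n) ((H.red_aeval t).coeff_mem n)
    rcases Polynomial.eraseLead_natDegree_lt_or_eraseLead_eq_zero p with hlt | hz
    · obtain ⟨q, hq⟩ := ih _ (hd ▸ (herase ▸ hlt)) hrest rfl
      exact ⟨q + t, by rw [Polynomial.map_add, hq, sub_add_cancel]⟩
    · exact ⟨t, by rw [eq_comm, ← sub_eq_zero, herase, hz]⟩

omit [IsAlgClosed K] [IsAlgClosed k] [NeZero N] in
theorem order_aeval_Q : ((aeval H.HK.t H.HK.Q : modularFunctionFieldFullC K N) :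
    LaurentSeries K).order = -(H.HK.Q.natDegree : ℤ) := by
  refine order_eq_of_coeff ?_ fun n hn => ?_
  · rw [coe_aeval, (coeff_aeval H.order_t H.lead_t _).1, H.HK.monicQ.leadingCoeff]
    exact one_ne_zero
  · rw [coe_aeval]
    exact (coeff_aeval H.order_t H.lead_t _).2 n hn

omit [NeZero N] [IsAlgClosed K] [IsAlgClosed k] in
theorem lead_tk : (H.Hk.t : LaurentSeries k).coeff (-1) = 1 := by
  obtain ⟨hm, hπ1⟩ := H.red_t (-1)
  rw [← hπ1, show (⟨_, hm⟩ : A) = 1 from Subtype.ext H.lead_t, map_one]

omit [NeZero N] [IsAlgClosed K] [IsAlgClosed k] in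
theorem natDegree_Qk : H.Hk.Q.natDegree = H.HK.Q.natDegree := by
  have hm : H.Qp.Monic := Polynomial.monic_of_injective A.subtype_injective (H.hQK ▸ H.HK.monicQ)
  rw [H.hQK, H.hQk, hm.natDegree_map, hm.natDegree_map]

include hπs in
omit [IsAlgClosed k] [NeZero N] in
theorem red_inv_Q :
    Red A π (((aeval H.HK.t H.HK.Q)⁻¹ : modularFunctionFieldFullC K N) : LaurentSeries K)
      (((aeval H.Hk.t H.Hk.Q)⁻¹ : modularFunctionFieldFullC k N) : LaurentSeries k) := by
  refine red_inv_of_order_eq hπs ?_ (fun h => H.Hk.Q_ne_zero (Subtype.ext h)) ?_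
  · rw [H.hQK, H.hQk]; exact H.red_aeval _
  · rw [H.order_aeval_Q]
    refine (order_eq_of_coeff ?_ fun n hn => ?_).symm
    · rw [coe_aeval, ← H.natDegree_Qk, (coeff_aeval H.order_tk H.lead_tk _).1,
        H.Hk.monicQ.leadingCoeff]
      exact one_ne_zero
    · rw [coe_aeval]
      exact (coeff_aeval H.order_tk H.lead_tk _).2 n (by rw [H.natDegree_Qk]; exact hn)

include hπs in
theorem fibre_eq : H.HK.fibre _ hK = H.Hk.fibre _ hk := by
  refine Finset.eq_of_subset_of_card_le (fun i hi => ?_) ?_
  · have h1 := red_conj hπs πR hK hk H.HK.regFin_t H.red_t i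
    have h2 := red_conj hπs πR hK hk H.HK.regFin_t H.red_t cst0
    rw [(H.HK.mem_fibre _ hK).mp hi] at h1
    exact (H.Hk.mem_fibre _ hk).mpr (h1.unique h2)
  · have h1 := H.HK.natDegree_mul_card_fibre _ hK
    have h2 := H.Hk.natDegree_mul_card_fibre _ hk
    rw [H.hdeg] at h1
    have hpos : 0 < (H.Hk.P.natDegree : ℤ) := by
      exact_mod_cast lt_of_le_of_lt (Nat.zero_le _) H.Hk.deg_lt
    exact_mod_cast le_of_mul_le_mul_left (h2.trans h1.symm).le hpos

variable {d : ℕ} (e : Fin d ≃ H.HK.fibre (A.subtype.comp πR) hK)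

/-- The conjugates of a family over the line. -/
def conjMatrix (bw : Fin d → modularFunctionFieldFullC k N) :
    Matrix (Fin d) (Fin d) (LaurentSeries k) :=
  Matrix.of fun i j => σk (e i : Cst N) (bw j)

include hπs in
/-- The fibre sums of an integral family, with reductions. -/
theorem exists_gram (b : Fin d → modularFunctionFieldFullC K N)
    (bw : Fin d → modularFunctionFieldFullC k N) (hb : ∀ j, RegFin (b j))
    (hred : ∀ j, Red A π (b j : LaurentSeries K) (bw j : LaurentSeries k)) :
    ∃ (p : Matrix (Fin d) (Fin d) A[X]) (m : ℕ),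
      (∀ i j, (∑ a ∈ H.HK.fibre _ hK, σK a (b i * b j)) * σK cst0 (aeval H.HK.t H.HK.Q) ^ m =
        σK cst0 (aeval H.HK.t ((p i j).map A.subtype))) ∧
      σk cst0 (aeval H.Hk.t (p.det.map π)) =
        (H.conjMatrix πR hK hk e bw).det ^ 2 * σk cst0 (aeval H.Hk.t H.Hk.Q) ^ (m * d) := by
  classical
  choose q m hqm using fun ij : Fin d × Fin d =>
    H.HK.exists_rep _ hK ((hb ij.1).mul (hb ij.2))
  set M := Finset.univ.sup m
  have hM : ∀ ij, (∑ a ∈ H.HK.fibre _ hK, σK a (b ij.1 * b ij.2)) *
      σK cst0 (aeval H.HK.t H.HK.Q) ^ M =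
        σK cst0 (aeval H.HK.t (q ij * H.HK.Q ^ (M - m ij))) := fun ij => by
    obtain ⟨c, hc⟩ := Nat.exists_eq_add_of_le (Finset.le_sup (f := m) (Finset.mem_univ ij))
    rw [show M = m ij + c from hc, Nat.add_sub_cancel_left, pow_add, ← mul_assoc, hqm ij,
      map_mul (aeval H.HK.t), map_pow (aeval H.HK.t), map_mul, map_pow]
  have hredsum : ∀ ij : Fin d × Fin d,
      Red A π ((∑ a ∈ H.HK.fibre _ hK, σK a (b ij.1 * b ij.2)) *
          σK cst0 (aeval H.HK.t H.HK.Q) ^ M)
        ((∑ a ∈ H.HK.fibre _ hK, σk a (bw ij.1 * bw ij.2)) *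
          σk cst0 (aeval H.Hk.t H.Hk.Q) ^ M) := fun ij => by
    refine (Red.sum _ fun a _ => ?_).mul ((red_sig_cst0 πR hK hk ?_).pow M)
    · exact red_conj hπs πR hK hk ((hb ij.1).mul (hb ij.2)) ((hred ij.1).mul (hred ij.2)) a
    · rw [H.hQK, H.hQk]; exact H.red_aeval _
  choose r hr using fun ij => H.exists_map_eq (p := q ij * H.HK.Q ^ (M - m ij)) fun n => by
    have h := hredsum ij
    rw [hM ij, sig_cst0_apply] at h
    have h' := h.coeff_mem ((N : ℤ) * n)
    rwa [qExpand_coeff_mul] at h'
  refine ⟨Matrix.of fun i j => r (i, j), M, fun i j => by rw [hM (i, j), Matrix.of_apply, hr], ?_⟩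
  set S := H.conjMatrix πR hK hk e bw with hS
  let φ : k[X] →+* LaurentSeries k := (σk cst0).comp (aeval H.Hk.t : k[X] →ₐ[k] _).toRingHom
  have hent : ((Matrix.of fun i j => r (i, j)).map (fun p : A[X] => φ (p.map π))) =
      σk cst0 (aeval H.Hk.t H.Hk.Q) ^ M • (S.transpose * S) := by
    refine Matrix.ext fun i j => ?_
    have h1 := hredsum (i, j)
    rw [hM (i, j), ← hr (i, j)] at h1
    have h2 := (red_sig_cst0 πR hK hk (H.red_aeval (r (i, j)))).unique h1
    rw [Matrix.map_apply, Matrix.of_apply, Matrix.smul_apply, Matrix.mul_apply, smul_eq_mul]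
    refine h2.trans ?_
    rw [mul_comm, ← Finset.sum_coe_sort (H.HK.fibre _ hK), ← Equiv.sum_comp e]
    congr 1
    exact Finset.sum_congr rfl fun a _ => by rw [map_mul]; rfl
  have h3 : φ ((Matrix.of fun i j => r (i, j)).det.map π) =
      ((Matrix.of fun i j => r (i, j)).map (fun p : A[X] => φ (p.map π))).det :=
    RingHom.map_det (φ.comp (Polynomial.mapRingHom π)) _
  rw [hent, Matrix.det_smul, Matrix.det_mul, Matrix.det_transpose, Fintype.card_fin, ← pow_mul]
    at h3
  rw [sq, mul_comm (S.det * S.det)]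
  exact h3

variable (hPA : ∃ P₀ : K[X], H.HK.P = P₀ ^ 3) (hPB : ∃ B₀ : K[X], H.HK.P - C 1728 * H.HK.Q = B₀ ^ 2)

include hπs hPA hPB in
/-- A family whose discriminant has no zero away from `Q = 0`. -/
theorem exists_good [Algebra ℚ K] (ι : K →+* ℂ) :
    ∃ (b : Fin d → modularFunctionFieldFullC K N) (bw : Fin d → modularFunctionFieldFullC k N)
      (p : Matrix (Fin d) (Fin d) A[X]) (m : ℕ),
      (∀ j, RegFin (b j)) ∧ (∀ j, Red A π (b j : LaurentSeries K) (bw j : LaurentSeries k)) ∧
      (H.conjMatrix πR hK hk e bw).det ≠ 0 ∧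
      (∀ i j, (∑ a ∈ H.HK.fibre _ hK, σK a (b i * b j)) * σK cst0 (aeval H.HK.t H.HK.Q) ^ m =
        σK cst0 (aeval H.HK.t ((p i j).map A.subtype))) ∧
      σk cst0 (aeval H.Hk.t (p.det.map π)) =
        (H.conjMatrix πR hK hk e bw).det ^ 2 * σk cst0 (aeval H.Hk.t H.Hk.Q) ^ (m * d) ∧
      ∀ x ∈ (p.det.map π).roots, H.Hk.Q.eval x = 0 := by
  classical
  let Admissible (b : Fin d → modularFunctionFieldFullC K N)
      (bw : Fin d → modularFunctionFieldFullC k N) : Prop :=
    (∀ j, RegFin (b j)) ∧ (∀ j, Red A π (b j : LaurentSeries K) (bw j : LaurentSeries k)) ∧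
      (H.conjMatrix πR hK hk e bw).det ≠ 0
  let Good (b : Fin d → modularFunctionFieldFullC K N)
      (bw : Fin d → modularFunctionFieldFullC k N) (p : Matrix (Fin d) (Fin d) A[X]) (m : ℕ) :
      Prop :=
    Admissible b bw ∧
      (∀ i j, (∑ a ∈ H.HK.fibre _ hK, σK a (b i * b j)) * σK cst0 (aeval H.HK.t H.HK.Q) ^ m =
        σK cst0 (aeval H.HK.t ((p i j).map A.subtype))) ∧
      σk cst0 (aeval H.Hk.t (p.det.map π)) =
        (H.conjMatrix πR hK hk e bw).det ^ 2 * σk cst0 (aeval H.Hk.t H.Hk.Q) ^ (m * d)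
  let mu : k[X] → ℕ := fun D => Multiset.card (D.roots.filter fun x => H.Hk.Q.eval x ≠ 0)
  have hexists : ∃ (n : ℕ) (b : Fin d → modularFunctionFieldFullC K N)
      (bw : Fin d → modularFunctionFieldFullC k N) (p : Matrix (Fin d) (Fin d) A[X]) (m : ℕ),
      Good b bw p m ∧ mu (p.det.map π) = n := by
    set b : Fin d → modularFunctionFieldFullC K N := fun j => jNC K N ^ (j : ℕ)
    set bw : Fin d → modularFunctionFieldFullC k N := fun j => jNC k N ^ (j : ℕ)
    have hb : ∀ j, RegFin (b j) := fun j => (regFin_jNC _ hK).pow _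
    have hred : ∀ j, Red A π (b j : LaurentSeries K) (bw j : LaurentSeries k) := fun j => by
      refine Red.pow (qExpand_coeff_red (N := N) ?_) _
      rw [← sig_cst0_apply _ hK (jNC K N), ← sig_cst0_apply _ hk (jNC k N), sig_jNC, sig_jNC]
      exact red_Gk πR _ _
    have hdet : (H.conjMatrix πR hK hk e bw).det ≠ 0 := by
      have : H.conjMatrix πR hK hk e bw = Matrix.vandermonde fun i =>
          Gk (π.comp πR) (dvd_refl N) (e i : Cst N) := by
        refine Matrix.ext fun i j => ?_
        simp only [conjMatrix, Matrix.of_apply, Matrix.vandermonde_apply, bw, map_pow, sig_jNC]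
      rw [this, Matrix.det_vandermonde_ne_zero_iff]
      exact fun i j h => e.injective (Subtype.ext (Gk_injective _ hk h))
    obtain ⟨p, m, h1, h2⟩ := H.exists_gram hπs πR hK hk e b bw hb hred
    exact ⟨_, b, bw, p, m, ⟨⟨hb, hred, hdet⟩, h1, h2⟩, rfl⟩
  obtain ⟨b, bw, p, m, ⟨⟨hb, hred, hdet⟩, hp, hdetp⟩, hmu⟩ := Nat.find_spec hexists
  refine ⟨b, bw, p, m, hb, hred, hdet, hp, hdetp, fun β hβ => ?_⟩
  by_contra hQβ
  set D := p.det
  have hD0 : D.map π ≠ 0 := (Polynomial.mem_roots'.mp hβ).1
  obtain ⟨α, hα, hαβ⟩ := exists_root_lift hπs hD0 (Polynomial.mem_roots'.mp hβ).2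
  have hQα : H.HK.Q.eval (α : K) ≠ 0 := by
    intro h0
    refine hQβ ?_
    rw [H.hQK, show (α : K) = A.subtype α from rfl, eval_map, eval₂_at_apply] at h0
    rw [H.hQk, ← hαβ, eval_map, eval₂_at_apply,
      show H.Qp.eval α = 0 from A.subtype_injective (h0.trans (map_zero _).symm), map_zero]
  obtain ⟨c, hc, hvan⟩ := H.HK.exists_vanishing ι hK hPA hPB hQα
    (by rw [← Fintype.card_coe, ← Fintype.card_congr e, Fintype.card_fin]) b hb
    (p.map fun q => q.map A.subtype) m (fun i j => hp i j) (by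
      have h1 := RingHom.map_det ((Polynomial.evalRingHom (α : K)).comp
        (Polynomial.mapRingHom A.subtype)) p
      rw [RingHom.mapMatrix_apply] at h1
      rw [Matrix.map_map]
      refine h1.symm.trans ?_
      show eval (α : K) (D.map A.subtype) = 0
      rw [show (α : K) = A.subtype α from rfl, eval_map, eval₂_at_apply, hα.eq_zero, map_zero])
  obtain ⟨a, cA, ha, hcA, ⟨j₀, hj₀⟩, -⟩ := exists_scale_const π hc
  -- divide the vanishing combination by `t - α`
  set fK := H.HK.t - algebraMap K _ (α : K)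
  set fk := H.Hk.t - algebraMap k _ β
  set z := (∑ j, algebraMap K _ (cA j : K) * b j) * fK⁻¹
  set zw := (∑ j, algebraMap k _ (π (cA j)) * bw j) * fk⁻¹
  have hordf : (fK : LaurentSeries K).order = -1 ∧ (fk : LaurentSeries k).order = -1 := by
    have h1 := coeff_aeval H.order_t H.lead_t (X - C (α : K))
    have h2 := coeff_aeval H.order_tk H.lead_tk (X - C β)
    rw [natDegree_X_sub_C, (monic_X_sub_C _).leadingCoeff, Nat.cast_one] at h1 h2
    have e1 : (fK : LaurentSeries K) = aeval (H.HK.t : LaurentSeries K) (X - C (α : K)) := by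
      rw [← coe_aeval]; simp [fK]
    have e2 : (fk : LaurentSeries k) = aeval (H.Hk.t : LaurentSeries k) (X - C β) := by
      rw [← coe_aeval]; simp [fk]
    rw [e1, e2]
    exact ⟨order_eq_of_coeff (by rw [h1.1]; exact one_ne_zero) (by simpa using h1.2),
      order_eq_of_coeff (by rw [h2.1]; exact one_ne_zero) (by simpa using h2.2)⟩
  have hfk0 : fk ≠ 0 := fun h => by
    have := hordf.2
    rw [h] at this
    simp at this
  have hzred : Red A π (z : LaurentSeries K) (zw : LaurentSeries k) := by
    have hf : Red A π (fK : LaurentSeries K) (fk : LaurentSeries k) := by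
      have := H.red_aeval (X - C α)
      simpa [fK, fk, hαβ] using this
    simp only [z, zw, IntermediateField.coe_mul, AddSubmonoidClass.coe_finsetSum]
    refine (Red.sum _ fun j _ => (red_algebraMap (cA j)).mul (hred j)).mul ?_
    exact red_inv_of_order_eq hπs hf (fun h => hfk0 (Subtype.ext h))
      (hordf.1.trans hordf.2.symm)
  have hzreg : RegFin z := by
    have := isFunctionField_level (k := K) (natCast_level_ne_zero _ hK)
    refine regFin_of_forall_mem (natCast_level_ne_zero _ hK) fun v hv => ?_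
    have hsum : ∀ j, algebraMap K _ (cA j : K) * b j ∈ v.toValuationSubring := fun j =>
      mul_mem (v.algebraMap_mem' _) ((hb j).mem_place v hv)
    rcases eq_or_ne fK 0 with h0 | h0
    · simp only [z, h0, inv_zero, mul_zero]; exact zero_mem _
    rcases eq_or_ne (∑ j, algebraMap K (modularFunctionFieldFullC K N) (cA j : K) * b j) 0 with
      hs0 | hs0
    · simp only [z, hs0, zero_mul]; exact zero_mem _
    have hfm : fK ∈ v.toValuationSubring :=
      sub_mem (H.HK.regFin_t.mem_place v hv) (v.algebraMap_mem' _)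
    refine (FF.mem_toValuationSubring_iff_ord v (mul_ne_zero hs0 (inv_ne_zero h0))).mpr ?_
    rw [v.ord_mul hs0 (inv_ne_zero h0), v.ord_inv]
    rcases (FF.ord_nonneg_of_mem v hfm).lt_or_eq with hpos | heq
    · rw [H.HK.ord_sub_eq_one ι hPA hPB hQα v hpos]
      have h1 : ∑ j, algebraMap K (modularFunctionFieldFullC K N) (cA j : K) * b j =
          algebraMap K _ a * ∑ j, algebraMap K _ (c j) * b j := by
        rw [Finset.mul_sum]
        exact Finset.sum_congr rfl fun j _ => by rw [hcA, map_mul, mul_assoc]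
      have h2 : ∑ j, algebraMap K (modularFunctionFieldFullC K N) (cA j : K) * b j ∈
          FF.ordGE v 1 := by
        rw [h1]
        simpa using FF.mul_mem_ordGE v (FF.algebraMap_mem_ordGE_zero v a) (hvan v hpos)
      rw [FF.mem_ordGE_of_ne_zero v hs0] at h2
      omega
    · rw [← heq, neg_zero, add_zero]
      exact FF.ord_nonneg_of_mem v (sum_mem fun j _ => hsum j)
  -- the new family has fewer zeros
  set b' := Function.update b j₀ z
  set bw' := Function.update bw j₀ zw
  set S := H.conjMatrix πR hK hk e bw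
  have hdet' : (H.conjMatrix πR hK hk e bw').det =
      algebraMap k (LaurentSeries k) (π (cA j₀)) * (σk cst0 fk)⁻¹ * S.det := by
    have hconj : H.conjMatrix πR hK hk e bw' = S.updateCol j₀ fun i =>
        ∑ j, (algebraMap k (LaurentSeries k) (π (cA j)) * (σk cst0 fk)⁻¹) • S i j := by
      refine Matrix.ext fun i j => ?_
      rw [Matrix.updateCol_apply]
      simp only [conjMatrix, Matrix.of_apply, bw', S]
      rcases eq_or_ne j j₀ with rfl | hne
      · rw [Function.update_self, if_pos rfl]
        simp only [zw, map_mul, map_sum, sig_algebraMap, map_inv₀, Finset.sum_mul, smul_eq_mul]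
        refine Finset.sum_congr rfl fun l _ => ?_
        have hmem : (e i : Cst N) ∈ H.Hk.fibre (π.comp πR) hk :=
          H.fibre_eq hπs πR hK hk ▸ (e i).2
        rw [show σk (e i : Cst N) fk = σk cst0 fk by
          simp only [fk, map_sub, sig_algebraMap, (H.Hk.mem_fibre _ hk).mp hmem]]
        ring
      · rw [Function.update_of_ne hne, if_neg hne]
    rw [hconj, Matrix.det_updateCol_sum, smul_eq_mul]
  have hadm : Admissible b' bw' := by
    refine ⟨fun j => ?_, fun j => ?_, ?_⟩
    · rcases eq_or_ne j j₀ with rfl | hne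
      · simpa [b'] using hzreg
      · simpa [b', hne] using hb j
    · rcases eq_or_ne j j₀ with rfl | hne
      · simpa [b', bw'] using hzred
      · simpa [b', bw', hne] using hred j
    · rw [hdet']
      exact mul_ne_zero (mul_ne_zero ((_root_.map_ne_zero _).mpr hj₀)
        (inv_ne_zero ((_root_.map_ne_zero _).mpr hfk0))) hdet
  obtain ⟨p', m', hp', hdetp'⟩ := H.exists_gram hπs πR hK hk e b' bw' hadm.1 hadm.2.1
  have hevinj : Function.Injective fun q : k[X] => σk cst0 (aeval H.Hk.t q) := fun q q' h => by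
    rw [← sub_eq_zero]
    refine transcendental_iff.mp (H.Hk.transcendental_t _ hk) _ ?_
    rw [map_sub, sub_eq_zero]
    exact (σk cst0).injective h
  have hkey : p'.det.map π * (X - C β) ^ 2 * H.Hk.Q ^ (m * d) =
      C (π (cA j₀) ^ 2) * (D.map π * H.Hk.Q ^ (m' * d)) := by
    refine hevinj ?_
    have hf : aeval H.Hk.t (X - C β) = fk := by simp [fk]
    simp only [map_mul, map_pow, hdetp', hdetp, hdet', hf, aeval_C, sig_algebraMap]
    have hne : σk cst0 fk ≠ 0 := (_root_.map_ne_zero _).mpr hfk0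
    field_simp
  have hQ0 : H.Hk.Q ≠ 0 := H.Hk.monicQ.ne_zero
  have hcs : π (cA j₀) ^ 2 ≠ 0 := pow_ne_zero _ hj₀
  have hD'0 : p'.det.map π ≠ 0 := by
    intro h0
    rw [h0, zero_mul, zero_mul, eq_comm] at hkey
    simp only [mul_eq_zero, C_eq_zero, hcs, hD0, pow_eq_zero_iff', hQ0, false_and, or_self] at hkey
  have hroots := congrArg mu hkey
  have hmuQ : ∀ n, Multiset.filter (fun x => H.Hk.Q.eval x ≠ 0) (H.Hk.Q ^ n).roots = 0 := by
    intro n
    refine Multiset.filter_eq_nil.mpr fun x hx h => h ?_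
    rw [roots_pow] at hx
    exact (mem_roots hQ0).mp (Multiset.mem_of_mem_nsmul hx)
  simp only [mu] at hroots
  rw [roots_mul (mul_ne_zero (mul_ne_zero hD'0 (pow_ne_zero _ (X_sub_C_ne_zero β)))
      (pow_ne_zero _ hQ0)),
    roots_mul (mul_ne_zero hD'0 (pow_ne_zero _ (X_sub_C_ne_zero β))),
    roots_C_mul _ hcs, roots_mul (mul_ne_zero hD0 (pow_ne_zero _ hQ0)),
    Multiset.filter_add, Multiset.filter_add, Multiset.filter_add, hmuQ, hmuQ, add_zero, add_zero,
    roots_pow, roots_X_sub_C] at hroots
  have hβ2 : Multiset.card (Multiset.filter (fun x => H.Hk.Q.eval x ≠ 0)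
      (2 • ({β} : Multiset k))) = 2 := by
    rw [Multiset.filter_nsmul, Multiset.filter_singleton, if_pos hQβ]
    simp
  rw [Multiset.card_add, hβ2] at hroots
  have hlt : mu (p'.det.map π) < Nat.find hexists := by
    rw [← hmu]
    simp only [mu]
    omega
  exact Nat.find_min hexists hlt ⟨b', bw', p', m', ⟨hadm, hp', hdetp'⟩, rfl⟩

include hπs hK hk hPA hPB in
/-- Normal reduced elements lift. -/
theorem normalLift [Algebra ℚ K] (ι : K →+* ℂ) : NormalLift A π N := by
  classical
  intro w hw
  set d := Fintype.card (H.HK.fibre (A.subtype.comp πR) hK)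
  let e : Fin d ≃ H.HK.fibre (A.subtype.comp πR) hK := (Fintype.equivFin _).symm
  obtain ⟨b, bw, p, m, hb, hred, hdet, hp, hdetp, hroots⟩ :=
    H.exists_good hπs πR hK hk e hPA hPB ι
  have hD0 : p.det.map π ≠ 0 := fun h0 => by
    rw [h0, map_zero, map_zero, eq_comm, mul_eq_zero] at hdetp
    rcases hdetp with h | h
    · exact hdet (pow_eq_zero_iff two_ne_zero |>.mp h)
    · exact pow_ne_zero _ ((_root_.map_ne_zero _).mpr H.Hk.Q_ne_zero) h
  obtain ⟨n, R, hR⟩ := exists_dvd_pow_of_roots hD0 hroots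
  have hbw : ∀ j, RegFin (bw j) := fun j => by
    obtain ⟨w', hw', he, -⟩ := exists_red_all hπs πR hK hk (hb j) (hred j)
    exact Subtype.ext he ▸ hw'
  choose q mq hq using fun j => H.Hk.exists_rep _ hk ((hbw j).mul hw)
  set M := Finset.univ.sup mq
  set S := H.conjMatrix πR hK hk e bw with hS
  set v : Fin d → LaurentSeries k := fun i => σk (e i : Cst N) w
  set Q0 := σk cst0 (aeval H.Hk.t H.Hk.Q)
  have hQ00 : Q0 ≠ 0 := (_root_.map_ne_zero _).mpr H.Hk.Q_ne_zero
  let φ : k[X] →+* LaurentSeries k := (σk cst0).comp (aeval H.Hk.t : k[X] →ₐ[k] _).toRingHom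
  let G : Matrix (Fin d) (Fin d) k[X] := p.map fun q => q.map π
  let qv : Fin d → k[X] := fun j => q j * H.Hk.Q ^ (M - mq j)
  let u : Fin d → k[X] := G.adjugate.mulVec qv
  have hqv : (fun j => φ (qv j)) = Q0 ^ M • S.transpose.mulVec v := by
    funext j
    obtain ⟨c, hc⟩ := Nat.exists_eq_add_of_le (Finset.le_sup (f := mq) (Finset.mem_univ j))
    have hfib : H.Hk.fibre (π.comp πR) hk = H.HK.fibre (A.subtype.comp πR) hK :=
      (H.fibre_eq hπs πR hK hk).symm
    have h1 : σk cst0 (aeval H.Hk.t (qv j)) =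
        Q0 ^ M * ∑ a ∈ H.HK.fibre (A.subtype.comp πR) hK, σk a (bw j * w) := by
      rw [show qv j = q j * H.Hk.Q ^ (M - mq j) from rfl, map_mul, map_pow, map_mul, map_pow,
        ← hq j, hfib, show M = mq j + c from hc, Nat.add_sub_cancel_left, pow_add]
      ring
    refine h1.trans ?_
    rw [Pi.smul_apply, smul_eq_mul, ← Finset.sum_coe_sort, ← Equiv.sum_comp e]
    congr 1
    exact Finset.sum_congr rfl fun i _ => by rw [map_mul]; rfl
  have hG : G.map φ = Q0 ^ m • (S.transpose * S) := by
    refine Matrix.ext fun i j => ?_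
    have h1 := (red_sig_cst0 πR hK hk (H.red_aeval (p i j))).unique
      (show Red A π (σK cst0 (aeval H.HK.t ((p i j).map A.subtype)))
        ((∑ a ∈ H.HK.fibre _ hK, σk a (bw i * bw j)) * Q0 ^ m) from hp i j ▸
        (Red.sum _ fun a _ => red_conj hπs πR hK hk ((hb i).mul (hb j))
            ((hred i).mul (hred j)) a).mul
          ((red_sig_cst0 πR hK hk (by rw [H.hQK, H.hQk]; exact H.red_aeval _)).pow m))
    refine h1.trans ?_
    rw [Matrix.smul_apply, Matrix.mul_apply, smul_eq_mul, mul_comm, ← Finset.sum_coe_sort,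
      ← Equiv.sum_comp e]
    congr 1
    exact Finset.sum_congr rfl fun a _ => by rw [map_mul]; rfl
  -- Cramer
  have hsol : Q0 ^ m • S.mulVec (fun j => φ (u j)) = (φ G.det * Q0 ^ M) • v := by
    have hu : (fun j => φ (u j)) = (G.map φ).adjugate.mulVec fun j => φ (qv j) := by
      funext j
      rw [show φ (u j) = φ (G.adjugate.mulVec qv j) from rfl, RingHom.map_mulVec,
        ← RingHom.mapMatrix_apply, RingHom.map_adjugate, RingHom.mapMatrix_apply]
      rfl
    have hvS : v = S.mulVec (S⁻¹.mulVec v) := by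
      rw [Matrix.mulVec_mulVec, Matrix.mul_nonsing_inv _ (isUnit_iff_ne_zero.mpr hdet),
        Matrix.one_mulVec]
    set c := S⁻¹.mulVec v
    have hdetG : φ G.det = (G.map φ).det := RingHom.map_det φ G
    have h3 : Q0 ^ m • S.transpose.mulVec v = (G.map φ).mulVec c := by
      rw [hG, Matrix.smul_mulVec, hvS, Matrix.mulVec_mulVec]
    have h4 : Q0 ^ m • ((G.map φ).adjugate.mulVec (S.transpose.mulVec v)) = (G.map φ).det • c := by
      rw [← Matrix.mulVec_smul, h3, Matrix.mulVec_mulVec, Matrix.adjugate_mul, Matrix.smul_mulVec,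
        Matrix.one_mulVec]
    rw [hu, hqv, hdetG, Matrix.mulVec_smul, Matrix.mulVec_smul, smul_comm, ← Matrix.mulVec_smul,
      h4, Matrix.mulVec_smul, ← hvS, smul_smul, mul_comm]
  obtain ⟨i₀, hi₀⟩ := e.surjective ⟨cst0, H.HK.cst0_mem_fibre _ hK⟩
  have hw' : (σk cst0) (aeval H.Hk.t H.Hk.Q ^ (n + M) * w) =
      σk cst0 (∑ j, aeval H.Hk.t (H.Hk.Q ^ m * R * u j) * bw j) := by
    have h1 := congrFun hsol i₀
    simp only [Pi.smul_apply, smul_eq_mul, Matrix.mulVec, dotProduct] at h1
    have h2 : ∀ j, S i₀ j = σk cst0 (bw j) := fun j => by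
      simp only [hS, conjMatrix, Matrix.of_apply, hi₀]
    have h2' : v i₀ = σk cst0 w := by simp only [v, hi₀]
    have h3 : φ G.det * φ R = Q0 ^ n := by
      rw [← map_mul, show G.det = p.det.map π from
        ((Polynomial.mapRingHom π).map_det p).symm, ← hR, map_pow]
      rfl
    simp only [h2, h2'] at h1
    calc (σk cst0) (aeval H.Hk.t H.Hk.Q ^ (n + M) * w)
        = Q0 ^ n * Q0 ^ M * σk cst0 w := by rw [map_mul, map_pow, pow_add]
      _ = φ R * (φ G.det * Q0 ^ M * σk cst0 w) := by rw [← h3]; ring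
      _ = φ R * (Q0 ^ m * ∑ j, σk cst0 (bw j) * φ (u j)) := by rw [h1]
      _ = _ := by
        rw [map_sum, Finset.mul_sum, Finset.mul_sum]
        refine Finset.sum_congr rfl fun j _ => ?_
        simp only [φ, RingHom.comp_apply, map_mul, map_pow, AlgHom.toRingHom_eq_coe,
          RingHom.coe_coe, Q0]
        ring
  have hw'' := (σk cst0).injective hw'
  -- lift
  choose rA hrA using fun j => Polynomial.map_surjective π hπs (H.Hk.Q ^ m * R * u j)
  refine ⟨(∑ j, aeval H.HK.t ((rA j).map A.subtype) * b j) * (aeval H.HK.t H.HK.Q)⁻¹ ^ (n + M),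
    ?_, ?_⟩
  · refine RegFin.mul (Finset.sum_induction _ RegFin (fun _ _ => RegFin.add)
      (by simpa using regFin_algebraMap (N := N) (0 : K))
      fun j _ => (H.HK.regFin_aeval _).mul (hb j)) (H.HK.regFin_inv_Q.pow _)
  · have hwe : w = (∑ j, aeval H.Hk.t ((rA j).map π) * bw j) *
        (aeval H.Hk.t H.Hk.Q)⁻¹ ^ (n + M) := by
      rw [inv_pow, eq_mul_inv_iff_mul_eq₀ (pow_ne_zero _ H.Hk.Q_ne_zero), mul_comm, hw'']
      exact Finset.sum_congr rfl fun j _ => by rw [hrA]
    rw [hwe]
    simp only [IntermediateField.coe_mul, IntermediateField.coe_pow,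
      AddSubmonoidClass.coe_finsetSum]
    exact (Red.sum _ fun j _ => (H.red_aeval _).mul (hred j)).mul ((H.red_inv_Q hπs).pow _)

end HPair

end Fermat.Agent.Reduction.Level
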