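import Fermat.Agent.Reduction.Level.Bar
import Fermat.Agent.Reduction.PicMap
import Fermat.Prelude.Def_ModularCurve_HeckeModule

/-!
# The specialisation map of `J₀(N)` and the congruence relation, from a Frobenius lift of `T_ℓ`

`spBar` is the reduced class. Inertia acts trivially on it, a Frobenius acts as `φ`, and, given a
`FrobLift` of the correspondence, `T_ℓ` acts as `φ + ℓ φ⁻¹`.
-/

set_option autoImplicit false

noncomputable section

open scoped Pointwise
open AlgebraicCurve ModularCurve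

namespace Fermat.Agent.Reduction.Level

local notation "Qb" => AlgebraicClosure ℚ

variable {ℓ : ℕ} [hℓ : Fact ℓ.Prime] (A : ValuationSubring Qb) (hA : A.LiesOverPrime ℓ)

/-- The arithmetic Frobenius of the residue field. -/
def residueFrob : IsLocalRing.ResidueField A ≃+* IsLocalRing.ResidueField A :=
  haveI := Gal.charP_residueField A (Fact.out (p := ℓ.Prime)) hA
  haveI := Gal.isAlgClosed_residueField A
  haveI : ExpChar (IsLocalRing.ResidueField A) ℓ := .prime Fact.out
  haveI : PerfectRing (IsLocalRing.ResidueField A) ℓ := PerfectField.toPerfectRing ℓ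
  frobeniusEquiv (IsLocalRing.ResidueField A) ℓ

theorem residueFrob_apply (x : IsLocalRing.ResidueField A) : residueFrob A hA x = x ^ ℓ := by
  have := Gal.charP_residueField A (Fact.out (p := ℓ.Prime)) hA
  have := Gal.isAlgClosed_residueField A
  have : ExpChar (IsLocalRing.ResidueField A) ℓ := .prime Fact.out
  have : PerfectRing (IsLocalRing.ResidueField A) ℓ := PerfectField.toPerfectRing ℓ
  exact frobeniusEquiv_apply _ _ x

/-- A chosen Frobenius at `A`. -/
def frobAt : Qb ≃ₐ[ℚ] Qb := (Gal.exists_isFrobeniusAt (Fact.out (p := ℓ.Prime)) hA).choose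

theorem isFrobeniusAt_frobAt : A.IsFrobeniusAt (frobAt A hA) ℓ :=
  (Gal.exists_isFrobeniusAt (Fact.out (p := ℓ.Prime)) hA).choose_spec

variable (N : ℕ) [NeZero N] (hℓN : ¬ ℓ ∣ N)

/-- The symmetry of a Frobenius. -/
def frobGal (σ : Qb ≃ₐ[ℚ] Qb) (hσ : A.IsFrobeniusAt σ ℓ) : (barCurve A hA N hℓN).GaloisSymm :=
  galoisSymm A hA N hℓN σ ((Gal.isFrobeniusAt_iff A σ ℓ).mp hσ).1 (residueFrob A hA)
    fun a h => by rw [residue_frobenius A hσ a h, residueFrob_apply]

/-- `φ` on reduced series. -/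
def frobSymm : (barCurve A hA N hℓN).Symm :=
  (frobGal A hA N hℓN (frobAt A hA) (isFrobeniusAt_frobAt A hA)).symm

/-- `φ⁻¹` on reduced series. -/
def frobInvSymm : (barCurve A hA N hℓN).Symm :=
  (frobGal A hA N hℓN (frobAt A hA) (isFrobeniusAt_frobAt A hA)).inv.symm

theorem frobSymm_toRingHom : (frobSymm A hA N hℓN).toRingHom =
    coeffMap (residueFrob A hA : IsLocalRing.ResidueField A →+* IsLocalRing.ResidueField A) := rfl

theorem frobInvSymm_toRingHom : (frobInvSymm A hA N hℓN).toRingHom =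
    coeffMap ((residueFrob A hA).symm :
      IsLocalRing.ResidueField A →+* IsLocalRing.ResidueField A) := rfl

/-- The reduced class on `J₀(N)`. -/
def spBar : JZero N →+ Additive (barCurve A hA N hℓN).PicBar :=
  (exists_gapBound_bar A hA N hℓN).choose_spec.sp

/-- The reduced class is injective on torsion of order prime to `ℓ`. -/
theorem spBar_injective_torsion {m : ℕ} (hm : ¬ ℓ ∣ m) {z : JZero N} (hmz : m • z = 0)
    (hz : spBar A hA N hℓN z = 0) : z = 0 :=
  (exists_gapBound_bar A hA N hℓN).choose_spec.sp_injective_torsion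
    (natCast_residueField_ne_zero A hA hm) hmz hz

/-- Inertia at `A` acts trivially on reduced classes. -/
theorem spBar_inertia {σ : Qb ≃ₐ[ℚ] Qb} (hσ : σ ∈ A.inertiaSubgroupIn ℚ) (z : JZero N) :
    spBar A hA N hℓN (σ • z) = spBar A hA N hℓN z := by
  let τ := galoisSymm A hA N hℓN σ ((Gal.mem_inertia_iff A σ).mp hσ).1 (RingEquiv.refl _)
    fun a h => residue_inertia A hσ a h
  refine ((exists_gapBound_bar A hA N hℓN).choose_spec.sp_smul τ z).trans ?_
  exact CurveRed.Symm.picMap_eq_self _ (fun x => coeffMap_id x) _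

/-- A Frobenius at `A` acts on reduced classes as the coefficientwise Frobenius `φ`. -/
theorem spBar_frobenius {σ : Qb ≃ₐ[ℚ] Qb} (hσ : A.IsFrobeniusAt σ ℓ) (z : JZero N) :
    spBar A hA N hℓN (σ • z) = (frobSymm A hA N hℓN).picMap (spBar A hA N hℓN z) :=
  (exists_gapBound_bar A hA N hℓN).choose_spec.sp_smul (frobGal A hA N hℓN σ hσ) z

/-- A Frobenius lift of the Hecke correspondence at `ℓ`. -/
def HeckeFrobLift : Prop :=
  haveI : NeZero ℓ := ⟨(Fact.out (p := ℓ.Prime)).ne_zero⟩
  ∀ (hα : HeckeAlphaBarIntegral Qb N ℓ) (hβ : HeckeBetaBarIntegral Qb N ℓ)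
    [HasPrincipalDivisors Qb (laurentBaseChange Qb (modularFunctionFieldFull (N * ℓ)))],
    ∃ d : ℤ, (barCurve A hA N hℓN).FrobLift (frobSymm A hA N hℓN) (frobInvSymm A hA N hℓN) ℓ
      (heckeDivBar hα hβ) d

theorem coeffMap_injective' {R : Type*} [Field R] (f : R →+* R) :
    Function.Injective (coeffMap f) :=
  (coeffMap f).injective

/-- Given a Frobenius lift, `T_ℓ` acts on reduced classes as `φ + ℓ φ⁻¹`. -/
theorem spBar_hecke (hT : HeckeFrobLift A hA N hℓN) (z : JZero N) :
    spBar A hA N hℓN (heckeOperatorBar N (⟨ℓ, Fact.out⟩ : Nat.Primes) z) =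
      (frobSymm A hA N hℓN).picMap (spBar A hA N hℓN z) +
        ℓ • (frobInvSymm A hA N hℓN).picMap (spBar A hA N hℓN z) := by
  have : NeZero ℓ := ⟨(Fact.out (p := ℓ.Prime)).ne_zero⟩
  obtain ⟨hα, hβ, hP, hfin, hFI, hN⟩ := FF.heckeInputsAlong_qbar N ℓ
  have := hP
  show spBar A hA N hℓN (heckeOperatorAlong Qb N ℓ z) = _
  rw [heckeOperatorAlong_eq hα hβ hFI hfin hN]
  obtain ⟨D, rfl⟩ := Pic0.mk_surjective z
  obtain ⟨d, hd⟩ := hT hα hβ
  exact (exists_gapBound_bar A hA N hℓN).choose_spec.classHom_congruence hd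
    (Fact.out (p := ℓ.Prime)).pos (coeffMap_injective' _)
    (coeffMap_injective' _) D.1

/-- **Congruence relation** on reduced classes. -/
theorem spBar_relation (hT : HeckeFrobLift A hA N hℓN) {σ : Qb ≃ₐ[ℚ] Qb}
    (hσ : A.IsFrobeniusAt σ ℓ) (z : JZero N) :
    spBar A hA N hℓN (σ • σ • z - heckeOperatorBar N (⟨ℓ, Fact.out⟩ : Nat.Primes) (σ • z) +
        ℓ • z) = 0 := by
  rw [map_add, map_sub, map_nsmul, spBar_frobenius A hA N hℓN hσ (σ • z),
    spBar_hecke A hA N hℓN hT, spBar_frobenius A hA N hℓN hσ z]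
  rw [CurveRed.Symm.picMap_picMap (frobInvSymm A hA N hℓN) (frobSymm A hA N hℓN) fun x => by
    rw [frobSymm_toRingHom, frobInvSymm_toRingHom]
    ext i
    simp]
  abel

end Fermat.Agent.Reduction.Level
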